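import Mathlib
import Fermat.Agent.CFT.A2.Induced

/-!
# PROJECT C, slice A5a (part 1): the order of the group kills Tate cohomology

For a finite group `G` and `A : Rep R G` there are canonical morphisms
`toCoind₁ A : A ⟶ coind₁ R G A.V` (`a ↦ (x ↦ x • a)`) and
`fromCoind₁ A : coind₁ R G A.V ⟶ A` (`f ↦ ∑ x, x⁻¹ • f x`) whose composite is multiplication by
`|G|`.  Since the Tate cohomology of `coind₁` vanishes, `|G|` kills `tateCohomology A n` for every
`n : ℤ`.
-/

set_option autoImplicit false

open CategoryTheory Limits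

universe u

namespace Fermat.Agent.CFT.A5

open Fermat.Agent.CFT.A2

variable {R G : Type u} [CommRing R] [Group G]

/-- `a ↦ (x ↦ x • a)`. -/
noncomputable def toCoind₁ (A : Rep R G) : A ⟶ coind₁ R G A.V :=
  Rep.ofHom (ρ := A.ρ) (σ := funRep R G A.V)
    ⟨{ toFun := fun a x => A.ρ x a
       map_add' := fun a b => by funext x; simp
       map_smul' := fun r a => by funext x; simp },
     fun g => by
      ext a x
      simp [funRep_apply]⟩

theorem toCoind₁_apply (A : Rep R G) (a : A) (x : G) : (toCoind₁ A).hom a x = A.ρ x a := rfl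

theorem toCoind₁_injective (A : Rep R G) : Function.Injective (toCoind₁ A).hom := by
  intro a b h
  have := congrFun h 1
  rw [toCoind₁_apply, toCoind₁_apply] at this
  simpa using this

variable [Fintype G]

/-- `f ↦ ∑ x, x⁻¹ • f x`. -/
noncomputable def fromCoind₁ (A : Rep R G) : coind₁ R G A.V ⟶ A :=
  Rep.ofHom (ρ := funRep R G A.V) (σ := A.ρ)
    ⟨{ toFun := fun f => ∑ x : G, A.ρ x⁻¹ (f x)
       map_add' := fun f h => by simp [Finset.sum_add_distrib]
       map_smul' := fun r f => by simp [Finset.smul_sum] },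
     fun g => by
      ext f
      simp only [LinearMap.coe_comp, LinearMap.coe_mk, AddHom.coe_mk, Function.comp_apply,
        funRep_apply, map_sum]
      refine Fintype.sum_bijective (· * g) (Group.mulRight_bijective g) _ _ fun x => ?_
      rw [← Module.End.mul_apply, ← map_mul]
      congr 2
      group⟩

theorem fromCoind₁_apply (A : Rep R G) (f : G → A.V) :
    (fromCoind₁ A).hom f = ∑ x : G, A.ρ x⁻¹ (f x) := rfl

theorem fromCoind₁_toCoind₁_apply (A : Rep R G) (a : A) :
    (fromCoind₁ A).hom ((toCoind₁ A).hom a) = (Fintype.card G) • a := by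
  rw [fromCoind₁_apply]
  have h : ∀ x : G, A.ρ x⁻¹ ((toCoind₁ A).hom a x) = a := by
    intro x
    rw [toCoind₁_apply, ← Module.End.mul_apply, ← map_mul, inv_mul_cancel, map_one]
    rfl
  rw [Finset.sum_congr rfl fun x _ => h x, Finset.sum_const, Finset.card_univ]

theorem toCoind₁_fromCoind₁ (A : Rep R G) :
    toCoind₁ A ≫ fromCoind₁ A = (Fintype.card G) • 𝟙 A := by
  ext a
  rw [Rep.nsmul_hom]
  exact fromCoind₁_toCoind₁_apply A a

theorem fromCoind₁_surjective_of_section (A : Rep R G) (a : A) :
    ∃ f : G → A.V, (fromCoind₁ A).hom f = a := by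
  classical
  refine ⟨Pi.single 1 a, ?_⟩
  rw [fromCoind₁_apply, Finset.sum_eq_single 1 (by intro b _ hb; simp [hb]) (by simp)]
  simp

instance tateCohomologyFunctor_additive (n : ℤ) :
    (tateCohomologyFunctor (R := R) (G := G) n).Additive :=
  inferInstanceAs (tateComplexFunctor R G ⋙ HomologicalComplex.homologyFunctor _ _ n).Additive

/-- **F1.** The order of `G` kills Tate cohomology in every degree. -/
theorem card_nsmul_tateCohomologyFunctor_map_id (A : Rep R G) (n : ℤ) :
    (Fintype.card G) • 𝟙 (tateCohomology A n) = 0 := by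
  have h1 : (tateCohomologyFunctor n).map (toCoind₁ A ≫ fromCoind₁ A) = 0 := by
    rw [Functor.map_comp,
      (isZero_tateCohomology_coind₁ R G A.V n).eq_zero_of_tgt
        ((tateCohomologyFunctor n).map (toCoind₁ A)), zero_comp]
  rw [toCoind₁_fromCoind₁, Functor.map_nsmul, CategoryTheory.Functor.map_id] at h1
  exact h1

theorem card_nsmul_tateCohomology (A : Rep R G) (n : ℤ) (x : tateCohomology A n) :
    (Fintype.card G) • x = 0 := by
  have h := congrArg (fun φ => φ.hom x) (card_nsmul_tateCohomologyFunctor_map_id A n)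
  simpa using h

end Fermat.Agent.CFT.A5
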