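import Mathlib

/-!
# PROJECT C, slice A5 (splitting module), part 1: the augmentation representation

For a commutative ring `k` and a group `G` we define the augmentation ideal `I_G ⊆ k[G]` as a
representation `aug k G : Rep k G`, the short exact sequence `0 → I_G → k[G] → k → 0`, and the
canonical `1`-cocycle `g ↦ g - 1` with values in `I_G`; its class is the image of `1 ∈ H⁰(G, k)`
under the connecting homomorphism.
-/

set_option autoImplicit false

universe u

noncomputable section

open CategoryTheory groupCohomology

namespace Fermat.Agent.CFT.A5.Aug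

/-- A criterion for short exactness in `Rep k G` in terms of the underlying functions. -/
theorem shortExact_of {k G : Type u} [CommRing k] [Group G] (S : ShortComplex (Rep.{u} k G))
    (hf : Function.Injective S.f.hom) (hg : Function.Surjective S.g.hom)
    (hex : ∀ x : S.X₂, S.g.hom x = 0 → ∃ y : S.X₁, S.f.hom y = x) : S.ShortExact where
  exact := (forget₂ (Rep.{u} k G) (ModuleCat k)).reflects_exact_of_faithful _ <|
    (ShortComplex.moduleCat_exact_iff _).2 fun x hx => hex x hx
  mono_f := (Rep.mono_iff_injective _).2 hf
  epi_g := (Rep.epi_iff_surjective _).2 hg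

variable (k G : Type u) [CommRing k] [Group G]

/-- The augmentation `k[G] → k`, as a morphism of representations onto the trivial one. -/
def eps : Rep.leftRegular k G ⟶ Rep.trivial k G k :=
  Rep.leftRegularHom (Rep.trivial k G k) (1 : k)

@[simp]
theorem eps_single (g : G) (r : k) : (eps k G).hom (MonoidAlgebra.single g r) = r := by
  simp [eps]

/-- The augmentation ideal as a submodule of `k[G]`. -/
def augSubmodule : Submodule k (Rep.leftRegular k G) := LinearMap.ker (eps k G).hom.toLinearMap

theorem mem_augSubmodule (x : Rep.leftRegular k G) :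
    x ∈ augSubmodule k G ↔ (eps k G).hom x = 0 := Iff.rfl

theorem augSubmodule_le_comap (g : G) :
    augSubmodule k G ≤ (augSubmodule k G).comap ((Rep.leftRegular k G).ρ g) := by
  intro x hx
  rw [Submodule.mem_comap, mem_augSubmodule, Rep.hom_comm_apply]
  rw [mem_augSubmodule] at hx
  rw [hx]
  simp

/-- The augmentation ideal `I_G` as a representation of `G`. -/
def aug : Rep.{u} k G :=
  Rep.subrepresentation (Rep.leftRegular k G) (augSubmodule k G) (augSubmodule_le_comap k G)

/-- The inclusion `I_G → k[G]`. -/
def augι : aug k G ⟶ Rep.leftRegular k G :=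
  Rep.subtype (Rep.leftRegular k G) (augSubmodule k G) (augSubmodule_le_comap k G)

/-- Constructor for elements of `I_G`. -/
def augMk (x : Rep.leftRegular k G) (hx : (eps k G).hom x = 0) : aug k G :=
  (⟨x, hx⟩ : augSubmodule k G)

@[simp]
theorem augι_augMk (x : Rep.leftRegular k G) (hx : (eps k G).hom x = 0) :
    (augι k G).hom (augMk k G x hx) = x := rfl

theorem augι_injective : Function.Injective (augι k G).hom := fun _ _ h => Subtype.ext h

theorem eps_augι (x : aug k G) : (eps k G).hom ((augι k G).hom x) = 0 :=
  (x : augSubmodule k G).2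

theorem eps_surjective : Function.Surjective (eps k G).hom := fun r =>
  ⟨MonoidAlgebra.single 1 r, eps_single k G 1 r⟩

theorem aug_ρ_apply (g : G) (x : aug k G) :
    (augι k G).hom ((aug k G).ρ g x) = (Rep.leftRegular k G).ρ g ((augι k G).hom x) := rfl

/-- The short complex `I_G → k[G] → k`. -/
abbrev augSC : ShortComplex (Rep.{u} k G) :=
  ShortComplex.mk (augι k G) (eps k G) (by
    ext x
    exact eps_augι k G x)

theorem augSC_shortExact : (augSC k G).ShortExact :=
  shortExact_of (augSC k G) (augι_injective k G) (eps_surjective k G)
    fun x hx => ⟨augMk k G x hx, rfl⟩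

/-- The canonical `1`-cochain `g ↦ g - 1` with values in `I_G`. -/
def augCochain : G → aug k G := fun g =>
  augMk k G (MonoidAlgebra.single g 1 - MonoidAlgebra.single 1 1) (by
    rw [map_sub, eps_single, eps_single, sub_self])

@[simp]
theorem augι_augCochain (g : G) :
    (augι k G).hom (augCochain k G g) = MonoidAlgebra.single g 1 - MonoidAlgebra.single 1 1 :=
  rfl

theorem augCochain_mem_cocycles₁ : augCochain k G ∈ cocycles₁ (aug k G) := by
  rw [mem_cocycles₁_iff]
  intro g h
  apply augι_injective
  rw [map_add, aug_ρ_apply, augι_augCochain, augι_augCochain, augι_augCochain, map_sub]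
  simp only [Rep.leftRegular, Rep.ofMulAction]
  erw [Representation.ofMulAction_single, Representation.ofMulAction_single]
  simp only [smul_eq_mul, mul_one]
  abel

/-- The canonical `1`-cocycle `g ↦ g - 1` with values in `I_G`. -/
def augCocycle : cocycles₁ (aug k G) := ⟨augCochain k G, augCochain_mem_cocycles₁ k G⟩

/-- The invariant element `1` of the trivial representation `k`. -/
def oneInv : (Rep.trivial k G k).ρ.invariants := ⟨(1 : k), fun _ => rfl⟩

/-- The connecting homomorphism of `0 → I_G → k[G] → k → 0` sends `1 ∈ H⁰(G, k)` to the class of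
the canonical cocycle `g ↦ g - 1`. -/
theorem δ₀_one :
    δ (augSC_shortExact k G) 0 1 rfl ((H0Iso (Rep.trivial k G k)).inv (oneInv k G))
      = H1π (aug k G) (augCocycle k G) := by
  refine δ₀_apply (augSC_shortExact k G) (oneInv k G) (MonoidAlgebra.single 1 1 : Rep.leftRegular k G)
    (eps_single k G 1 1) (augCochain k G) ?_
  funext g
  show (augι k G).hom (augCochain k G g) = (d₀₁ (Rep.leftRegular k G)).hom _ g
  rw [augι_augCochain, d₀₁_hom_apply]
  simp only [Rep.leftRegular, Rep.ofMulAction]
  erw [Representation.ofMulAction_single]
  simp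

end Fermat.Agent.CFT.A5.Aug
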