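import Mathlib
import Fermat.Agent.CFT.A5.Aug

/-!
# PROJECT C, slice A5 (splitting module), part 2: the splitting module of a `2`-cocycle

For `C : Rep k G` and a `2`-cocycle `φ : G × G → C` we construct the *splitting module*
`split C φ : Rep k G`, an extension `0 → C → C(φ) → I_G → 0` of the augmentation ideal by `C`, in
which the class of `φ` becomes a coboundary.  Concretely `C(φ) = C × I_G` with the twisted action
`τ (c, a) = (τ c + Ψ_τ a, τ a)`, `Ψ_τ (σ) = φ (τ, σ)`.

Main results: `splitSC_shortExact`, and `δ₁_augCocycle`: the connecting homomorphism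
`H¹(G, I_G) → H²(G, C)` sends the class of `g ↦ g - 1` to the class of `φ`.
-/

set_option autoImplicit false

universe u

noncomputable section

open CategoryTheory groupCohomology

namespace Fermat.Agent.CFT.A5.Split

open Fermat.Agent.CFT.A5.Aug

variable {k G : Type u} [CommRing k] [Group G] (C : Rep.{u} k G) (φ : cocycles₂ C)

/-- The linear map `Ψ_τ : k[G] → C`, `σ ↦ φ (τ, σ)`. -/
def Psi (τ : G) : (Rep.leftRegular k G) →ₗ[k] C :=
  Finsupp.lift C k G (fun σ => φ (τ, σ)) ∘ₗ (MonoidAlgebra.coeffLinearEquiv _).toLinearMap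

@[simp]
theorem Psi_single (τ σ : G) (r : k) :
    Psi C φ τ (MonoidAlgebra.single σ r) = r • φ (τ, σ) := by
  simp [Psi]

/-- The twisted cocycle identity satisfied by the maps `Ψ_τ`. -/
theorem Psi_mul (τ' τ : G) (a : Rep.leftRegular k G) :
    Psi C φ (τ' * τ) a + (eps k G).hom a • φ (τ', τ)
      = C.ρ τ' (Psi C φ τ a) + Psi C φ τ' ((Rep.leftRegular k G).ρ τ a) := by
  induction a using MonoidAlgebra.induction_linear with
  | zero => simp
  | add x y hx hy =>
    simp only [map_add, add_smul]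
    rw [add_add_add_comm, hx, hy]
    abel
  | single σ r =>
    have h := (mem_cocycles₂_iff φ).1 φ.2 τ' τ σ
    simp only [Rep.leftRegular, Rep.ofMulAction]
    erw [Representation.ofMulAction_single]
    rw [Psi_single, eps_single, Psi_single, Psi_single, map_smul, ← smul_add, ← smul_add, h,
      smul_eq_mul]

theorem Psi_one (a : Rep.leftRegular k G) :
    Psi C φ 1 a = (eps k G).hom a • φ (1, 1) := by
  induction a using MonoidAlgebra.induction_linear with
  | zero => simp
  | add x y hx hy => simp only [map_add, add_smul, hx, hy]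
  | single σ r => rw [Psi_single, eps_single, cocycles₂_map_one_fst]

/-- The twisted action on `C × I_G`: `τ (c, a) = (τ c + Ψ_τ a, τ a)`. -/
def splitFun (τ : G) : (C × aug k G) →ₗ[k] (C × aug k G) :=
  LinearMap.prod
    ((C.ρ τ).coprod ((Psi C φ τ) ∘ₗ (augι k G).hom.toLinearMap))
    (((aug k G).ρ τ) ∘ₗ LinearMap.snd k C (aug k G))

@[simp]
theorem splitFun_apply (τ : G) (x : C × aug k G) :
    splitFun C φ τ x = (C.ρ τ x.1 + Psi C φ τ ((augι k G).hom x.2), (aug k G).ρ τ x.2) := rfl

/-- The representation of `G` on the splitting module `C × I_G`. -/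
def splitρ : Representation k G (C × aug k G) where
  toFun τ := splitFun C φ τ
  map_one' := by
    refine LinearMap.ext fun x => Prod.ext ?_ ?_
    · simp only [splitFun_apply, map_one, Module.End.one_apply]
      rw [Psi_one, eps_augι, zero_smul, add_zero]
    · simp
  map_mul' τ' τ := by
    refine LinearMap.ext fun x => Prod.ext ?_ ?_
    · have h := Psi_mul C φ τ' τ ((augι k G).hom x.2)
      rw [eps_augι, zero_smul, add_zero] at h
      simp only [splitFun_apply, Module.End.mul_apply, map_mul, map_add, h]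
      abel
    · simp

/-- The splitting module of the `2`-cocycle `φ`. -/
def split : Rep.{u} k G := Rep.of (splitρ C φ)

@[simp]
theorem split_ρ_apply (τ : G) (x : C × aug k G) :
    (split C φ).ρ τ x = (C.ρ τ x.1 + Psi C φ τ ((augι k G).hom x.2), (aug k G).ρ τ x.2) := rfl

/-- The inclusion `C → C(φ)`. -/
def splitInl : C ⟶ split C φ :=
  Rep.ofHom (X := C.V) (Y := C × aug k G) (ρ := C.ρ) (σ := splitρ C φ)
    ⟨LinearMap.inl k C (aug k G), fun τ => by
      refine LinearMap.ext fun c => Prod.ext ?_ ?_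
      · show C.ρ τ c = C.ρ τ c + Psi C φ τ ((augι k G).hom 0)
        rw [map_zero, map_zero, add_zero]
      · show (0 : aug k G) = (aug k G).ρ τ 0
        rw [map_zero]⟩

/-- The projection `C(φ) → I_G`. -/
def splitSnd : split C φ ⟶ aug k G :=
  Rep.ofHom (X := C × aug k G) (Y := (aug k G).V) (ρ := splitρ C φ) (σ := (aug k G).ρ)
    ⟨LinearMap.snd k C (aug k G), fun τ => by
      refine LinearMap.ext fun x => ?_
      rfl⟩

@[simp]
theorem splitInl_apply (c : C) : (splitInl C φ).hom c = ((c, 0) : C × aug k G) := rfl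

@[simp]
theorem splitSnd_apply (x : C × aug k G) : (splitSnd C φ).hom x = x.2 := rfl

/-- The short complex `C → C(φ) → I_G`. -/
abbrev splitSC : ShortComplex (Rep.{u} k G) :=
  ShortComplex.mk (splitInl C φ) (splitSnd C φ) (by
    ext c
    rfl)

theorem splitSC_shortExact : (splitSC C φ).ShortExact :=
  shortExact_of (splitSC C φ)
    (fun _ _ h => congrArg Prod.fst h)
    (fun a => ⟨((0, a) : C × aug k G), rfl⟩)
    (fun x hx => ⟨(x : C × aug k G).1, Prod.ext rfl hx.symm⟩)

/-! ### The connecting homomorphism sends `g ↦ g - 1` to `φ` -/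

/-- The lift `g ↦ (0, g - 1)` of the canonical cocycle to the splitting module. -/
def liftCochain : G → split C φ := fun g => ((0, augCochain k G g) : C × aug k G)

/-- The `2`-cochain `(τ, σ) ↦ φ (τ, σ) - φ (τ, 1)`, cohomologous to `φ`. -/
def phiNorm : G × G → C := fun p => φ (p.1, p.2) - φ (p.1, 1)

theorem splitInl_comp_phiNorm :
    (splitSC C φ).f.hom ∘ phiNorm C φ = d₁₂ (splitSC C φ).X₂ (liftCochain C φ) := by
  funext p
  obtain ⟨τ, σ⟩ := p
  have hc := (mem_cocycles₁_def (augCochain k G)).1 (augCochain_mem_cocycles₁ k G) τ σ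
  show ((phiNorm C φ (τ, σ), 0) : C × aug k G)
    = (split C φ).ρ τ (liftCochain C φ σ) - liftCochain C φ (τ * σ) + liftCochain C φ τ
  refine Prod.ext ?_ ?_
  · show φ (τ, σ) - φ (τ, 1) = (C.ρ τ 0 + Psi C φ τ ((augι k G).hom (augCochain k G σ))) - 0 + 0
    rw [augι_augCochain, map_sub, Psi_single, Psi_single, map_zero, one_smul, one_smul]
    abel
  · exact hc.symm

theorem phiNorm_mem_cocycles₂ : phiNorm C φ ∈ cocycles₂ C :=
  mem_cocycles₂_of_comp_eq_d₁₂ (splitSC_shortExact C φ) (splitInl_comp_phiNorm C φ)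

/-- **The connecting homomorphism** `H¹(G, I_G) → H²(G, C)` of the splitting module sequence
sends the class of `g ↦ g - 1` to the class of `(τ, σ) ↦ φ (τ, σ) - φ (τ, 1)`. -/
theorem δ₁_augCocycle_phiNorm :
    δ (splitSC_shortExact C φ) 1 2 rfl (H1π (aug k G) (augCocycle k G))
      = H2π C ⟨phiNorm C φ, phiNorm_mem_cocycles₂ C φ⟩ :=
  δ₁_apply (splitSC_shortExact C φ) (augCocycle k G) (liftCochain C φ) rfl (phiNorm C φ)
    (splitInl_comp_phiNorm C φ)

/-- `phiNorm` is cohomologous to `φ`. -/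
theorem H2π_phiNorm : H2π C ⟨phiNorm C φ, phiNorm_mem_cocycles₂ C φ⟩ = H2π C φ := by
  rw [H2π_eq_iff]
  refine ⟨fun _ => -φ (1, 1), ?_⟩
  funext p
  obtain ⟨τ, σ⟩ := p
  show C.ρ τ (-φ (1, 1)) - (-φ (1, 1)) + (-φ (1, 1)) = (φ (τ, σ) - φ (τ, 1)) - φ (τ, σ)
  rw [cocycles₂_map_one_snd φ τ, map_neg]
  abel

/-- **The connecting homomorphism** `H¹(G, I_G) → H²(G, C)` of the splitting module sequence
sends the class of `g ↦ g - 1` to the class of `φ`. -/
theorem δ₁_augCocycle :
    δ (splitSC_shortExact C φ) 1 2 rfl (H1π (aug k G) (augCocycle k G)) = H2π C φ := by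
  rw [δ₁_augCocycle_phiNorm, H2π_phiNorm]

/-- The class of `φ` dies in `H²(G, C(φ))`. -/
theorem map_splitInl_H2π :
    (groupCohomology.map (MonoidHom.id G) (splitInl C φ) 2).hom (H2π C φ) = 0 := by
  rw [← δ₁_augCocycle]
  exact congr($(((map_cochainsFunctor_shortExact (splitSC_shortExact C φ)).δ_comp 1 2 rfl)) _)

end Fermat.Agent.CFT.A5.Split
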