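import Mathlib
import Fermat.Agent.CFT.A5.Aug
import Fermat.Agent.CFT.A5.Split
import Fermat.Agent.CFT.A2.TateLow

/-!
# PROJECT C, slice A5: the reciprocity isomorphism in explicit form (Nakayama map)

`G` a finite group, `C : Rep ℤ G`, `φ` a `2`-cocycle.  The **Nakayama map**
`nak σ = Σ_τ φ (τ, σ)` takes values in `C^G`, and `σ ↦ [nak σ]` is a homomorphism
`G^ab → C^G / N_G C = Ĥ⁰(G, C)`.  If the splitting module `C(φ)` has `Ĥ⁰ = Ĥ⁻¹ = 0` (e.g. it is
cohomologically trivial, which holds for a class module), this map is an **isomorphism**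
(the inverse of the norm residue symbol).  The proof is a direct diagram chase, no cup products
and no Tate complex.
-/

set_option autoImplicit false

universe u

noncomputable section

open CategoryTheory CategoryTheory.Limits groupCohomology

namespace Fermat.Agent.CFT.A5.Reciprocity

open Fermat.Agent.CFT.A5.Aug Fermat.Agent.CFT.A5.Split

section General

variable {k G : Type u} [CommRing k] [Group G] [Fintype G] (C : Rep.{u} k G) (φ : cocycles₂ C)

/-- **Nakayama's map** `σ ↦ Σ_τ φ (τ, σ)`. -/
def nak (σ : G) : C := ∑ τ : G, φ (τ, σ)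

/-- The Nakayama map takes values in the invariants. -/
theorem ρ_nak (g σ : G) : C.ρ g (nak C φ σ) = nak C φ σ := by
  unfold nak
  rw [map_sum]
  have h : ∀ τ : G, C.ρ g (φ (τ, σ)) = φ (g * τ, σ) + φ (g, τ) - φ (g, τ * σ) := by
    intro τ
    have := (mem_cocycles₂_iff φ).1 φ.2 g τ σ
    rw [this]
    abel
  rw [Finset.sum_congr rfl fun τ _ => h τ, Finset.sum_sub_distrib, Finset.sum_add_distrib]
  have h1 : ∑ τ : G, φ (g * τ, σ) = ∑ τ : G, φ (τ, σ) :=
    Fintype.sum_equiv (Equiv.mulLeft g) _ _ fun τ => rfl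
  have h2 : ∑ τ : G, φ (g, τ * σ) = ∑ τ : G, φ (g, τ) :=
    Fintype.sum_equiv (Equiv.mulRight σ) _ _ fun τ => rfl
  rw [h1, h2]
  abel

/-- The Nakayama map is a homomorphism modulo norms. -/
theorem nak_mul (σ σ' : G) :
    nak C φ (σ * σ') = nak C φ σ + nak C φ σ' - C.ρ.norm (φ (σ, σ')) := by
  unfold nak Representation.norm
  rw [LinearMap.sum_apply]
  have h : ∀ τ : G, φ (τ, σ * σ') = φ (τ * σ, σ') + φ (τ, σ) - C.ρ τ (φ (σ, σ')) := by
    intro τ
    have := (mem_cocycles₂_iff φ).1 φ.2 τ σ σ'
    rw [this]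
    abel
  rw [Finset.sum_congr rfl fun τ _ => h τ, Finset.sum_sub_distrib, Finset.sum_add_distrib]
  have h1 : ∑ τ : G, φ (τ * σ, σ') = ∑ τ : G, φ (τ, σ') :=
    Fintype.sum_equiv (Equiv.mulRight σ) _ _ fun τ => rfl
  rw [h1]
  abel

theorem nak_one : nak C φ 1 = C.ρ.norm (φ (1, 1)) := by
  unfold nak Representation.norm
  rw [LinearMap.sum_apply]
  exact Finset.sum_congr rfl fun τ _ => cocycles₂_map_one_snd φ τ

/-- The sum `S = Σ_τ Ψ_τ : k[G] → C`; `S (σ) = nak σ`. -/
def sumPsi : (Rep.leftRegular k G).V →ₗ[k] C := ∑ τ : G, Psi C φ τ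

theorem sumPsi_single (σ : G) (r : k) :
    sumPsi C φ (MonoidAlgebra.single σ r) = r • nak C φ σ := by
  unfold sumPsi nak
  rw [LinearMap.sum_apply, Finset.smul_sum]
  exact Finset.sum_congr rfl fun τ _ => Psi_single C φ τ σ r

theorem sumPsi_augCochain (σ : G) :
    sumPsi C φ ((augι k G).hom (augCochain k G σ)) = nak C φ σ - C.ρ.norm (φ (1, 1)) := by
  rw [augι_augCochain, map_sub, sumPsi_single, sumPsi_single, one_smul, one_smul, nak_one]

/-- The norm of `k[G]` kills the augmentation ideal. -/
theorem norm_leftRegular_of_eps (x : (Rep.leftRegular k G).V) (hx : (eps k G).hom x = 0) :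
    (Rep.leftRegular k G).ρ.norm x = 0 := by
  have key : ∀ y : (Rep.leftRegular k G).V, (Rep.leftRegular k G).ρ.norm y
      = (eps k G).hom y • (Rep.leftRegular k G).ρ.norm (MonoidAlgebra.single 1 1) := by
    intro y
    induction y using MonoidAlgebra.induction_linear with
    | zero => simp
    | add a b ha hb => rw [map_add, map_add, ha, hb, add_smul]
    | single g r =>
      have h1 : (MonoidAlgebra.single g r : (Rep.leftRegular k G).V)
          = r • (Rep.leftRegular k G).ρ g (MonoidAlgebra.single 1 1) := by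
        simp only [Rep.leftRegular, Rep.ofMulAction]
        erw [Representation.ofMulAction_single]
        simp
      rw [eps_single]
      conv_lhs => rw [h1]
      rw [map_smul, Representation.norm_self_apply]
  rw [key x, hx, zero_smul]

theorem norm_aug (a : aug k G) : (aug k G).ρ.norm a = 0 := by
  apply augι_injective
  rw [map_zero]
  have h : (augι k G).hom ((aug k G).ρ.norm a)
      = (Rep.leftRegular k G).ρ.norm ((augι k G).hom a) := by
    unfold Representation.norm
    rw [LinearMap.sum_apply, LinearMap.sum_apply, map_sum]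
    exact Finset.sum_congr rfl fun g _ => aug_ρ_apply k G g a
  rw [h]
  exact norm_leftRegular_of_eps _ (eps_augι k G a)

/-- The norm of the splitting module. -/
theorem norm_split (x : C × aug k G) :
    (split C φ).ρ.norm x = ((C.ρ.norm x.1 + sumPsi C φ ((augι k G).hom x.2), 0) : C × aug k G) := by
  have h0 : (split C φ).ρ.norm x = ∑ g : G, (split C φ).ρ g x := by
    unfold Representation.norm
    exact LinearMap.sum_apply _ _ _
  have h : (split C φ).ρ.norm x
      = ((C.ρ.norm x.1 + sumPsi C φ ((augι k G).hom x.2), (aug k G).ρ.norm x.2) : C × aug k G) := by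
    rw [h0]
    show (∑ g : G, ((C.ρ g x.1 + Psi C φ g ((augι k G).hom x.2), (aug k G).ρ g x.2) :
      C × aug k G)) = _
    unfold Representation.norm sumPsi
    refine Prod.ext ?_ ?_
    · rw [Prod.fst_sum]
      simp only [LinearMap.sum_apply, Finset.sum_add_distrib]
    · rw [Prod.snd_sum]
      simp only [LinearMap.sum_apply]
  rw [h, norm_aug]

/-- `sumPsi` takes values in the invariants. -/
theorem ρ_sumPsi (g : G) (x : (Rep.leftRegular k G).V) :
    C.ρ g (sumPsi C φ x) = sumPsi C φ x := by
  induction x using MonoidAlgebra.induction_linear with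
  | zero => simp
  | add a b ha hb => rw [map_add, map_add, ha, hb]
  | single σ r => rw [sumPsi_single, map_smul, ρ_nak]

/-- The norms, as a submodule of the invariants. -/
def normSub : Submodule k C.ρ.invariants :=
  (LinearMap.range C.ρ.norm).comap C.ρ.invariants.subtype

theorem mem_normSub (x : C.ρ.invariants) : x ∈ normSub C ↔ ∃ c : C, C.ρ.norm c = x := Iff.rfl

/-- `Ĥ⁰(G, C) = C^G / N_G C`. -/
abbrev H0hat : Type u := C.ρ.invariants ⧸ normSub C

/-- The Nakayama map with values in the invariants. -/
def nakInv (σ : G) : C.ρ.invariants := ⟨nak C φ σ, fun g => ρ_nak C φ g σ⟩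

/-- `sumPsi` with values in the invariants. -/
def sumPsiInv : (Rep.leftRegular k G).V →ₗ[k] C.ρ.invariants :=
  (sumPsi C φ).codRestrict C.ρ.invariants fun x g => ρ_sumPsi C φ g x

/-- The Nakayama map as a monoid homomorphism `G →* C^G / N_G C`. -/
def nakMonoidHom : G →* Multiplicative (H0hat C) where
  toFun σ := Multiplicative.ofAdd ((normSub C).mkQ (nakInv C φ σ))
  map_one' := by
    rw [← ofAdd_zero]
    congr 1
    rw [Submodule.mkQ_apply, Submodule.Quotient.mk_eq_zero, mem_normSub]
    exact ⟨φ (1, 1), (nak_one C φ).symm⟩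
  map_mul' σ σ' := by
    rw [← ofAdd_add]
    congr 1
    rw [← map_add, Submodule.mkQ_apply, Submodule.mkQ_apply, Submodule.Quotient.eq, mem_normSub]
    refine ⟨-φ (σ, σ'), ?_⟩
    show C.ρ.norm (-φ (σ, σ')) = nak C φ (σ * σ') - (nak C φ σ + nak C φ σ')
    rw [nak_mul, map_neg]
    abel

/-- **The Nakayama homomorphism** `G^ab →* C^G / N_G C`. -/
def nakHom : Abelianization G →* Multiplicative (H0hat C) :=
  Abelianization.lift (nakMonoidHom C φ)

@[simp]
theorem nakHom_of (σ : G) :
    nakHom C φ (Abelianization.of σ) = Multiplicative.ofAdd ((normSub C).mkQ (nakInv C φ σ)) := by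
  unfold nakHom
  rw [Abelianization.lift_apply_of]
  rfl

theorem nakHom_of_eq_one_iff (σ : G) :
    nakHom C φ (Abelianization.of σ) = 1 ↔ ∃ c : C, C.ρ.norm c = nak C φ σ := by
  rw [nakHom_of, ← ofAdd_zero, Multiplicative.ofAdd.injective.eq_iff, Submodule.mkQ_apply,
    Submodule.Quotient.mk_eq_zero, mem_normSub]
  rfl

theorem exists_eq_ofAdd_mkQ (y : Multiplicative (H0hat C)) :
    ∃ c : C.ρ.invariants, y = Multiplicative.ofAdd ((normSub C).mkQ c) := by
  obtain ⟨c, hc⟩ := Submodule.mkQ_surjective (normSub C) (Multiplicative.toAdd y)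
  exact ⟨c, by rw [hc, ofAdd_toAdd]⟩

/-- The class of `nak σ` in `Ĥ⁰(G, C) = C^G / N_G C`. -/
def nakClass (σ : G) : H0hat C := (normSub C).mkQ (nakInv C φ σ)

theorem nakHom_of' (σ : G) :
    nakHom C φ (Abelianization.of σ) = Multiplicative.ofAdd (nakClass C φ σ) :=
  nakHom_of C φ σ

theorem nakClass_eq_zero_iff (σ : G) :
    nakClass C φ σ = 0 ↔ ∃ c : C, C.ρ.norm c = nak C φ σ := by
  rw [← nakHom_of_eq_one_iff, nakHom_of', ← ofAdd_zero, Multiplicative.ofAdd.injective.eq_iff]

theorem nakClass_mul (σ σ' : G) :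
    nakClass C φ (σ * σ') = nakClass C φ σ + nakClass C φ σ' := by
  apply Multiplicative.ofAdd.injective
  rw [ofAdd_add, ← nakHom_of', ← nakHom_of', ← nakHom_of', ← map_mul, ← map_mul]

/-- Classes of `sumPsi x` are in the image of the Nakayama homomorphism, for `x` an integral
combination of group elements. -/
theorem ofAdd_mkQ_sumPsiInv_mem_range (x : (Rep.leftRegular k G).V)
    (hx : x ∈ AddSubgroup.closure (Set.range fun σ : G =>
      (MonoidAlgebra.single σ (1 : k) : (Rep.leftRegular k G).V))) :
    Multiplicative.ofAdd ((normSub C).mkQ (sumPsiInv C φ x)) ∈ (nakHom C φ).range := by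
  induction hx using AddSubgroup.closure_induction with
  | mem y hy =>
    obtain ⟨σ, rfl⟩ := hy
    refine ⟨Abelianization.of σ, ?_⟩
    rw [nakHom_of]
    congr 2
    apply Subtype.ext
    show nak C φ σ = sumPsi C φ (MonoidAlgebra.single σ 1)
    rw [sumPsi_single, one_smul]
  | zero =>
    rw [map_zero, map_zero, ofAdd_zero]
    exact one_mem _
  | add a b _ _ ha hb =>
    rw [map_add, map_add, ofAdd_add]
    exact mul_mem ha hb
  | neg a _ ha =>
    rw [map_neg, map_neg, ofAdd_neg]
    exact inv_mem ha

/-- **Surjectivity of the Nakayama homomorphism**, if every invariant of the splitting module is a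
norm (`Ĥ⁰(G, C(φ)) = 0`) and `k[G]` is additively generated by `G` (e.g. `k = ℤ`). -/
theorem nakHom_surjective
    (hk : ∀ x : (Rep.leftRegular k G).V, x ∈ AddSubgroup.closure (Set.range fun σ : G =>
      (MonoidAlgebra.single σ (1 : k) : (Rep.leftRegular k G).V)))
    (h0 : ∀ m : split C φ, (∀ g : G, (split C φ).ρ g m = m) →
      ∃ m' : split C φ, (split C φ).ρ.norm m' = m) :
    Function.Surjective (nakHom C φ) := by
  intro y
  obtain ⟨c, rfl⟩ := exists_eq_ofAdd_mkQ C y
  -- `(c, 0)` is invariant in the splitting module, hence a norm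
  obtain ⟨m', hm'⟩ := h0 ((c.1, 0) : C × aug k G) (fun g => by
    show ((C.ρ g c.1 + Psi C φ g ((augι k G).hom 0), (aug k G).ρ g 0) : C × aug k G) = (c.1, 0)
    rw [map_zero, map_zero, map_zero, add_zero, c.2 g])
  have h1 := norm_split C φ m'
  rw [hm'] at h1
  have h2 : c.1 = C.ρ.norm (m' : C × aug k G).1
      + sumPsi C φ ((augι k G).hom (m' : C × aug k G).2) := congrArg Prod.fst h1
  -- so `[c] = [sumPsi a]`
  have h3 : (normSub C).mkQ c
      = (normSub C).mkQ (sumPsiInv C φ ((augι k G).hom (m' : C × aug k G).2)) := by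
    rw [Submodule.mkQ_apply, Submodule.mkQ_apply, Submodule.Quotient.eq, mem_normSub]
    refine ⟨(m' : C × aug k G).1, ?_⟩
    show C.ρ.norm (m' : C × aug k G).1
      = c.1 - sumPsi C φ ((augι k G).hom (m' : C × aug k G).2)
    rw [h2]
    abel
  rw [h3]
  exact ofAdd_mkQ_sumPsiInv_mem_range C φ _ (hk _)

omit [Fintype G] in
/-- An additive map on `k[G]` which is `G`-invariant on the augmentation ideal kills the second
component of `I_G C(φ)`. -/
theorem snd_eq_zero_of_mem_ker {A : Type*} [AddCommGroup A]
    (θ : (Rep.leftRegular k G).V →+ A)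
    (hθ : ∀ (g : G) (a : aug k G), θ ((augι k G).hom ((aug k G).ρ g a)) = θ ((augι k G).hom a))
    (m : split C φ) (hm : m ∈ Representation.Coinvariants.ker (split C φ).ρ) :
    θ ((augι k G).hom (m : C × aug k G).2) = 0 := by
  have key : ∀ r : k, θ ((augι k G).hom ((r • m : split C φ) : C × aug k G).2) = 0 := by
    unfold Representation.Coinvariants.ker at hm
    induction hm using Submodule.span_induction with
    | mem y hy =>
      obtain ⟨⟨g, z⟩, rfl⟩ := hy
      intro r
      have h1 : (r • ((split C φ).ρ g z - z) : split C φ)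
          = (split C φ).ρ g (r • z) - r • z := by
        rw [smul_sub, map_smul]
      rw [h1]
      show θ ((augι k G).hom ((aug k G).ρ g ((r • z : split C φ) : C × aug k G).2
        - ((r • z : split C φ) : C × aug k G).2)) = 0
      rw [map_sub, map_sub, hθ, sub_self]
    | zero =>
      intro r
      rw [smul_zero]
      show θ ((augι k G).hom (0 : aug k G)) = 0
      rw [map_zero, map_zero]
    | add a b _ _ ha hb =>
      intro r
      rw [smul_add]
      show θ ((augι k G).hom (((r • a : split C φ) : C × aug k G).2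
        + ((r • b : split C φ) : C × aug k G).2)) = 0
      rw [map_add, map_add, ha r, hb r, add_zero]
    | smul s a _ ha =>
      intro r
      rw [smul_smul]
      exact ha (r * s)
  have := key 1
  rwa [one_smul] at this

/-- **Injectivity of the Nakayama homomorphism**, if every element of norm zero of the splitting
module lies in `I_G C(φ)` (`Ĥ⁻¹(G, C(φ)) = 0`), given an additive map `θ : k[G] → G^ab` with
`θ (σ - 1) = σ`, invariant on the augmentation ideal (for `k = ℤ`: `theta` below). -/
theorem nakHom_injective_of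
    (θ : (Rep.leftRegular k G).V →+ Additive (Abelianization G))
    (hθ : ∀ (g : G) (a : aug k G), θ ((augι k G).hom ((aug k G).ρ g a)) = θ ((augι k G).hom a))
    (hθ' : ∀ σ : G, θ ((augι k G).hom (augCochain k G σ)) = Additive.ofMul (Abelianization.of σ))
    (hm1 : ∀ m : split C φ, (split C φ).ρ.norm m = 0 →
      m ∈ Representation.Coinvariants.ker (split C φ).ρ) :
    Function.Injective (nakHom C φ) := by
  rw [injective_iff_map_eq_one]
  intro g hg
  obtain ⟨σ, rfl⟩ := QuotientGroup.mk_surjective g
  obtain ⟨c, hc⟩ := (nakHom_of_eq_one_iff C φ σ).1 hg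
  have hx : (split C φ).ρ.norm ((-c + φ (1, 1), augCochain k G σ) : C × aug k G) = 0 := by
    rw [norm_split]
    refine Prod.ext ?_ rfl
    show C.ρ.norm (-c + φ (1, 1)) + sumPsi C φ ((augι k G).hom (augCochain k G σ)) = 0
    rw [sumPsi_augCochain, map_add, map_neg, hc]
    abel
  have h := snd_eq_zero_of_mem_ker C φ θ hθ _ (hm1 _ hx)
  have h' : θ ((augι k G).hom (augCochain k G σ)) = 0 := h
  rw [hθ'] at h'
  exact ofMul_eq_zero.1 h'

/-- Bijectivity of the Nakayama homomorphism in terms of Tate cohomology of the splitting module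
(general coefficient ring; see `nakHom_bijective` for `k = ℤ`). -/
theorem nakHom_bijective_of
    (hk : ∀ x : (Rep.leftRegular k G).V, x ∈ AddSubgroup.closure (Set.range fun σ : G =>
      (MonoidAlgebra.single σ (1 : k) : (Rep.leftRegular k G).V)))
    (θ : (Rep.leftRegular k G).V →+ Additive (Abelianization G))
    (hθ : ∀ (g : G) (a : aug k G), θ ((augι k G).hom ((aug k G).ρ g a)) = θ ((augι k G).hom a))
    (hθ' : ∀ σ : G, θ ((augι k G).hom (augCochain k G σ)) = Additive.ofMul (Abelianization.of σ))
    (h0 : IsZero (tateCohomology (split C φ) 0))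
    (hm1 : IsZero (tateCohomology (split C φ) (-1))) :
    Function.Bijective (nakHom C φ) :=
  ⟨nakHom_injective_of C φ θ hθ hθ'
      ((Fermat.Agent.CFT.A2.isZero_tateCohomology_neg_one_iff (split C φ)).1 hm1),
    nakHom_surjective C φ hk
      ((Fermat.Agent.CFT.A2.isZero_tateCohomology_zero_iff (split C φ)).1 h0)⟩

end General

section Int

variable {G : Type} [Group G] [Fintype G] (C : Rep.{0} ℤ G) (φ : cocycles₂ C)

omit [Fintype G] in
/-- `ℤ[G]` is additively generated by `G`. -/
theorem mem_closure_single (x : (Rep.leftRegular ℤ G).V) :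
    x ∈ AddSubgroup.closure (Set.range fun σ : G =>
      (MonoidAlgebra.single σ (1 : ℤ) : (Rep.leftRegular ℤ G).V)) := by
  induction x using MonoidAlgebra.induction_linear with
  | zero => exact zero_mem _
  | add a b ha hb => exact add_mem ha hb
  | single σ r =>
    induction r using Int.induction_on with
    | zero => rw [MonoidAlgebra.single_zero]; exact zero_mem _
    | succ n ih =>
      rw [MonoidAlgebra.single_add]
      exact add_mem ih (AddSubgroup.subset_closure ⟨σ, rfl⟩)
    | pred n ih =>
      rw [sub_eq_add_neg, MonoidAlgebra.single_add]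
      refine add_mem ih ?_
      rw [MonoidAlgebra.single_neg]
      exact neg_mem (AddSubgroup.subset_closure ⟨σ, rfl⟩)

/-- The additive map `ℤ[G] → G^ab`, `Σ n_σ σ ↦ Π σ^{n_σ}`. -/
def theta : (Rep.leftRegular ℤ G).V →+ Additive (Abelianization G) :=
  (Finsupp.liftAddHom (fun σ : G =>
    zmultiplesHom (Additive (Abelianization G)) (Additive.ofMul (Abelianization.of σ)))).comp
    (MonoidAlgebra.coeffAddEquiv : (Rep.leftRegular ℤ G).V ≃+ (G →₀ ℤ)).toAddMonoidHom

omit [Fintype G] in
theorem theta_single (σ : G) (r : ℤ) :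
    theta (G := G) (MonoidAlgebra.single σ r) = r • Additive.ofMul (Abelianization.of σ) := by
  simp [theta]

omit [Fintype G] in
theorem theta_ρ (g : G) (x : (Rep.leftRegular ℤ G).V) :
    theta ((Rep.leftRegular ℤ G).ρ g x)
      = (eps ℤ G).hom x • Additive.ofMul (Abelianization.of g) + theta x := by
  induction x using MonoidAlgebra.induction_linear with
  | zero => simp
  | add a b ha hb =>
    rw [map_add, map_add, map_add, map_add, ha, hb, add_smul]
    abel
  | single σ r =>
    simp only [Rep.leftRegular, Rep.ofMulAction]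
    erw [Representation.ofMulAction_single]
    rw [theta_single, eps_single, theta_single, smul_eq_mul, map_mul, ofMul_mul, smul_add]

omit [Fintype G] in
/-- `theta` is invariant under `G` on the augmentation ideal. -/
theorem theta_ρ_aug (g : G) (a : aug ℤ G) :
    theta ((augι ℤ G).hom ((aug ℤ G).ρ g a)) = theta ((augι ℤ G).hom a) := by
  rw [aug_ρ_apply, theta_ρ, eps_augι, zero_smul, zero_add]

omit [Fintype G] in
theorem theta_augCochain (σ : G) :
    theta ((augι ℤ G).hom (augCochain ℤ G σ)) = Additive.ofMul (Abelianization.of σ) := by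
  rw [augι_augCochain, map_sub, theta_single, theta_single, one_smul, one_smul, map_one,
    ofMul_one, sub_zero]

/-- **The reciprocity isomorphism in explicit form**: if the splitting module `C(φ)` has
`Ĥ⁰ = Ĥ⁻¹ = 0` (e.g. if it is cohomologically trivial), the Nakayama map
`σ ↦ [Σ_τ φ (τ, σ)]` induces an isomorphism `G^ab ≃ C^G / N_G C`. -/
theorem nakHom_bijective (h0 : IsZero (tateCohomology (split C φ) 0))
    (hm1 : IsZero (tateCohomology (split C φ) (-1))) :
    Function.Bijective (nakHom C φ) :=
  nakHom_bijective_of C φ mem_closure_single theta theta_ρ_aug theta_augCochain h0 hm1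

/-- The reciprocity isomorphism `G^ab ≃* C^G / N_G C` (inverse of the norm residue symbol). -/
def nakEquiv (h0 : IsZero (tateCohomology (split C φ) 0))
    (hm1 : IsZero (tateCohomology (split C φ) (-1))) :
    Abelianization G ≃* Multiplicative (H0hat C) :=
  MulEquiv.ofBijective (nakHom C φ) (nakHom_bijective C φ h0 hm1)

@[simp]
theorem nakEquiv_of (h0 : IsZero (tateCohomology (split C φ) 0))
    (hm1 : IsZero (tateCohomology (split C φ) (-1))) (σ : G) :
    nakEquiv C φ h0 hm1 (Abelianization.of σ) = Multiplicative.ofAdd (nakClass C φ σ) :=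
  nakHom_of C φ σ

end Int

end Fermat.Agent.CFT.A5.Reciprocity
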