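import Mathlib
import Fermat.Agent.CFT.A2.Trivial

/-!
# PROJECT C, slice A5: the regular representation of a finite group is cohomologically trivial

`leftRegular k G ≅ coind₁ k G k` for a finite group `G` (`a ↦ (x ↦ a_{x⁻¹})`), hence `k[G]` is
cohomologically trivial in the sense of slice A2.
-/

set_option autoImplicit false

universe u

noncomputable section

open CategoryTheory Limits

namespace Fermat.Agent.CFT.A5.Regular

open Fermat.Agent.CFT.A2

variable (k G : Type u) [CommRing k] [Group G] [Fintype G]

/-- The linear equivalence `k[G] ≃ (G → k)`, `a ↦ (x ↦ a_{x⁻¹})`. -/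
def regLinearEquiv : (Rep.leftRegular k G).V ≃ₗ[k] (G → k) :=
  (MonoidAlgebra.coeffLinearEquiv k).trans
    ((Finsupp.linearEquivFunOnFinite k k G).trans (LinearEquiv.funCongrLeft k k (Equiv.inv G)))

theorem regLinearEquiv_apply (a : (Rep.leftRegular k G).V) (x : G) :
    regLinearEquiv k G a x = a.coeff x⁻¹ := rfl

/-- `k[G] ≅ coind₁ k G k` as representations. -/
def regIso : Rep.leftRegular k G ≅ coind₁ k G k :=
  Rep.mkIso (Representation.Equiv.mk (regLinearEquiv k G) (fun h => by
    classical
    refine LinearMap.ext fun a => ?_
    induction a using MonoidAlgebra.induction_linear with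
    | zero => simp
    | add x y hx hy => simp only [map_add, hx, hy]
    | single g r =>
      funext x
      show regLinearEquiv k G ((Representation.ofMulAction k G G) h (MonoidAlgebra.single g r)) x
        = regLinearEquiv k G (MonoidAlgebra.single g r) (x * h)
      rw [Representation.ofMulAction_single, regLinearEquiv_apply, regLinearEquiv_apply,
        MonoidAlgebra.coeff_single, MonoidAlgebra.coeff_single, Finsupp.single_apply,
        Finsupp.single_apply]
      have hiff : h • g = x⁻¹ ↔ g = (x * h)⁻¹ := by
        rw [smul_eq_mul, mul_inv_rev]
        constructor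
        · intro h1; rw [← h1]; group
        · intro h1; rw [h1]; group
      by_cases h1 : h • g = x⁻¹
      · rw [if_pos h1, if_pos (hiff.1 h1)]
      · rw [if_neg h1, if_neg (fun h2 => h1 (hiff.2 h2))]))

/-- The regular representation of a finite group is cohomologically trivial. -/
theorem isCohTrivial_leftRegular : IsCohTrivial (Rep.leftRegular k G) :=
  (isCohTrivial_coind₁ (R := k) (G := G) k).of_iso (regIso k G).symm

end Fermat.Agent.CFT.A5.Regular
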