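import Mathlib
import Fermat.Agent.CFT.A5.Aug
import Fermat.Agent.CFT.A5.Split

/-!
# PROJECT C, slice A5 (splitting module), part 3: restriction along a group homomorphism

For `f : H →* G` (typically the inclusion of a subgroup) we restrict the two short exact sequences
`0 → I_G → k[G] → k → 0` and `0 → C → C(φ) → I_G → 0` to `H` and compute the connecting
homomorphisms on the canonical classes:

* `δ₀_resOne`: `δ (1) = [h ↦ f h - 1]` in `H¹(H, I_G)`;
* `δ₁_resAugCocycle`: `δ [h ↦ f h - 1] = [φ ∘ (f × f)]` in `H²(H, C)`.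
-/

set_option autoImplicit false

universe u

noncomputable section

open CategoryTheory groupCohomology

namespace Fermat.Agent.CFT.A5.SplitRes

open Fermat.Agent.CFT.A5.Aug Fermat.Agent.CFT.A5.Split

variable {k G : Type u} [CommRing k] [Group G] (C : Rep.{u} k G) (φ : cocycles₂ C)
variable {H : Type u} [Group H] (f : H →* G)

/-- The restricted augmentation sequence `0 → I_G → k[G] → k → 0` over `H`. -/
abbrev augSCres : ShortComplex (Rep.{u} k H) := (augSC k G).map (Rep.resFunctor f)

theorem augSCres_shortExact : (augSCres (k := k) f).ShortExact :=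
  (Rep.shortExact_res f).2 (augSC_shortExact k G)

/-- The restricted splitting module sequence `0 → C → C(φ) → I_G → 0` over `H`. -/
abbrev splitSCres : ShortComplex (Rep.{u} k H) := (splitSC C φ).map (Rep.resFunctor f)

theorem splitSCres_shortExact : (splitSCres C φ f).ShortExact :=
  (Rep.shortExact_res f).2 (splitSC_shortExact C φ)

/-- The restriction of the canonical cocycle: `h ↦ f h - 1`. -/
def resAugCocycle : cocycles₁ (Rep.res f (aug k G)) :=
  ⟨fun h => augCochain k G (f h), by
    rw [mem_cocycles₁_iff]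
    intro g h
    rw [map_mul]
    exact (mem_cocycles₁_iff (augCochain k G)).1 (augCochain_mem_cocycles₁ k G) (f g) (f h)⟩

/-- The restriction of the cocycle `φ`: `(g, h) ↦ φ (f g, f h)`. -/
def resPhi : cocycles₂ (Rep.res f C) :=
  ⟨fun p => φ (f p.1, f p.2), by
    rw [mem_cocycles₂_iff]
    intro g h j
    show φ (f (g * h), f j) + φ (f g, f h) = C.ρ (f g) (φ (f h, f j)) + φ (f g, f (h * j))
    rw [map_mul, map_mul]
    exact (mem_cocycles₂_iff φ).1 φ.2 (f g) (f h) (f j)⟩

@[simp]
theorem resAugCocycle_apply (h : H) :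
    (resAugCocycle (k := k) f) h = augCochain k G (f h) := rfl

@[simp]
theorem resPhi_apply (g h : H) : (resPhi C φ f) (g, h) = φ (f g, f h) := rfl

/-- `resAugCocycle` is the image of the canonical cocycle under restriction. -/
theorem map_H1π_augCocycle :
    (groupCohomology.map f (𝟙 (Rep.res f (aug k G))) 1).hom (H1π (aug k G) (augCocycle k G))
      = H1π (Rep.res f (aug k G)) (resAugCocycle f) := by
  have h := congr($(H1π_comp_map f (𝟙 (Rep.res f (aug k G)))) (augCocycle k G))
  rw [ModuleCat.comp_apply, ModuleCat.comp_apply] at h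
  rw [h]
  congr 1

/-- `resPhi` is the image of `φ` under restriction. -/
theorem map_H2π_phi :
    (groupCohomology.map f (𝟙 (Rep.res f C)) 2).hom (H2π C φ)
      = H2π (Rep.res f C) (resPhi C φ f) := by
  have h := congr($(H2π_comp_map f (𝟙 (Rep.res f C))) φ)
  rw [ModuleCat.comp_apply, ModuleCat.comp_apply] at h
  rw [h]
  congr 1

/-- The invariant element `1` of the trivial representation of `H` on `k`. -/
def resOneInv : (Rep.res f (Rep.trivial k G k)).ρ.invariants := ⟨(1 : k), fun _ => rfl⟩

/-- `δ (1) = [h ↦ f h - 1]` for the restricted augmentation sequence. -/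
theorem δ₀_resOne :
    δ (augSCres_shortExact (k := k) f) 0 1 rfl
        ((H0Iso (Rep.res f (Rep.trivial k G k))).inv (resOneInv f))
      = H1π (Rep.res f (aug k G)) (resAugCocycle f) := by
  refine δ₀_apply (augSCres_shortExact (k := k) f) (resOneInv f)
    (MonoidAlgebra.single 1 1 : Rep.leftRegular k G) (eps_single k G 1 1)
    (fun h => augCochain k G (f h)) ?_
  funext h
  show (augι k G).hom (augCochain k G (f h))
    = (Rep.leftRegular k G).ρ (f h) (MonoidAlgebra.single 1 1) - MonoidAlgebra.single 1 1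
  rw [augι_augCochain]
  simp only [Rep.leftRegular, Rep.ofMulAction]
  erw [Representation.ofMulAction_single]
  simp

/-- The `2`-cochain `(g, h) ↦ φ (f g, f h) - φ (f g, 1)` on `H`. -/
def resPhiNorm : H × H → C := fun p => phiNorm C φ (f p.1, f p.2)

theorem splitInl_comp_resPhiNorm :
    (splitSCres C φ f).f.hom ∘ resPhiNorm C φ f
      = d₁₂ (splitSCres C φ f).X₂ (fun h => liftCochain C φ (f h)) := by
  funext p
  obtain ⟨g, h⟩ := p
  have h0 := congrFun (splitInl_comp_phiNorm C φ) (f g, f h)
  show (splitSC C φ).f.hom (phiNorm C φ (f g, f h))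
    = (split C φ).ρ (f g) (liftCochain C φ (f h)) - liftCochain C φ (f (g * h))
      + liftCochain C φ (f g)
  rw [map_mul]
  exact h0

theorem resPhiNorm_mem_cocycles₂ : resPhiNorm C φ f ∈ cocycles₂ (Rep.res f C) :=
  mem_cocycles₂_of_comp_eq_d₁₂ (splitSCres_shortExact C φ f) (splitInl_comp_resPhiNorm C φ f)

theorem H2π_resPhiNorm :
    H2π (Rep.res f C) ⟨resPhiNorm C φ f, resPhiNorm_mem_cocycles₂ C φ f⟩
      = H2π (Rep.res f C) (resPhi C φ f) := by
  rw [H2π_eq_iff]
  refine ⟨fun _ => -φ (1, 1), ?_⟩
  funext p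
  obtain ⟨g, h⟩ := p
  show C.ρ (f g) (-φ (1, 1)) - (-φ (1, 1)) + (-φ (1, 1))
    = (φ (f g, f h) - φ (f g, 1)) - φ (f g, f h)
  rw [cocycles₂_map_one_snd φ (f g), map_neg]
  abel

/-- **The connecting homomorphism** `H¹(H, I_G) → H²(H, C)` of the restricted splitting module
sequence sends the class of `h ↦ f h - 1` to the class of `φ ∘ (f × f)`. -/
theorem δ₁_resAugCocycle :
    δ (splitSCres_shortExact C φ f) 1 2 rfl (H1π (Rep.res f (aug k G)) (resAugCocycle f))
      = H2π (Rep.res f C) (resPhi C φ f) := by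
  rw [← H2π_resPhiNorm]
  exact δ₁_apply (splitSCres_shortExact C φ f) (resAugCocycle f)
    (fun h => liftCochain C φ (f h)) rfl (resPhiNorm C φ f) (splitInl_comp_resPhiNorm C φ f)

end Fermat.Agent.CFT.A5.SplitRes
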