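import Mathlib

/-!
# PROJECT C, slice A5: element-wise form of the long exact sequence in group cohomology

Mathlib states the exactness of the long exact cohomology sequence as `ShortComplex.Exact` in
`ModuleCat k`.  Here we unfold it into statements about elements, for a short exact sequence
`0 → X₁ → X₂ → X₃ → 0` of representations.
-/

set_option autoImplicit false

universe u

noncomputable section

open CategoryTheory groupCohomology

namespace Fermat.Agent.CFT.A5.LES

variable {k G : Type u} [CommRing k] [Group G] {X : ShortComplex (Rep.{u} k G)}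
  (hX : X.ShortExact)

/-- `Hⁿ(X₁) → Hⁿ(X₂) → Hⁿ(X₃)` is a complex. -/
theorem map_g_map_f (n : ℕ) (y : groupCohomology X.X₁ n) :
    (groupCohomology.map (MonoidHom.id G) X.g n).hom
      ((groupCohomology.map (MonoidHom.id G) X.f n).hom y) = 0 := by
  have h := (mapShortComplex₂ X n).zero
  exact congr($h y)

include hX in
/-- Exactness at `Hⁿ(X₂)`. -/
theorem exists_map_f_eq (n : ℕ) (x : groupCohomology X.X₂ n)
    (hx : (groupCohomology.map (MonoidHom.id G) X.g n).hom x = 0) :
    ∃ y : groupCohomology X.X₁ n, (groupCohomology.map (MonoidHom.id G) X.f n).hom y = x :=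
  (ShortComplex.moduleCat_exact_iff _).1 (mapShortComplex₂_exact hX n) x hx

/-- `Hⁿ(X₂) → Hⁿ(X₃) → Hⁿ⁺¹(X₁)` is a complex. -/
theorem δ_map_g (n : ℕ) (y : groupCohomology X.X₂ n) :
    (δ hX n (n + 1) rfl).hom ((groupCohomology.map (MonoidHom.id G) X.g n).hom y) = 0 := by
  have h := (mapShortComplex₃ hX (i := n) (j := n + 1) rfl).zero
  exact congr($h y)

/-- Exactness at `Hⁿ(X₃)`. -/
theorem exists_map_g_eq (n : ℕ) (x : groupCohomology X.X₃ n)
    (hx : (δ hX n (n + 1) rfl).hom x = 0) :
    ∃ y : groupCohomology X.X₂ n, (groupCohomology.map (MonoidHom.id G) X.g n).hom y = x :=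
  (ShortComplex.moduleCat_exact_iff _).1 (mapShortComplex₃_exact hX (i := n) (j := n + 1) rfl) x hx

/-- `Hⁿ(X₃) → Hⁿ⁺¹(X₁) → Hⁿ⁺¹(X₂)` is a complex. -/
theorem map_f_δ (n : ℕ) (z : groupCohomology X.X₃ n) :
    (groupCohomology.map (MonoidHom.id G) X.f (n + 1)).hom ((δ hX n (n + 1) rfl).hom z) = 0 := by
  have h := (mapShortComplex₁ hX (i := n) (j := n + 1) rfl).zero
  exact congr($h z)

/-- Exactness at `Hⁿ⁺¹(X₁)`. -/
theorem exists_δ_eq (n : ℕ) (x : groupCohomology X.X₁ (n + 1))
    (hx : (groupCohomology.map (MonoidHom.id G) X.f (n + 1)).hom x = 0) :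
    ∃ z : groupCohomology X.X₃ n, (δ hX n (n + 1) rfl).hom z = x :=
  (ShortComplex.moduleCat_exact_iff _).1 (mapShortComplex₁_exact hX (i := n) (j := n + 1) rfl) x hx

end Fermat.Agent.CFT.A5.LES
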