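import Mathlib
import Fermat.Agent.CFT.A5.Aug
import Fermat.Agent.CFT.A5.Split
import Fermat.Agent.CFT.A5.SplitRes
import Fermat.Agent.CFT.A5.LES

/-!
# PROJECT C, slice A5 (splitting module), part 4: vanishing of `H¹` and `H²` of the splitting module

Let `f : H →* G` with `H` finite (typically a subgroup), `C : Rep k G`, `φ` a `2`-cocycle with
class `u`.  Assume the "class formation axioms" for `H`:

* `H¹(H, C) = 0`;
* `H²(H, C)` is generated by `u_H = res u`, and `r • u_H = 0` only if `|H| ∣ r`;

and the (general, see slice A2) facts `H¹(H, k[G]) = H²(H, k[G]) = 0`, `H¹(H, k) = 0`.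
Then `H¹(H, C(φ)) = H²(H, C(φ)) = 0` for the splitting module `C(φ)`.
-/

set_option autoImplicit false

universe u

noncomputable section

open CategoryTheory groupCohomology Limits

namespace Fermat.Agent.CFT.A5.SplitVanish

open Fermat.Agent.CFT.A5.Aug Fermat.Agent.CFT.A5.Split Fermat.Agent.CFT.A5.SplitRes
  Fermat.Agent.CFT.A5.LES

variable {k G : Type u} [CommRing k] [Group G] (C : Rep.{u} k G) (φ : cocycles₂ C)
variable {H : Type u} [Group H] (f : H →* G)

theorem eq_zero_of_isZero {M : ModuleCat k} (h : IsZero M) (x : M) : x = 0 :=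
  @Subsingleton.elim _ (ModuleCat.subsingleton_of_isZero h) x 0

/-- The element `r` of `H⁰(H, k)`. -/
def resInv (r : k) : (Rep.res f (Rep.trivial k G k)).ρ.invariants := ⟨r, fun _ => rfl⟩

theorem resInv_eq_smul (r : k) : resInv (G := G) f r = r • resOneInv f := by
  apply Subtype.ext
  show r = r • (1 : k)
  rw [smul_eq_mul, mul_one]

/-- Every class in `H⁰(H, k)` is a multiple of `1`. -/
theorem exists_eq_smul_H0 (z : groupCohomology (Rep.res f (Rep.trivial k G k)) 0) :
    ∃ r : k, z = r • (H0Iso (Rep.res f (Rep.trivial k G k))).inv (resOneInv f) := by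
  refine ⟨((H0Iso (Rep.res f (Rep.trivial k G k))).hom z).1, ?_⟩
  rw [← map_smul, ← resInv_eq_smul]
  have h : resInv (G := G) f ((H0Iso (Rep.res f (Rep.trivial k G k))).hom z).1
      = (H0Iso (Rep.res f (Rep.trivial k G k))).hom z := Subtype.ext rfl
  rw [h]
  exact (congr($((H0Iso (Rep.res f (Rep.trivial k G k))).hom_inv_id) z)).symm

/-- **`H¹(H, I_G)` is generated by the canonical class** `[h ↦ f h - 1]`, if `H¹(H, k[G]) = 0`. -/
theorem exists_eq_smul_H1_aug
    (hreg1 : IsZero (groupCohomology (Rep.res f (Rep.leftRegular k G)) 1))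
    (x : groupCohomology (Rep.res f (aug k G)) 1) :
    ∃ r : k, x = r • H1π (Rep.res f (aug k G)) (resAugCocycle f) := by
  obtain ⟨z, hz⟩ := exists_δ_eq (augSCres_shortExact (k := k) f) 0 x (eq_zero_of_isZero hreg1 _)
  obtain ⟨r, hr⟩ := exists_eq_smul_H0 f z
  refine ⟨r, ?_⟩
  exact hz.symm.trans ((congrArg _ hr).trans
    ((map_smul (δ (augSCres_shortExact (k := k) f) 0 1 rfl).hom r _).trans
      (congrArg (r • ·) (δ₀_resOne f))))

section Finite

variable [Fintype H]

/-- The norm element `Σ_h f(h)` of `k[G]`. -/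
def normElt : Rep.leftRegular k G := ∑ h : H, MonoidAlgebra.single (f h) (1 : k)

theorem ρ_normElt (g : H) :
    (Rep.leftRegular k G).ρ (f g) (normElt (k := k) f) = normElt f := by
  unfold normElt
  rw [map_sum]
  have h1 : ∀ h : H, (Rep.leftRegular k G).ρ (f g) (MonoidAlgebra.single (f h) (1 : k))
      = MonoidAlgebra.single (f (g * h)) (1 : k) := by
    intro h
    simp only [Rep.leftRegular, Rep.ofMulAction]
    erw [Representation.ofMulAction_single]
    rw [smul_eq_mul, map_mul]
  rw [Finset.sum_congr rfl fun h _ => h1 h]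
  exact Fintype.sum_equiv (Equiv.mulLeft g) _ _ fun h => rfl

theorem eps_normElt : (eps k G).hom (normElt (k := k) f) = (Fintype.card H : k) := by
  unfold normElt
  rw [map_sum, Finset.sum_congr rfl fun h _ => eps_single k G (f h) 1]
  simp

/-- **`|H|` kills the canonical class** `[h ↦ f h - 1]` of `H¹(H, I_G)`. -/
theorem card_smul_H1π_resAugCocycle :
    (Fintype.card H : k) • H1π (Rep.res f (aug k G)) (resAugCocycle f) = 0 := by
  have hx : (augSCres (k := k) f).f.hom ∘ (0 : H → aug k G)
      = d₀₁ (augSCres (k := k) f).X₂ (normElt f) := by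
    funext g
    show (augι k G).hom 0 = (Rep.leftRegular k G).ρ (f g) (normElt f) - normElt f
    rw [ρ_normElt, sub_self, map_zero]
  have h := δ₀_apply (augSCres_shortExact (k := k) f) (resInv f (Fintype.card H : k))
    (normElt f) (eps_normElt f) (0 : H → aug k G) hx
  have h0 : H1π (Rep.res f (aug k G))
      ⟨(0 : H → aug k G), mem_cocycles₁_of_comp_eq_d₀₁ (augSCres_shortExact (k := k) f) hx⟩ = 0 := by
    rw [H1π_eq_zero_iff]
    exact Submodule.zero_mem _
  have h2 : (δ (augSCres_shortExact (k := k) f) 0 1 rfl).hom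
      ((Fintype.card H : k) • (H0Iso (Rep.res f (Rep.trivial k G k))).inv (resOneInv f))
      = (Fintype.card H : k) • H1π (Rep.res f (aug k G)) (resAugCocycle f) :=
    (map_smul (δ (augSCres_shortExact (k := k) f) 0 1 rfl).hom _ _).trans
      (congrArg ((Fintype.card H : k) • ·) (δ₀_resOne f))
  rw [← h2, ← map_smul, ← resInv_eq_smul]
  exact h.trans h0

end Finite

theorem isZero_of_forall_eq_zero {M : ModuleCat k} (h : ∀ x : M, x = 0) : IsZero M := by
  rw [ModuleCat.isZero_iff_subsingleton]
  exact ⟨fun x y => (h x).trans (h y).symm⟩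

/-- `H²(H, I_G) = 0` if `H²(H, k[G]) = 0` and `H¹(H, k) = 0`. -/
theorem isZero_H2_aug
    (hreg2 : IsZero (groupCohomology (Rep.res f (Rep.leftRegular k G)) 2))
    (htriv1 : IsZero (groupCohomology (Rep.res f (Rep.trivial k G k)) 1)) :
    IsZero (groupCohomology (Rep.res f (aug k G)) 2) := by
  refine isZero_of_forall_eq_zero fun x => ?_
  obtain ⟨z, hz⟩ := exists_δ_eq (augSCres_shortExact (k := k) f) 1 x (eq_zero_of_isZero hreg2 _)
  exact hz.symm.trans ((congrArg _ (eq_zero_of_isZero htriv1 z)).trans (map_zero _))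

section Main

variable [Fintype H]

/-- **Vanishing of `H¹` and `H²` of the splitting module.**  Under the class formation axioms for
`H` (`H¹(H, C) = 0`; `H²(H, C)` generated by the restriction `u_H` of the class of `φ`, whose
annihilator is `|H| k`) and the general facts `H¹(H, k[G]) = H²(H, k[G]) = 0 = H¹(H, k)`, the
splitting module `C(φ)` has `H¹(H, C(φ)) = H²(H, C(φ)) = 0`. -/
theorem isZero_H1_H2_split
    (h1 : IsZero (groupCohomology (Rep.res f C) 1))
    (hgen : ∀ y : groupCohomology (Rep.res f C) 2,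
      ∃ r : k, y = r • H2π (Rep.res f C) (resPhi C φ f))
    (hord : ∀ r : k, r • H2π (Rep.res f C) (resPhi C φ f) = 0 →
      ∃ s : k, r = s * (Fintype.card H : k))
    (hreg1 : IsZero (groupCohomology (Rep.res f (Rep.leftRegular k G)) 1))
    (hreg2 : IsZero (groupCohomology (Rep.res f (Rep.leftRegular k G)) 2))
    (htriv1 : IsZero (groupCohomology (Rep.res f (Rep.trivial k G k)) 1)) :
    IsZero (groupCohomology (Rep.res f (split C φ)) 1) ∧
      IsZero (groupCohomology (Rep.res f (split C φ)) 2) := by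
  have hS := splitSCres_shortExact C φ f
  constructor
  · refine isZero_of_forall_eq_zero fun x => ?_
    -- the image `y` of `x` in `H¹(H, I_G)` is a multiple `r • [aug]`
    set y := (groupCohomology.map (MonoidHom.id H) (splitSCres C φ f).g 1).hom x with hy
    obtain ⟨r, hr⟩ := exists_eq_smul_H1_aug f hreg1 y
    -- `δ y = r • u_H = 0`
    have hδ : (δ hS 1 2 rfl).hom y = 0 := δ_map_g hS 1 x
    have hδ' : (δ hS 1 2 rfl).hom y = r • H2π (Rep.res f C) (resPhi C φ f) :=
      (congrArg _ hr).trans ((map_smul (δ hS 1 2 rfl).hom r _).trans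
        (congrArg (r • ·) (δ₁_resAugCocycle C φ f)))
    obtain ⟨s, hs⟩ := hord r (hδ'.symm.trans hδ)
    have hy0 : y = 0 := hr.trans (by
      rw [hs, mul_smul, card_smul_H1π_resAugCocycle, smul_zero]
      rfl)
    -- so `x` comes from `H¹(H, C) = 0`
    obtain ⟨w, hw⟩ := exists_map_f_eq hS 1 x hy0
    exact hw.symm.trans ((congrArg _ (eq_zero_of_isZero h1 w)).trans (map_zero _))
  · refine isZero_of_forall_eq_zero fun x => ?_
    have h2aug := isZero_H2_aug f hreg2 htriv1
    obtain ⟨w, hw⟩ := exists_map_f_eq hS 2 x (eq_zero_of_isZero h2aug _)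
    obtain ⟨r, hr⟩ := hgen w
    have hw' : w = (δ hS 1 2 rfl).hom (r • H1π (Rep.res f (aug k G)) (resAugCocycle f)) :=
      hr.trans ((map_smul (δ hS 1 2 rfl).hom r _).trans
        (congrArg (r • ·) (δ₁_resAugCocycle C φ f))).symm
    exact hw.symm.trans ((congrArg _ hw').trans (map_f_δ hS 1 _))

end Main

end Fermat.Agent.CFT.A5.SplitVanish
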