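import Mathlib
import Fermat.Agent.CFT.A5.Aug
import Fermat.Agent.CFT.A5.Split
import Fermat.Agent.CFT.A5.SplitRes
import Fermat.Agent.CFT.A5.SplitVanish

/-!
# PROJECT C, slice A5 (splitting module), part 5: the double connecting isomorphism

If the regular representation `k[G]` and the splitting module `C(φ)` are cohomologically trivial
over `H` (via `f : H →* G`), the two connecting homomorphisms
`Hⁿ(H, k) → Hⁿ⁺¹(H, I_G) → Hⁿ⁺²(H, C)` are isomorphisms: this is **Tate's theorem**, in ordinary
cohomology (`n ≥ 1`) and in Mathlib's Tate cohomology (all `n : ℤ`).  We also record that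
`H¹(H, k) = 0` for finite `H` when `|H|` is a non-zero-divisor of `k` (e.g. `k = ℤ`).
-/

set_option autoImplicit false

universe u

noncomputable section

open CategoryTheory groupCohomology Limits

namespace Fermat.Agent.CFT.A5.TateIso

open Fermat.Agent.CFT.A5.Aug Fermat.Agent.CFT.A5.Split Fermat.Agent.CFT.A5.SplitRes
  Fermat.Agent.CFT.A5.SplitVanish

variable {k G : Type u} [CommRing k] [Group G] (C : Rep.{u} k G) (φ : cocycles₂ C)
variable {H : Type u} [Group H] (f : H →* G)

/-! ### Ordinary cohomology, degrees `n ≥ 1` -/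

/-- `δ : Hⁿ(H, k) → Hⁿ⁺¹(H, I_G)` is an isomorphism if `Hⁿ(H, k[G]) = Hⁿ⁺¹(H, k[G]) = 0`. -/
theorem isIso_δ_aug (n : ℕ)
    (hn : IsZero (groupCohomology (Rep.res f (Rep.leftRegular k G)) n))
    (hn1 : IsZero (groupCohomology (Rep.res f (Rep.leftRegular k G)) (n + 1))) :
    IsIso (δ (augSCres_shortExact (k := k) f) n (n + 1) rfl) :=
  isIso_δ_of_isZero (augSCres_shortExact (k := k) f) n hn hn1

/-- `δ : Hⁿ(H, I_G) → Hⁿ⁺¹(H, C)` is an isomorphism if `Hⁿ(H, C(φ)) = Hⁿ⁺¹(H, C(φ)) = 0`. -/
theorem isIso_δ_split (n : ℕ)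
    (hn : IsZero (groupCohomology (Rep.res f (split C φ)) n))
    (hn1 : IsZero (groupCohomology (Rep.res f (split C φ)) (n + 1))) :
    IsIso (δ (splitSCres_shortExact C φ f) n (n + 1) rfl) :=
  isIso_δ_of_isZero (splitSCres_shortExact C φ f) n hn hn1

/-- **Tate's theorem** (ordinary cohomology): the composite of the two connecting homomorphisms
`Hⁿ(H, k) → Hⁿ⁺¹(H, I_G) → Hⁿ⁺²(H, C)`. -/
def tateMap (n : ℕ) :
    groupCohomology (Rep.res f (Rep.trivial k G k)) n ⟶ groupCohomology (Rep.res f C) (n + 2) :=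
  δ (augSCres_shortExact (k := k) f) n (n + 1) rfl ≫
    δ (splitSCres_shortExact C φ f) (n + 1) (n + 2) rfl

theorem isIso_tateMap (n : ℕ)
    (hr0 : IsZero (groupCohomology (Rep.res f (Rep.leftRegular k G)) n))
    (hr1 : IsZero (groupCohomology (Rep.res f (Rep.leftRegular k G)) (n + 1)))
    (hs1 : IsZero (groupCohomology (Rep.res f (split C φ)) (n + 1)))
    (hs2 : IsZero (groupCohomology (Rep.res f (split C φ)) (n + 2))) :
    IsIso (tateMap C φ f n) := by
  have h1 := isIso_δ_aug f n hr0 hr1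
  have h2 := isIso_δ_split C φ f (n + 1) hs1 hs2
  exact @IsIso.comp_isIso _ _ _ _ _ _ _ h1 h2

/-! ### Tate cohomology, all degrees -/

section Tate

variable [Fintype H]

/-- The connecting homomorphism in Tate cohomology is an isomorphism when the middle term is
acyclic in the two relevant degrees. -/
theorem isIso_tate_δ {S : ShortComplex (Rep.{u} k H)} (hS : S.ShortExact) (n : ℤ)
    (h0 : IsZero (tateCohomology S.X₂ n)) (h1 : IsZero (tateCohomology S.X₂ (n + 1))) :
    IsIso (TateCohomology.δ hS n) :=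
  (TateCohomology.map_tateComplexFunctor_shortExact hS).isIso_δ n (n + 1) rfl h0 h1

/-- **Tate's theorem** (Tate cohomology): the composite of the two connecting homomorphisms
`Ĥⁿ(H, k) → Ĥⁿ⁺¹(H, I_G) → Ĥⁿ⁺²(H, C)`, `n : ℤ`. -/
def tateMapZ (n : ℤ) :
    tateCohomology (Rep.res f (Rep.trivial k G k)) n ⟶ tateCohomology (Rep.res f C) (n + 1 + 1) :=
  TateCohomology.δ (augSCres_shortExact (k := k) f) n ≫
    TateCohomology.δ (splitSCres_shortExact C φ f) (n + 1)

theorem isIso_tateMapZ (n : ℤ)
    (hr0 : IsZero (tateCohomology (Rep.res f (Rep.leftRegular k G)) n))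
    (hr1 : IsZero (tateCohomology (Rep.res f (Rep.leftRegular k G)) (n + 1)))
    (hs1 : IsZero (tateCohomology (Rep.res f (split C φ)) (n + 1)))
    (hs2 : IsZero (tateCohomology (Rep.res f (split C φ)) (n + 1 + 1))) :
    IsIso (tateMapZ C φ f n) := by
  have h1 := isIso_tate_δ (augSCres_shortExact (k := k) f) n hr0 hr1
  have h2 := isIso_tate_δ (splitSCres_shortExact C φ f) (n + 1) hs1 hs2
  exact @IsIso.comp_isIso _ _ _ _ _ _ _ h1 h2

end Tate

/-! ### `H¹(H, k) = 0` -/

instance isTrivial_res_trivial : (Rep.res f (Rep.trivial k G k)).IsTrivial where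
  out _ := rfl

/-- `H¹(H, k) = Hom(H, k) = 0` for a finite group `H` whose order is a non-zero-divisor in `k`. -/
theorem isZero_H1_trivial [Fintype H]
    (hcard : ∀ r : k, (Fintype.card H : k) * r = 0 → r = 0) :
    IsZero (groupCohomology (Rep.res f (Rep.trivial k G k)) 1) := by
  refine IsZero.of_iso ?_ (H1IsoOfIsTrivial (Rep.res f (Rep.trivial k G k)))
  rw [ModuleCat.isZero_iff_subsingleton]
  refine ⟨fun a b => ?_⟩
  suffices h : ∀ c : Additive H →+ k, c = 0 from (h a).trans (h b).symm
  intro c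
  refine AddMonoidHom.ext fun x => ?_
  apply hcard
  have h1 : Fintype.card H • x = 0 := by
    have := pow_card_eq_one (x := Additive.toMul x)
    exact congrArg Additive.ofMul this
  have h2 := congrArg c h1
  rw [map_nsmul, map_zero, nsmul_eq_mul] at h2
  exact h2

theorem isZero_H1_trivial_int {G H : Type} [Group G] [Group H] [Fintype H] (f : H →* G) :
    IsZero (groupCohomology (Rep.res f (Rep.trivial ℤ G ℤ)) 1) :=
  isZero_H1_trivial f fun r hr => by
    rcases mul_eq_zero.1 hr with h | h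
    · exact absurd (by exact_mod_cast h) Fintype.card_ne_zero
    · exact h

end Fermat.Agent.CFT.A5.TateIso
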