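import Mathlib
import Fermat.Agent.CFT.A2.Trivial
import Fermat.Agent.CFT.A5.Regular
import Fermat.Agent.CFT.A5.TateIso

/-!
# PROJECT C, slice A5: Tate's theorem

`G` a finite group, `C : Rep ℤ G`, `φ` a `2`-cocycle ("fundamental class").  `IsClassModule C φ`:
for every subgroup `H`, `H¹(H, C) = 0` and `H²(H, C)` is cyclic of order `|H|` generated by the
restriction of the class of `φ`.

* `isZero_H1_H2_split_of_isClassModule` : then `H¹(H, C(φ)) = H²(H, C(φ)) = 0` for all `H`;
* `isCohTrivial_split` : hence (Nakayama–Tate twin criterion, slice A5a, taken as a hypothesis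
  `twin` here) the splitting module is cohomologically trivial;
* `isIso_tateMapZ_of_isCohTrivial`, `tate_theorem` : **Tate's theorem**
  `Ĥⁿ(H, ℤ) ≅ Ĥⁿ⁺²(H, C)` for all subgroups `H` and all `n : ℤ`.
-/

set_option autoImplicit false

universe u

noncomputable section

open CategoryTheory groupCohomology Limits

namespace Fermat.Agent.CFT.A5.Tate

open Fermat.Agent.CFT.A2 Fermat.Agent.CFT.A5.Aug Fermat.Agent.CFT.A5.Split
  Fermat.Agent.CFT.A5.SplitRes Fermat.Agent.CFT.A5.SplitVanish Fermat.Agent.CFT.A5.TateIso
  Fermat.Agent.CFT.A5.Regular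

variable {k G : Type u} [CommRing k] [Group G] [Fintype G] (C : Rep.{u} k G) (φ : cocycles₂ C)

/-- The axioms of a class formation at a finite layer: `H¹(H, C) = 0` and `H²(H, C)` is cyclic of
order `|H|`, generated by the restriction of the class of `φ`, for every subgroup `H`. -/
structure IsClassModule : Prop where
  h1 : ∀ H : Subgroup G, IsZero (groupCohomology (Rep.res H.subtype C) 1)
  hgen : ∀ (H : Subgroup G) (y : groupCohomology (Rep.res H.subtype C) 2),
    ∃ r : k, y = r • H2π (Rep.res H.subtype C) (resPhi C φ H.subtype)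
  hord : ∀ (H : Subgroup G) (r : k),
    r • H2π (Rep.res H.subtype C) (resPhi C φ H.subtype) = 0 → ((Nat.card H : ℕ) : k) ∣ r

/-- Ordinary cohomology in positive degrees vanishes for cohomologically trivial modules. -/
theorem isZero_groupCohomology_of_isCohTrivial {M : Rep.{u} k G} (hM : IsCohTrivial M)
    (H : Subgroup G) (n : ℕ) [NeZero n] :
    IsZero (groupCohomology (Rep.res H.subtype M) n) := by
  classical
  letI : Fintype H := Fintype.ofFinite H
  exact IsZero.of_iso (hM H (n : ℤ))
    ((TateCohomology.isoGroupCohomology n).app (Rep.res H.subtype M)).symm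

/-- Conversely, Tate cohomology in positive degrees is ordinary cohomology. -/
theorem isZero_tateCohomology_of_groupCohomology {M : Rep.{u} k G}
    (H : Subgroup G) [Fintype H] (n : ℕ) [NeZero n]
    (h : IsZero (groupCohomology (Rep.res H.subtype M) n)) :
    IsZero (tateCohomology (Rep.res H.subtype M) (n : ℤ)) :=
  IsZero.of_iso h ((TateCohomology.isoGroupCohomology n).app (Rep.res H.subtype M))

variable {C φ}

/-- Under the class formation axioms, `H¹` and `H²` of the splitting module vanish for every
subgroup. -/
theorem isZero_H1_H2_split_of_isClassModule (hC : IsClassModule C φ)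
    (hk : ∀ H : Subgroup G, IsZero (groupCohomology (Rep.res H.subtype (Rep.trivial k G k)) 1))
    (H : Subgroup G) :
    IsZero (groupCohomology (Rep.res H.subtype (split C φ)) 1) ∧
      IsZero (groupCohomology (Rep.res H.subtype (split C φ)) 2) := by
  classical
  letI : Fintype H := Fintype.ofFinite H
  have hreg := isCohTrivial_leftRegular k G
  refine isZero_H1_H2_split C φ H.subtype (hC.h1 H) (hC.hgen H) ?_
    (isZero_groupCohomology_of_isCohTrivial hreg H 1)
    (isZero_groupCohomology_of_isCohTrivial hreg H 2) (hk H)
  intro r hr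
  obtain ⟨s, hs⟩ := hC.hord H r hr
  refine ⟨s, ?_⟩
  rw [hs, Nat.card_eq_fintype_card, mul_comm]

/-- **The splitting module of a class module is cohomologically trivial**, given the
Nakayama–Tate twin criterion `twin` for it (slice A5a). -/
theorem isCohTrivial_split (hC : IsClassModule C φ)
    (hk : ∀ H : Subgroup G, IsZero (groupCohomology (Rep.res H.subtype (Rep.trivial k G k)) 1))
    (twin : (∀ H : Subgroup G,
        IsZero (groupCohomology (Rep.res H.subtype (split C φ)) 1) ∧
          IsZero (groupCohomology (Rep.res H.subtype (split C φ)) 2)) →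
      IsCohTrivial (split C φ)) :
    IsCohTrivial (split C φ) :=
  twin (isZero_H1_H2_split_of_isClassModule hC hk)

/-- **Tate's theorem**, from the cohomological triviality of the splitting module: the double
connecting homomorphism `Ĥⁿ(H, ℤ) → Ĥⁿ⁺²(H, C)` is an isomorphism for every subgroup `H` and every
`n : ℤ`. -/
theorem isIso_tateMapZ_of_isCohTrivial (hsplit : IsCohTrivial (split C φ))
    (H : Subgroup G) [Fintype H] (n : ℤ) : IsIso (tateMapZ C φ H.subtype n) :=
  isIso_tateMapZ C φ H.subtype n (isCohTrivial_leftRegular k G H n)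
    (isCohTrivial_leftRegular k G H (n + 1)) (hsplit H (n + 1)) (hsplit H (n + 1 + 1))

/-- **Tate's theorem** for a class module, given the twin criterion. -/
theorem tate_theorem (hC : IsClassModule C φ)
    (hk : ∀ H : Subgroup G, IsZero (groupCohomology (Rep.res H.subtype (Rep.trivial k G k)) 1))
    (twin : (∀ H : Subgroup G,
        IsZero (groupCohomology (Rep.res H.subtype (split C φ)) 1) ∧
          IsZero (groupCohomology (Rep.res H.subtype (split C φ)) 2)) →
      IsCohTrivial (split C φ))
    (H : Subgroup G) [Fintype H] (n : ℤ) : IsIso (tateMapZ C φ H.subtype n) :=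
  isIso_tateMapZ_of_isCohTrivial (isCohTrivial_split hC hk twin) H n

/-- `H¹(H, ℤ) = 0` for every subgroup of a finite group: the hypothesis `hk` for `k = ℤ`. -/
theorem isZero_H1_trivial_int_subgroup {G : Type} [Group G] [Fintype G] (H : Subgroup G) :
    IsZero (groupCohomology (Rep.res H.subtype (Rep.trivial ℤ G ℤ)) 1) := by
  classical
  letI : Fintype H := Fintype.ofFinite H
  exact isZero_H1_trivial_int H.subtype

end Fermat.Agent.CFT.A5.Tate
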