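import Mathlib

/-!
# PROJECT C, slice A5a (part 2): Nakayama-type lemmas for `p`-groups

Let `G` be a finite `p`-group acting linearly on a module `M` with `p • M = 0`.

* `exists_ne_zero_fixed` : if `M ≠ 0` then `M` contains a nonzero `G`-fixed vector;
* `subsingleton_of_coinvariantsKer_eq_top` : if `M = I_G M` (the augmentation submodule
  `Representation.Coinvariants.ker` is everything) then `M = 0`.
-/

set_option autoImplicit false

namespace Fermat.Agent.CFT.A5

variable {R G M : Type*} [CommRing R] [Group G] [Finite G] [AddCommGroup M] [Module R M]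
  {p : ℕ} [Fact p.Prime]

/-- A finite `p`-group acting on a nonzero module killed by `p` has a nonzero fixed vector. -/
theorem exists_ne_zero_fixed (hG : IsPGroup p G) (ρ : Representation R G M)
    (hp : ∀ m : M, p • m = 0) [Nontrivial M] :
    ∃ m : M, m ≠ 0 ∧ ∀ g : G, ρ g m = m := by
  classical
  obtain ⟨m₀, hm₀⟩ := exists_ne (0 : M)
  let S : Set M := Set.range fun g : G => ρ g m₀
  have hS : Finite S := Set.finite_range _
  let W : AddSubgroup M := AddSubgroup.closure S
  have hinv : ∀ g : G, ∀ w ∈ W, ρ g w ∈ W := by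
    intro g w hw
    induction hw using AddSubgroup.closure_induction with
    | mem x hx =>
      obtain ⟨h, rfl⟩ := hx
      refine AddSubgroup.subset_closure ⟨g * h, ?_⟩
      simp [map_mul]
    | zero => rw [map_zero]; exact W.zero_mem
    | add x y _ _ hx hy => rw [map_add]; exact W.add_mem hx hy
    | neg x _ hx => rw [map_neg]; exact W.neg_mem hx
  have hfg : AddGroup.FG W := AddGroup.closure_finite_fg S
  have htors : IsAddTorsion W := fun w =>
    isOfFinAddOrder_iff_nsmul_eq_zero.mpr
      ⟨p, (Fact.out : p.Prime).pos, Subtype.ext (by simpa using hp w.1)⟩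
  have hfin : Finite W := AddCommGroup.finite_of_fg_isAddTorsion W htors
  let act : MulAction G W :=
    { smul := fun g w => ⟨ρ g w.1, hinv g w.1 w.2⟩
      one_smul := fun w => Subtype.ext (by
        show ρ 1 w.1 = w.1
        simp)
      mul_smul := fun g h w => Subtype.ext (by
        show ρ (g * h) w.1 = ρ g (ρ h w.1)
        simp [map_mul]) }
  have hsmul : ∀ (g : G) (w : W), ((g • w : W) : M) = ρ g w.1 := fun _ _ => rfl
  let w₀ : W := ⟨m₀, AddSubgroup.subset_closure ⟨1, by simp⟩⟩
  have hw₀ : w₀ ≠ 0 := fun h => hm₀ (congrArg Subtype.val h)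
  have hcard : p ∣ Nat.card W := by
    have h1 : addOrderOf w₀ ∣ p :=
      addOrderOf_dvd_of_nsmul_eq_zero (Subtype.ext (by simpa using hp m₀))
    have h2 : addOrderOf w₀ = p := by
      rcases (Nat.dvd_prime (Fact.out : p.Prime)).mp h1 with h | h
      · exact absurd (AddMonoid.addOrderOf_eq_one_iff.mp h) hw₀
      · exact h
    rw [← h2]
    exact addOrderOf_dvd_natCard w₀
  obtain ⟨b, hb, hne⟩ := hG.exists_fixed_point_of_prime_dvd_card_of_fixed_point W hcard
    (a := (0 : W)) (fun g => Subtype.ext (by rw [hsmul]; simp))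
  refine ⟨b.1, fun h => hne (Subtype.ext h.symm), fun g => ?_⟩
  have := congrArg Subtype.val (hb g)
  rwa [hsmul] at this

omit [Finite G] in
theorem exists_addChar_ne_zero [Module (ZMod p) M] {m₀ : M} (hm₀ : m₀ ≠ 0) :
    ∃ f : M →+ ZMod p, f m₀ ≠ 0 := by
  obtain ⟨f, hf⟩ := Module.Projective.exists_dual_ne_zero (V := M) (ZMod p) hm₀
  exact ⟨f.toAddMonoidHom, hf⟩

/-- The contragredient action of `G` on the additive characters `M →+ ZMod p`. -/
def dualRep (p : ℕ) (ρ : Representation R G M) : Representation ℤ G (M →+ ZMod p) where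
  toFun g :=
    { toFun := fun l => l.comp (ρ g⁻¹).toAddMonoidHom
      map_add' := fun l l' => by ext m; simp
      map_smul' := fun n l => by ext m; simp }
  map_one' := by ext l m; simp
  map_mul' g h := by ext l m; simp [mul_inv_rev, map_mul]

omit [Finite G] in
@[simp]
theorem dualRep_apply (ρ : Representation R G M) (g : G) (l : M →+ ZMod p) (m : M) :
    dualRep p ρ g l m = l (ρ g⁻¹ m) := rfl

/-- **Nakayama for `p`-groups.** If `M = I_G M` for a finite `p`-group `G` and `p • M = 0`, then
`M = 0`. -/
theorem subsingleton_of_coinvariantsKer_eq_top (hG : IsPGroup p G) (ρ : Representation R G M)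
    (hp : ∀ m : M, p • m = 0) (h : Representation.Coinvariants.ker ρ = ⊤) : Subsingleton M := by
  by_contra hns
  rw [not_subsingleton_iff_nontrivial] at hns
  obtain ⟨m₀, hm₀⟩ := exists_ne (0 : M)
  obtain ⟨f, hf⟩ := @exists_addChar_ne_zero M _ p _ (AddCommGroup.zmodModule hp) m₀ hm₀
  have hnt : Nontrivial (M →+ ZMod p) :=
    ⟨⟨f, 0, fun h0 => hf (by simpa using DFunLike.congr_fun h0 m₀)⟩⟩
  obtain ⟨l, hl0, hl⟩ := exists_ne_zero_fixed hG (dualRep p ρ) (fun l => by
    ext m
    simp)
  apply hl0
  have key : ∀ m ∈ Representation.Coinvariants.ker ρ, ∀ r : R, l (r • m) = 0 := by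
    intro m hm
    induction hm using Submodule.span_induction with
    | mem x hx =>
      obtain ⟨⟨g, y⟩, rfl⟩ := hx
      intro r
      have h1 := DFunLike.congr_fun (hl g⁻¹) (r • y)
      rw [dualRep_apply, inv_inv] at h1
      rw [smul_sub, map_sub, ← map_smul, h1, sub_self]
    | zero => intro r; simp
    | add x y _ _ hx hy => intro r; rw [smul_add, map_add, hx r, hy r, add_zero]
    | smul s x _ hx => intro r; rw [smul_smul]; exact hx _
  ext m
  have := key m (h ▸ Submodule.mem_top) 1
  simpa using this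

end Fermat.Agent.CFT.A5
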