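import Mathlib

/-!
# PROJECT C, slice A5a (part 3): short exact sequences of representations and Tate cohomology

* `shortExact_of_functions` : a concrete criterion for a short complex in `Rep R G` to be short
  exact;
* `kerSeq`, `cokerSeq` : the kernel / cokernel sequences of a surjective / injective morphism, in
  the concrete models `Rep.subrepresentation`, `Rep.quotient`;
* two-out-of-three vanishing statements for Tate cohomology along a short exact sequence.
-/

set_option autoImplicit false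

open CategoryTheory Limits

universe u

namespace Fermat.Agent.CFT.A5

section General

variable {R G : Type u} [CommRing R] [Group G]

theorem exact_of_functions {A B C : Rep.{u} R G} (f : A ⟶ B) (g : B ⟶ C) (w : f ≫ g = 0)
    (hex : ∀ b : B, g.hom b = 0 → ∃ a : A, f.hom a = b) :
    (ShortComplex.mk f g w).Exact := by
  rw [← ShortComplex.exact_map_iff_of_faithful _ (forget₂ (Rep.{u} R G) (ModuleCat.{u} R)),
    ShortComplex.moduleCat_exact_iff]
  intro b hb
  exact hex b hb

theorem shortExact_of_functions {A B C : Rep.{u} R G} (f : A ⟶ B) (g : B ⟶ C) (w : f ≫ g = 0)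
    (hf : Function.Injective f.hom) (hg : Function.Surjective g.hom)
    (hex : ∀ b : B, g.hom b = 0 → ∃ a : A, f.hom a = b) :
    (ShortComplex.mk f g w).ShortExact :=
  { exact := exact_of_functions f g w hex
    mono_f := (Rep.mono_iff_injective f).mpr hf
    epi_g := (Rep.epi_iff_surjective g).mpr hg }

/-- The kernel of a morphism of representations, as a subrepresentation. -/
noncomputable abbrev kerRep {F M : Rep.{u} R G} (φ : F ⟶ M) : Rep.{u} R G :=
  Rep.subrepresentation F (LinearMap.ker φ.hom.toLinearMap) (fun g x hx => by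
    rw [Submodule.mem_comap, LinearMap.mem_ker]
    rw [LinearMap.mem_ker] at hx
    exact (Rep.hom_comm_apply φ g x).trans (by rw [show φ.hom x = 0 from hx, map_zero]))

/-- The inclusion of the kernel. -/
noncomputable abbrev kerι {F M : Rep.{u} R G} (φ : F ⟶ M) : kerRep φ ⟶ F :=
  Rep.subtype F _ _

theorem kerι_apply {F M : Rep.{u} R G} (φ : F ⟶ M) (k : kerRep φ) :
    (kerι φ).hom k = (k : F.V) := rfl

theorem kerι_comp {F M : Rep.{u} R G} (φ : F ⟶ M) : kerι φ ≫ φ = 0 := by
  ext k
  exact k.2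

/-- The kernel sequence `0 ⟶ ker φ ⟶ F ⟶ M ⟶ 0` of a surjective morphism. -/
noncomputable abbrev kerSeq {F M : Rep.{u} R G} (φ : F ⟶ M) : ShortComplex (Rep.{u} R G) :=
  ShortComplex.mk (kerι φ) φ (kerι_comp φ)

theorem kerSeq_shortExact {F M : Rep.{u} R G} (φ : F ⟶ M) (hφ : Function.Surjective φ.hom) :
    (kerSeq φ).ShortExact :=
  shortExact_of_functions _ _ _ (fun a b h => Subtype.ext h) hφ
    (fun b hb => ⟨⟨b, hb⟩, rfl⟩)

/-- The cokernel of a morphism of representations, as a quotient representation. -/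
noncomputable abbrev cokerRep {M F : Rep.{u} R G} (ι : M ⟶ F) : Rep.{u} R G :=
  Rep.quotient F (LinearMap.range ι.hom.toLinearMap) (fun g x hx => by
    rw [Submodule.mem_comap]
    obtain ⟨m, rfl⟩ := hx
    exact ⟨M.ρ g m, Rep.hom_comm_apply ι g m⟩)

/-- The projection to the cokernel. -/
noncomputable abbrev cokerπ {M F : Rep.{u} R G} (ι : M ⟶ F) : F ⟶ cokerRep ι :=
  Rep.mkQ F _ _

theorem cokerπ_apply {M F : Rep.{u} R G} (ι : M ⟶ F) (f : F) :
    (cokerπ ι).hom f = Submodule.Quotient.mk f := rfl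

theorem comp_cokerπ {M F : Rep.{u} R G} (ι : M ⟶ F) : ι ≫ cokerπ ι = 0 := by
  ext m
  exact (Submodule.Quotient.mk_eq_zero _).mpr ⟨m, rfl⟩

/-- The cokernel sequence `0 ⟶ M ⟶ F ⟶ coker ι ⟶ 0` of an injective morphism. -/
noncomputable abbrev cokerSeq {M F : Rep.{u} R G} (ι : M ⟶ F) : ShortComplex (Rep.{u} R G) :=
  ShortComplex.mk ι (cokerπ ι) (comp_cokerπ ι)

theorem cokerSeq_shortExact {M F : Rep.{u} R G} (ι : M ⟶ F) (hι : Function.Injective ι.hom) :
    (cokerSeq ι).ShortExact :=
  shortExact_of_functions _ _ _ hι (Submodule.Quotient.mk_surjective _)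
    (fun b hb => (Submodule.Quotient.mk_eq_zero _).mp hb)

end General

section Tate

variable {R G : Type u} [CommRing R] [Group G] [Fintype G]

theorem isZero_tate_X₁ {S : ShortComplex (Rep R G)} (hS : S.ShortExact) (n : ℤ)
    (h₃ : IsZero (tateCohomology S.X₃ n)) (h₂ : IsZero (tateCohomology S.X₂ (n + 1))) :
    IsZero (tateCohomology S.X₁ (n + 1)) :=
  (TateCohomology.exact₁ hS n).isZero_of_both_zeros (h₃.eq_of_src _ _) (h₂.eq_of_tgt _ _)

theorem isZero_tate_X₃ {S : ShortComplex (Rep R G)} (hS : S.ShortExact) (n : ℤ)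
    (h₂ : IsZero (tateCohomology S.X₂ n)) (h₁ : IsZero (tateCohomology S.X₁ (n + 1))) :
    IsZero (tateCohomology S.X₃ n) :=
  (TateCohomology.exact₃ hS n).isZero_of_both_zeros (h₂.eq_of_src _ _) (h₁.eq_of_tgt _ _)

theorem isZero_tate_X₂ {S : ShortComplex (Rep R G)} (hS : S.ShortExact) (n : ℤ)
    (h₁ : IsZero (tateCohomology S.X₁ n)) (h₃ : IsZero (tateCohomology S.X₃ n)) :
    IsZero (tateCohomology S.X₂ n) :=
  ((TateCohomology.map_tateComplexFunctor_shortExact hS).homology_exact₂ n).isZero_of_both_zeros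
    (h₁.eq_of_src _ _) (h₃.eq_of_tgt _ _)

end Tate

end Fermat.Agent.CFT.A5
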