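import Mathlib
import Fermat.Agent.CFT.A2.Mackey
import Fermat.Agent.CFT.A5.Annihilate
import Fermat.Agent.CFT.A5.PGroupNak
import Fermat.Agent.CFT.A5.SES

/-!
# PROJECT C, slice A5a (part 4): `H₁ = 0` implies free, for `p`-groups and `p`-torsion modules

Let `G` be a finite `p`-group, `M : Rep R G` with `p • M = 0`, and suppose that the projection
`M → M_G` onto the coinvariants has an `R`-linear section `ψ` (automatic for `R = ℤ`).  If
`Ĥ⁻²(G, M) = H₁(G, M) = 0`, then the induced morphism `coind₁ R G (M_G) ⟶ M` is an isomorphism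
(Serre, *Local Fields*, IX §5 Lemma 4).  In particular `M` has trivial Tate cohomology for every
subgroup and every degree.
-/

set_option autoImplicit false

open CategoryTheory Limits

universe u

namespace Fermat.Agent.CFT.A5

open Fermat.Agent.CFT.A2 Representation

section Lift

variable {R G : Type u} [CommRing R] [Group G]

/-- Functoriality of `coind₁` in the coefficient module. -/
noncomputable def coind₁Map {X Y : Type u} [AddCommGroup X] [Module R X] [AddCommGroup Y]
    [Module R Y] (ψ : X →ₗ[R] Y) : coind₁ R G X ⟶ coind₁ R G Y :=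
  Rep.ofHom (ρ := funRep R G X) (σ := funRep R G Y)
    ⟨ψ.compLeft G, fun g => by
      ext f x
      rfl⟩

theorem coind₁Map_apply {X Y : Type u} [AddCommGroup X] [Module R X] [AddCommGroup Y]
    [Module R Y] (ψ : X →ₗ[R] Y) (f : G → X) (x : G) :
    (coind₁Map (G := G) ψ).hom f x = ψ (f x) := rfl

/-- An equivariant map sends the augmentation submodule into the augmentation submodule. -/
theorem map_mem_coinvariantsKer {A B : Rep.{u} R G} (φ : A ⟶ B) {a : A}
    (ha : a ∈ Coinvariants.ker A.ρ) : φ.hom a ∈ Coinvariants.ker B.ρ := by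
  induction ha using Submodule.span_induction with
  | mem x hx =>
    obtain ⟨⟨g, y⟩, rfl⟩ := hx
    rw [map_sub, Rep.hom_comm_apply]
    exact Coinvariants.sub_mem_ker g _
  | zero => rw [map_zero]; exact Submodule.zero_mem _
  | add x y _ _ hx hy => rw [map_add]; exact Submodule.add_mem _ hx hy
  | smul r x _ hx => rw [map_smul]; exact Submodule.smul_mem _ r hx

variable [Fintype G]

/-- The morphism `coind₁ R G X ⟶ M`, `f ↦ ∑ x, x⁻¹ • ψ (f x)` attached to a linear map
`ψ : X → M`. -/
noncomputable def coindLift (M : Rep R G) {X : Type u} [AddCommGroup X] [Module R X]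
    (ψ : X →ₗ[R] M.V) : coind₁ R G X ⟶ M :=
  coind₁Map ψ ≫ fromCoind₁ M

theorem coindLift_apply (M : Rep R G) {X : Type u} [AddCommGroup X] [Module R X]
    (ψ : X →ₗ[R] M.V) (f : G → X) :
    (coindLift M ψ).hom f = ∑ x : G, M.ρ x⁻¹ (ψ (f x)) := rfl

open Classical in
theorem coindLift_single (M : Rep R G) {X : Type u} [AddCommGroup X] [Module R X]
    (ψ : X →ₗ[R] M.V) (x : X) :
    (coindLift M ψ).hom (Pi.single (M := fun _ : G => X) 1 x) = ψ x := by
  rw [coindLift_apply, Finset.sum_eq_single 1 (by intro b _ hb; simp [hb]) (by simp)]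
  simp

open Classical in
theorem sub_single_mem_ker {X : Type u} [AddCommGroup X] [Module R X] (f : G → X) :
    f - Pi.single (M := fun _ : G => X) 1 (∑ x : G, f x) ∈ Coinvariants.ker (funRep R G X) := by
  apply funRep_mem_ker_of_norm_eq_zero
  funext x
  rw [funRep_norm_apply]
  simp only [Pi.sub_apply, Finset.sum_sub_distrib, Pi.zero_apply]
  rw [Finset.sum_pi_single']
  simp

end Lift

section Main

variable {R G : Type u} [CommRing R] [Group G] [Fintype G] {p : ℕ} [Fact p.Prime]

theorem coindLift_surjective (hG : IsPGroup p G) (M : Rep R G) (hp : ∀ m : M.V, p • m = 0)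
    {X : Type u} [AddCommGroup X] [Module R X] (ψ : X →ₗ[R] M.V)
    (hψ : Function.Surjective fun x => Coinvariants.mk M.ρ (ψ x)) :
    Function.Surjective (coindLift M ψ).hom := by
  classical
  have hC : Subsingleton (cokerRep (coindLift M ψ)).V := by
    apply subsingleton_of_coinvariantsKer_eq_top hG (cokerRep (coindLift M ψ)).ρ
    · intro c
      obtain ⟨m, rfl⟩ := Submodule.Quotient.mk_surjective _ c
      rw [← Submodule.Quotient.mk_smul, hp, Submodule.Quotient.mk_zero]
    · rw [eq_top_iff]
      intro c _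
      obtain ⟨m, rfl⟩ := Submodule.Quotient.mk_surjective _ c
      obtain ⟨x, hx⟩ := hψ (Coinvariants.mk M.ρ m)
      have h1 : m - ψ x ∈ Coinvariants.ker M.ρ := by
        rw [← Coinvariants.mk_eq_iff]
        exact hx.symm
      have h2 := map_mem_coinvariantsKer (cokerπ (coindLift M ψ)) h1
      have h3 : (cokerπ (coindLift M ψ)).hom (ψ x) = 0 :=
        (Submodule.Quotient.mk_eq_zero _).mpr ⟨Pi.single 1 x, coindLift_single M ψ x⟩
      rw [map_sub, h3, sub_zero] at h2
      exact h2
  intro m
  have h0 : (cokerπ (coindLift M ψ)).hom m = 0 := Subsingleton.elim _ _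
  exact (Submodule.Quotient.mk_eq_zero _).mp h0

theorem coindLift_injective (hG : IsPGroup p G) (M : Rep R G)
    {X : Type u} [AddCommGroup X] [Module R X] (hX : ∀ x : X, p • x = 0) (ψ : X →ₗ[R] M.V)
    (hsurj : Function.Surjective (coindLift M ψ).hom)
    (hψ : Function.Injective fun x => Coinvariants.mk M.ρ (ψ x))
    (hM : IsZero (tateCohomology M (-2))) :
    Function.Injective (coindLift M ψ).hom := by
  classical
  have hS := kerSeq_shortExact (coindLift M ψ) hsurj
  have hK1 : IsZero (tateCohomology (kerRep (coindLift M ψ)) (-2 + 1)) :=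
    isZero_tate_X₁ hS (-2) hM (isZero_tateCohomology_coind₁ R G X (-2 + 1))
  have hK : IsZero (tateCohomology (kerRep (coindLift M ψ)) (-1)) := hK1
  rw [isZero_tateCohomology_neg_one_iff] at hK
  have hKtop : Coinvariants.ker (kerRep (coindLift M ψ)).ρ = ⊤ := by
    rw [eq_top_iff]
    intro k _
    apply hK
    obtain ⟨f, hf⟩ := k
    have hf' : (coindLift M ψ).hom f = 0 := hf
    have hs : ∑ x : G, f x = 0 := by
      apply hψ
      have h1 := map_mem_coinvariantsKer (coindLift M ψ) (sub_single_mem_ker (R := R) f)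
      rw [map_sub, coindLift_single, hf', zero_sub] at h1
      have h2 := (Coinvariants.mk_eq_zero M.ρ).mpr ((Submodule.neg_mem_iff _).mp h1)
      simp only [map_zero]
      exact h2
    apply Subtype.ext
    have hn : ((((kerRep (coindLift M ψ)).ρ.norm ⟨f, hf⟩ : kerRep (coindLift M ψ)) :
        (coind₁ R G X).V)) = (funRep R G X).norm f := by
      simp only [Representation.norm, LinearMap.sum_apply]
      rw [Submodule.coe_sum]
      rfl
    rw [hn]
    funext x
    rw [funRep_norm_apply, hs]
    rfl
  have hsub : Subsingleton (kerRep (coindLift M ψ)).V :=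
    subsingleton_of_coinvariantsKer_eq_top hG _
      (fun k => Subtype.ext (funext fun x => hX _)) hKtop
  intro a b hab
  have hmem : a - b ∈ LinearMap.ker (coindLift M ψ).hom.toLinearMap := by
    rw [LinearMap.mem_ker, map_sub]
    exact sub_eq_zero.mpr hab
  have h0 : (⟨a - b, hmem⟩ : kerRep (coindLift M ψ)) = 0 := Subsingleton.elim _ _
  exact sub_eq_zero.mp (congrArg Subtype.val h0)

/-- **Serre's Lemma 4.** For a finite `p`-group `G` and a `p`-torsion module `M` with
`Ĥ⁻²(G, M) = 0`, the morphism `coind₁ R G (M_G) ⟶ M` attached to a linear section of `M → M_G`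
is an isomorphism. -/
theorem isIso_coindLift (hG : IsPGroup p G) (M : Rep R G) (hp : ∀ m : M.V, p • m = 0)
    (ψ : Coinvariants M.ρ →ₗ[R] M.V) (hψ : ∀ x, Coinvariants.mk M.ρ (ψ x) = x)
    (hM : IsZero (tateCohomology M (-2))) : IsIso (coindLift M ψ) := by
  have hX : ∀ x : Coinvariants M.ρ, p • x = 0 := by
    intro x
    obtain ⟨m, rfl⟩ := Coinvariants.mk_surjective M.ρ x
    rw [← map_nsmul, hp, map_zero]
  have hsurj : Function.Surjective (coindLift M ψ).hom :=
    coindLift_surjective hG M hp ψ (fun x => ⟨x, hψ x⟩)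
  have hinj : Function.Injective (coindLift M ψ).hom :=
    coindLift_injective hG M hX ψ hsurj (fun x y hxy => by
      have : Coinvariants.mk M.ρ (ψ x) = Coinvariants.mk M.ρ (ψ y) := hxy
      rwa [hψ, hψ] at this) hM
  haveI : Mono (coindLift M ψ) := (Rep.mono_iff_injective _).mpr hinj
  haveI : Epi (coindLift M ψ) := (Rep.epi_iff_surjective _).mpr hsurj
  exact isIso_of_mono_of_epi _

/-- Consequence: all Tate cohomology groups of all subgroups vanish. -/
theorem isZero_tate_res_of_section (hG : IsPGroup p G) (M : Rep R G) (hp : ∀ m : M.V, p • m = 0)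
    (ψ : Coinvariants M.ρ →ₗ[R] M.V) (hψ : ∀ x, Coinvariants.mk M.ρ (ψ x) = x)
    (hM : IsZero (tateCohomology M (-2))) (H : Subgroup G) [Fintype H] (n : ℤ) :
    IsZero (tateCohomology (Rep.res H.subtype M) n) := by
  haveI := isIso_coindLift hG M hp ψ hψ hM
  exact IsZero.of_iso (isZero_tateCohomology_res_coind₁ R G (Coinvariants M.ρ) H n)
    ((tateCohomologyFunctor n).mapIso
      ((Rep.resFunctor H.subtype).mapIso (asIso (coindLift M ψ)).symm))

end Main

section Section

/-- Every additive map between `R`-modules is `R`-linear (true for `R = ℤ`).  We use this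
predicate instead of specialising to `R = ℤ` so that no `ℤ`-module instance diamonds appear. -/
def AddHomsLinear (R : Type u) [CommRing R] : Prop :=
  ∀ (A B : Type u) [AddCommGroup A] [AddCommGroup B] [Module R A] [Module R B] (f : A →+ B)
    (r : R) (a : A), f (r • a) = r • f a

theorem addHomsLinear_int : AddHomsLinear ℤ := by
  intro A B _ _ _ _ f r a
  have := map_intCast_smul f ℤ ℤ r a
  simpa using this

variable {p : ℕ} [Fact p.Prime]

theorem exists_addMonoidHom_section {A B : Type*} [AddCommGroup A] [AddCommGroup B]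
    [Module (ZMod p) A] [Module (ZMod p) B] (f : A →+ B) (hf : Function.Surjective f) :
    ∃ g : B →+ A, ∀ b, f (g b) = b := by
  obtain ⟨g, hg⟩ := LinearMap.exists_rightInverse_of_surjective (f.toZModLinearMap p)
    (LinearMap.range_eq_top.mpr hf)
  exact ⟨g.toAddMonoidHom, fun b => by simpa using LinearMap.congr_fun hg b⟩

variable {R G : Type u} [CommRing R] [Group G] [Fintype G]

theorem exists_section (hR : AddHomsLinear R) (M : Rep.{u} R G) (hp : ∀ m : M.V, p • m = 0) :
    ∃ ψ : Coinvariants M.ρ →ₗ[R] M.V, ∀ x, Coinvariants.mk M.ρ (ψ x) = x := by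
  have hX : ∀ x : Coinvariants M.ρ, p • x = 0 := by
    intro x
    obtain ⟨m, rfl⟩ := Coinvariants.mk_surjective M.ρ x
    rw [← map_nsmul, hp, map_zero]
  obtain ⟨g, hg⟩ := @exists_addMonoidHom_section p _ M.V (Coinvariants M.ρ) _ _
    (AddCommGroup.zmodModule hp) (AddCommGroup.zmodModule hX)
    (Coinvariants.mk M.ρ).toAddMonoidHom (Coinvariants.mk_surjective M.ρ)
  exact ⟨{ toFun := g, map_add' := g.map_add, map_smul' := fun r x => hR _ _ g r x }, hg⟩

/-- **Theorem (Serre IX §5, Lemma 4).** `G` a finite `p`-group, `M` a `G`-module killed by `p`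
with `Ĥ⁻²(G, M) = 0`: then `M` is cohomologically trivial. -/
theorem isZero_tate_res_of_neg_two (hR : AddHomsLinear R) (hG : IsPGroup p G) (M : Rep R G)
    (hp : ∀ m : M.V, p • m = 0) (hM : IsZero (tateCohomology M (-2))) (H : Subgroup G)
    [Fintype H] (n : ℤ) :
    IsZero (tateCohomology (Rep.res H.subtype M) n) := by
  obtain ⟨ψ, hψ⟩ := exists_section hR M hp
  exact isZero_tate_res_of_section hG M hp ψ hψ hM H n

end Section

end Fermat.Agent.CFT.A5
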