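import Mathlib
import Fermat.Agent.CFT.A2.ShiftExtra
import Fermat.Agent.CFT.A5.PGroupFree

/-!
# PROJECT C, slice A5a (part 5): Serre's Theorem 5

`G` a finite `p`-group, `M` a `G`-module killed by `p`.  If `Ĥ^q(G, M) = 0` for ONE `q : ℤ`, then
`M` is cohomologically trivial (Serre, *Local Fields*, IX §5, Théorème 5).  Proof: dimension
shifting reduces to `q = -2`, which is `isZero_tate_res_of_neg_two`.
-/

set_option autoImplicit false

open CategoryTheory Limits

universe u

namespace Fermat.Agent.CFT.A5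

open Fermat.Agent.CFT.A2

variable {R G : Type u} [CommRing R] [Group G] [Fintype G] {p : ℕ} [Fact p.Prime]

theorem up_nsmul_eq_zero (M : Rep R G) (n : ℕ) (h : ∀ m : M.V, n • m = 0) (x : (up M).V) :
    n • x = 0 := by
  rw [← Nat.cast_smul_eq_nsmul R]
  exact up_smul_eq_zero M (n : R) (fun m => by rw [Nat.cast_smul_eq_nsmul]; exact h m) x

theorem down_nsmul_eq_zero (M : Rep R G) (n : ℕ) (h : ∀ m : M.V, n • m = 0) (x : (down M).V) :
    n • x = 0 := by
  rw [← Nat.cast_smul_eq_nsmul R]
  exact down_smul_eq_zero M (n : R) (fun m => by rw [Nat.cast_smul_eq_nsmul]; exact h m) x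

theorem isZero_tate_up_iff (M : Rep R G) (n : ℤ) :
    IsZero (tateCohomology (up M) n) ↔ IsZero (tateCohomology M (n + 1)) :=
  isZero_tateCohomology_X₃_iff_X₁ (upSC_shortExact M) n
    (isZero_tateCohomology_coind₁ R G M.V n) (isZero_tateCohomology_coind₁ R G M.V (n + 1))

theorem isZero_tate_down_iff (M : Rep R G) (n : ℤ) :
    IsZero (tateCohomology M n) ↔ IsZero (tateCohomology (down M) (n + 1)) :=
  isZero_tateCohomology_X₃_iff_X₁ (downSC_shortExact M) n
    (isZero_tateCohomology_coind₁ R G M.V n) (isZero_tateCohomology_coind₁ R G M.V (n + 1))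

theorem isCohTrivial_of_isZero_neg_two (hR : AddHomsLinear R) (hG : IsPGroup p G) (M : Rep R G)
    (hp : ∀ m : M.V, p • m = 0) (hM : IsZero (tateCohomology M (-2))) : IsCohTrivial M :=
  fun H _ n => isZero_tate_res_of_neg_two hR hG M hp hM H n

theorem isCohTrivial_of_isZero_add (hR : AddHomsLinear R) (hG : IsPGroup p G) (k : ℕ) :
    ∀ (M : Rep R G), (∀ m : M.V, p • m = 0) → IsZero (tateCohomology M (-2 + k)) →
      IsCohTrivial M := by
  induction k with
  | zero =>
    intro M hp hM
    rw [Nat.cast_zero, add_zero] at hM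
    exact isCohTrivial_of_isZero_neg_two hR hG M hp hM
  | succ k ih =>
    intro M hp hM
    have h1 : IsZero (tateCohomology (up M) (-2 + k)) := by
      rw [isZero_tate_up_iff]
      have e : (-2 : ℤ) + (k + 1 : ℕ) = -2 + k + 1 := by push_cast; ring
      rwa [e] at hM
    exact (isCohTrivial_up_iff M).mp (ih (up M) (up_nsmul_eq_zero M p hp) h1)

theorem isCohTrivial_of_isZero_sub (hR : AddHomsLinear R) (hG : IsPGroup p G) (k : ℕ) :
    ∀ (M : Rep R G), (∀ m : M.V, p • m = 0) → IsZero (tateCohomology M (-2 - k)) →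
      IsCohTrivial M := by
  induction k with
  | zero =>
    intro M hp hM
    rw [Nat.cast_zero, sub_zero] at hM
    exact isCohTrivial_of_isZero_neg_two hR hG M hp hM
  | succ k ih =>
    intro M hp hM
    have h1 : IsZero (tateCohomology (down M) (-2 - k)) := by
      have e : (-2 : ℤ) - k = -2 - (k + 1 : ℕ) + 1 := by push_cast; ring
      rw [e, ← isZero_tate_down_iff]
      exact hM
    exact (isCohTrivial_down_iff M).mp (ih (down M) (down_nsmul_eq_zero M p hp) h1)

/-- **Serre's Theorem 5.** A module killed by `p` over a finite `p`-group with one vanishing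
Tate cohomology group is cohomologically trivial. -/
theorem isCohTrivial_of_isZero_of_torsion (hR : AddHomsLinear R) (hG : IsPGroup p G)
    (M : Rep R G) (hp : ∀ m : M.V, p • m = 0) (q : ℤ) (hM : IsZero (tateCohomology M q)) :
    IsCohTrivial M := by
  rcases le_total (-2) q with h | h
  · obtain ⟨k, hk⟩ := Int.eq_ofNat_of_zero_le (sub_nonneg.mpr h)
    have e : q = -2 + k := by omega
    rw [e] at hM
    exact isCohTrivial_of_isZero_add hR hG k M hp hM
  · obtain ⟨k, hk⟩ := Int.eq_ofNat_of_zero_le (sub_nonneg.mpr h)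
    have e : q = -2 - k := by omega
    rw [e] at hM
    exact isCohTrivial_of_isZero_sub hR hG k M hp hM

end Fermat.Agent.CFT.A5
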