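import Mathlib
import Fermat.Agent.CFT.A2.ShiftExtra
import Fermat.Agent.CFT.A5.PGroupTorsion

/-!
# PROJECT C, slice A5a (part 6): the twin criterion for `p`-groups

`G` a finite `p`-group, `A` an arbitrary `G`-module.  If `Ĥ^q(G, A) = Ĥ^{q+1}(G, A) = 0` for one
`q : ℤ`, then `A` is cohomologically trivial (Serre, *Local Fields*, IX §5, Théorèmes 6–8 for a
`p`-group).
-/

set_option autoImplicit false

open CategoryTheory Limits

universe u

namespace Fermat.Agent.CFT.A5

open Fermat.Agent.CFT.A2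

section Divisible

variable {R : Type u} [CommRing R]

/-- A module on which `p` is surjective and which is killed by a power of `p` is zero. -/
theorem isZero_of_epi_nsmul_of_pow_nsmul (T : ModuleCat.{u} R) (p k : ℕ)
    (hepi : Epi (p • 𝟙 T)) (hk : ∀ x : T, (p ^ k) • x = 0) : IsZero T := by
  have hsurj : ∀ x : T, ∃ y : T, p • y = x := by
    intro x
    obtain ⟨y, hy⟩ := (ModuleCat.epi_iff_surjective _).mp hepi x
    refine ⟨y, ?_⟩
    rw [← hy]
    simp
  have hpow : ∀ j : ℕ, ∀ x : T, ∃ y : T, (p ^ j) • y = x := by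
    intro j
    induction j with
    | zero => intro x; exact ⟨x, by simp⟩
    | succ j ih =>
      intro x
      obtain ⟨y, hy⟩ := ih x
      obtain ⟨z, hz⟩ := hsurj y
      exact ⟨z, by rw [pow_succ, mul_smul, hz, hy]⟩
  rw [ModuleCat.isZero_iff_subsingleton]
  refine ⟨fun x y => ?_⟩
  obtain ⟨x', hx'⟩ := hpow k x
  obtain ⟨y', hy'⟩ := hpow k y
  rw [← hx', ← hy', hk, hk]

end Divisible

section PGroup

variable {R G : Type u} [CommRing R] [Group G] [Fintype G] {p : ℕ} [Fact p.Prime]

/-- If `0 → A --p--> A → B → 0` is exact over a finite `p`-group and `Ĥⁿ(B) = 0`, then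
`Ĥⁿ(A) = 0`. -/
theorem isZero_tate_of_mul_p (hG : IsPGroup p G) {A B : Rep R G} (f : A ⟶ A) (g : A ⟶ B)
    (w : f ≫ g = 0) (hS : (ShortComplex.mk f g w).ShortExact) (hf : f = p • 𝟙 A) (n : ℤ)
    (hB : IsZero (tateCohomology B n)) : IsZero (tateCohomology A n) := by
  obtain ⟨k, hk⟩ := IsPGroup.iff_card.mp hG
  have hex := (TateCohomology.map_tateComplexFunctor_shortExact hS).homology_exact₂ n
  have hepi : Epi ((tateCohomologyFunctor n).map f) := hex.epi_f (hB.eq_of_tgt _ _)
  rw [hf, Functor.map_nsmul, CategoryTheory.Functor.map_id] at hepi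
  refine isZero_of_epi_nsmul_of_pow_nsmul _ p k hepi (fun x => ?_)
  rw [← hk, Nat.card_eq_fintype_card]
  exact card_nsmul_tateCohomology A n x

/-! ### Serre's Theorem 5 for the group itself -/

theorem isZero_tate_of_isZero_neg_two (hR : AddHomsLinear R) (hG : IsPGroup p G) (M : Rep R G)
    (hp : ∀ m : M.V, p • m = 0) (hM : IsZero (tateCohomology M (-2))) (n : ℤ) :
    IsZero (tateCohomology M n) := by
  obtain ⟨ψ, hψ⟩ := exists_section hR M hp
  haveI := isIso_coindLift hG M hp ψ hψ hM
  exact IsZero.of_iso (isZero_tateCohomology_coind₁ R G _ n)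
    ((tateCohomologyFunctor n).mapIso (asIso (coindLift M ψ)).symm)

theorem isZero_tate_of_isZero_add (hR : AddHomsLinear R) (hG : IsPGroup p G) (k : ℕ) :
    ∀ (M : Rep R G), (∀ m : M.V, p • m = 0) → IsZero (tateCohomology M (-2 + k)) →
      ∀ n : ℤ, IsZero (tateCohomology M n) := by
  induction k with
  | zero =>
    intro M hp hM
    rw [Nat.cast_zero, add_zero] at hM
    exact isZero_tate_of_isZero_neg_two hR hG M hp hM
  | succ k ih =>
    intro M hp hM n
    have h1 : IsZero (tateCohomology (up M) (-2 + k)) := by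
      rw [isZero_tate_up_iff]
      have e : (-2 : ℤ) + (k + 1 : ℕ) = -2 + k + 1 := by push_cast; ring
      rwa [e] at hM
    have h2 := ih (up M) (up_nsmul_eq_zero M p hp) h1 (n - 1)
    rwa [isZero_tate_up_iff, sub_add_cancel] at h2

theorem isZero_tate_of_isZero_sub (hR : AddHomsLinear R) (hG : IsPGroup p G) (k : ℕ) :
    ∀ (M : Rep R G), (∀ m : M.V, p • m = 0) → IsZero (tateCohomology M (-2 - k)) →
      ∀ n : ℤ, IsZero (tateCohomology M n) := by
  induction k with
  | zero =>
    intro M hp hM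
    rw [Nat.cast_zero, sub_zero] at hM
    exact isZero_tate_of_isZero_neg_two hR hG M hp hM
  | succ k ih =>
    intro M hp hM n
    have h1 : IsZero (tateCohomology (down M) (-2 - k)) := by
      have e : (-2 : ℤ) - k = -2 - (k + 1 : ℕ) + 1 := by push_cast; ring
      rw [e, ← isZero_tate_down_iff]
      exact hM
    have h2 := ih (down M) (down_nsmul_eq_zero M p hp) h1 (n + 1)
    rwa [← isZero_tate_down_iff] at h2

/-- **Serre's Theorem 5**, for the group itself. -/
theorem isZero_tate_of_isZero_of_torsion (hR : AddHomsLinear R) (hG : IsPGroup p G)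
    (M : Rep R G) (hp : ∀ m : M.V, p • m = 0) (q : ℤ) (hM : IsZero (tateCohomology M q))
    (n : ℤ) : IsZero (tateCohomology M n) := by
  rcases le_total (-2) q with h | h
  · obtain ⟨k, hk⟩ := Int.eq_ofNat_of_zero_le (sub_nonneg.mpr h)
    have e : q = -2 + k := by omega
    rw [e] at hM
    exact isZero_tate_of_isZero_add hR hG k M hp hM n
  · obtain ⟨k, hk⟩ := Int.eq_ofNat_of_zero_le (sub_nonneg.mpr h)
    have e : q = -2 - k := by omega
    rw [e] at hM
    exact isZero_tate_of_isZero_sub hR hG k M hp hM n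

/-! ### The torsion-free case -/

theorem nsmul_id_hom_apply (A : Rep R G) (n : ℕ) (a : A) : (n • 𝟙 A : A ⟶ A).hom a = n • a :=
  rfl

/-- **Serre's Theorem 6.** `G` a finite `p`-group, `A` without `p`-torsion, two consecutive
vanishing Tate groups: then `A` is cohomologically trivial. -/
theorem isCohTrivial_of_twin_torsionFree (hR : AddHomsLinear R) (hG : IsPGroup p G)
    (A : Rep R G) (htf : ∀ a : A.V, p • a = 0 → a = 0) (q : ℤ)
    (h0 : IsZero (tateCohomology A q)) (h1 : IsZero (tateCohomology A (q + 1))) :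
    IsCohTrivial A ∧ ∀ n : ℤ, IsZero (tateCohomology A n) := by
  have hinj : Function.Injective (p • 𝟙 A : A ⟶ A).hom := by
    intro a b hab
    rw [nsmul_id_hom_apply, nsmul_id_hom_apply] at hab
    have : p • (a - b) = 0 := by rw [smul_sub, hab, sub_self]
    exact sub_eq_zero.mp (htf _ this)
  have hS := cokerSeq_shortExact (p • 𝟙 A : A ⟶ A) hinj
  have hBp : ∀ b : (cokerRep (p • 𝟙 A : A ⟶ A)).V, p • b = 0 := by
    intro b
    obtain ⟨a, rfl⟩ := Submodule.Quotient.mk_surjective _ b
    rw [← Submodule.Quotient.mk_smul]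
    exact (Submodule.Quotient.mk_eq_zero _).mpr ⟨a, rfl⟩
  have hBq : IsZero (tateCohomology (cokerRep (p • 𝟙 A : A ⟶ A)) q) :=
    isZero_tate_X₃ hS q h0 h1
  have hB : IsCohTrivial (cokerRep (p • 𝟙 A : A ⟶ A)) :=
    isCohTrivial_of_isZero_of_torsion hR hG _ hBp q hBq
  have hBG : ∀ n : ℤ, IsZero (tateCohomology (cokerRep (p • 𝟙 A : A ⟶ A)) n) :=
    isZero_tate_of_isZero_of_torsion hR hG _ hBp q hBq
  refine ⟨fun H _ n => ?_, fun n => ?_⟩
  · have hSH := (Rep.shortExact_res H.subtype).2 hS
    refine isZero_tate_of_mul_p (hG.to_subgroup H) _ _ _ hSH ?_ n (hB H n)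
    show (Rep.resFunctor H.subtype).map (p • 𝟙 A) = p • 𝟙 _
    rw [Functor.map_nsmul, CategoryTheory.Functor.map_id]
  · exact isZero_tate_of_mul_p hG _ _ _ hS rfl n (hBG n)

/-! ### The general case: free cover -/

/-- The canonical surjection `coind₁ R G (A →₀ R) ⟶ A`. -/
noncomputable def freeCover (A : Rep R G) : coind₁ R G (A.V →₀ R) ⟶ A :=
  coindLift A (Finsupp.linearCombination R (id : A.V → A.V))

open Classical in
theorem freeCover_surjective (A : Rep R G) : Function.Surjective (freeCover A).hom := by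
  intro a
  refine ⟨Pi.single 1 (Finsupp.single a 1), ?_⟩
  rw [freeCover, coindLift_single]
  simp

/-- **The twin criterion for `p`-groups (Serre's Theorems 6–8).** `G` a finite `p`-group, `A` an
arbitrary `G`-module, two consecutive vanishing Tate groups: then `A` is cohomologically
trivial. -/
theorem isCohTrivial_of_twin_pGroup (hR : AddHomsLinear R)
    (hpR : ∀ r : R, (p : R) * r = 0 → r = 0) (hG : IsPGroup p G)
    (A : Rep R G) (q : ℤ)
    (h0 : IsZero (tateCohomology A q)) (h1 : IsZero (tateCohomology A (q + 1))) :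
    IsCohTrivial A ∧ ∀ n : ℤ, IsZero (tateCohomology A n) := by
  have hS := kerSeq_shortExact (freeCover A) (freeCover_surjective A)
  have htf : ∀ k : (kerRep (freeCover A)).V, p • k = 0 → k = 0 := by
    intro k hk
    apply Subtype.ext
    funext x
    ext a
    have h2 : p • ((k : G → (A.V →₀ R)) x a) = 0 := by
      have := congrArg (fun k' : (kerRep (freeCover A)).V => (k' : G → (A.V →₀ R)) x a) hk
      simpa using this
    rw [nsmul_eq_mul] at h2
    exact hpR _ h2
  have hK0 : IsZero (tateCohomology (kerRep (freeCover A)) (q + 1)) :=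
    isZero_tate_X₁ hS q h0 (isZero_tateCohomology_coind₁ R G _ (q + 1))
  have hK1 : IsZero (tateCohomology (kerRep (freeCover A)) (q + 1 + 1)) :=
    isZero_tate_X₁ hS (q + 1) h1 (isZero_tateCohomology_coind₁ R G _ (q + 1 + 1))
  obtain ⟨hKct, hKG⟩ := isCohTrivial_of_twin_torsionFree hR hG _ htf (q + 1) hK0 hK1
  refine ⟨IsCohTrivial.X₃ hS hKct (isCohTrivial_coind₁ _), fun n => ?_⟩
  exact isZero_tate_X₃ hS n (isZero_tateCohomology_coind₁ R G _ n) (hKG (n + 1))

end PGroup

end Fermat.Agent.CFT.A5
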