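import Mathlib
import Fermat.Agent.CFT.A2.Transport
import Fermat.Agent.CFT.A5.Twin

/-!
# PROJECT C, slice A5a (part 7): the Nakayama–Tate twin criterion for arbitrary finite groups

`G` a finite group, `A` a `G`-module.  If for every prime `p` some Sylow `p`-subgroup `P` has two
consecutive vanishing Tate cohomology groups `Ĥ^q(P, A) = Ĥ^{q+1}(P, A) = 0`, then `A` is
cohomologically trivial (Serre, *Local Fields*, IX §5, Théorème 8).  In particular
(`isCohTrivial_of_H1_H2`): if `H¹(H, A) = H²(H, A) = 0` for every subgroup `H`, then `A` is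
cohomologically trivial.  This is the input of Tate's theorem.

The coefficient ring `R` is generic with the two properties of `ℤ` that are used:
`AddHomsLinear R` (additive maps are linear) and "every prime is a non-zero-divisor".
-/

set_option autoImplicit false

open CategoryTheory Limits

universe u

namespace Fermat.Agent.CFT.A5

open Fermat.Agent.CFT.A2

variable {R G : Type u} [CommRing R] [Group G] [Fintype G]

/-- **Twin criterion (Serre IX §5, Théorème 8).** -/
theorem isCohTrivial_of_twin_sylow (hR : AddHomsLinear R)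
    (hpR : ∀ p : ℕ, p.Prime → ∀ r : R, (p : R) * r = 0 → r = 0) (A : Rep R G)
    (h : ∀ (p : ℕ) [Fact p.Prime], ∃ (P : Sylow p G) (_ : Fintype (P : Subgroup G)) (q : ℤ),
      IsZero (tateCohomology (Rep.res (P : Subgroup G).subtype A) q) ∧
        IsZero (tateCohomology (Rep.res (P : Subgroup G).subtype A) (q + 1))) :
    IsCohTrivial A := by
  apply isCohTrivial_of_sylow
  intro p hp
  obtain ⟨P, hfin, q, h0, h1⟩ := h p
  exact ⟨P, (isCohTrivial_of_twin_pGroup hR (hpR p hp.out) P.isPGroup' _ q h0 h1).1⟩

/-- **Twin criterion, the form used by Tate's theorem**: `H¹` and `H²` vanish for all subgroups. -/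
theorem isCohTrivial_of_H1_H2 (hR : AddHomsLinear R)
    (hpR : ∀ p : ℕ, p.Prime → ∀ r : R, (p : R) * r = 0 → r = 0) (A : Rep R G)
    (h : ∀ H : Subgroup G, IsZero (groupCohomology (Rep.res H.subtype A) 1) ∧
      IsZero (groupCohomology (Rep.res H.subtype A) 2)) :
    IsCohTrivial A := by
  classical
  apply isCohTrivial_of_twin_sylow hR hpR
  intro p hp
  obtain ⟨P⟩ : Nonempty (Sylow p G) := inferInstance
  letI hfin : Fintype (P : Subgroup G) := Fintype.ofFinite _
  obtain ⟨h1, h2⟩ := h P
  refine ⟨P, hfin, 1, ?_, ?_⟩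
  · exact IsZero.of_iso h1
      ((TateCohomology.isoGroupCohomology 1).app (Rep.res (P : Subgroup G).subtype A))
  · exact IsZero.of_iso h2
      ((TateCohomology.isoGroupCohomology 2).app (Rep.res (P : Subgroup G).subtype A))

/-- The twin criterion for `R = ℤ`. -/
theorem isCohTrivial_of_H1_H2_int {G : Type} [Group G] [Fintype G] (A : Rep ℤ G)
    (h : ∀ H : Subgroup G, IsZero (groupCohomology (Rep.res H.subtype A) 1) ∧
      IsZero (groupCohomology (Rep.res H.subtype A) 2)) :
    IsCohTrivial A :=
  isCohTrivial_of_H1_H2 addHomsLinear_int (fun p hp r hr => by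
    rcases mul_eq_zero.mp hr with h0 | h0
    · exact absurd (by exact_mod_cast h0) hp.ne_zero
    · exact h0) A h

end Fermat.Agent.CFT.A5
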