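import Mathlib
import Fermat.Agent.CFT.A5.TwinSylow
import Fermat.Agent.CFT.A5.Tate

/-!
# PROJECT C, slice A5: Tate's theorem over `ℤ`, unconditionally

Combines helper16's `A5.Tate.tate_theorem` (Tate's theorem given the twin criterion for the
splitting module) with the Nakayama–Tate twin criterion `isCohTrivial_of_H1_H2_int`.

For a finite group `G`, `C : Rep ℤ G` and a `2`-cocycle `φ` such that `IsClassModule C φ`
(`H¹(H, C) = 0` and `H²(H, C)` cyclic of order `|H|` generated by `res [φ]`, for all `H ≤ G`):

* `isCohTrivial_split_int` : the splitting module `C(φ)` is cohomologically trivial;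
* `tate_theorem_int` : `Ĥⁿ(H, ℤ) ≅ Ĥⁿ⁺²(H, C)` for every subgroup `H` and every `n : ℤ`.
-/

set_option autoImplicit false

open CategoryTheory groupCohomology

namespace Fermat.Agent.CFT.A5.TateInt

open Fermat.Agent.CFT.A2 Fermat.Agent.CFT.A5 Fermat.Agent.CFT.A5.Tate
  Fermat.Agent.CFT.A5.TateIso Fermat.Agent.CFT.A5.Split

variable {G : Type} [Group G] [Fintype G] {C : Rep ℤ G} {φ : cocycles₂ C}

/-- The splitting module of a class module is cohomologically trivial. -/
theorem isCohTrivial_split_int (hC : IsClassModule C φ) : IsCohTrivial (split C φ) :=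
  isCohTrivial_split hC (fun H => isZero_H1_trivial_int_subgroup H)
    (isCohTrivial_of_H1_H2_int (split C φ))

/-- **Tate's theorem.** -/
theorem tate_theorem_int (hC : IsClassModule C φ) (H : Subgroup G) [Fintype H] (n : ℤ) :
    IsIso (tateMapZ C φ H.subtype n) :=
  tate_theorem hC (fun H => isZero_H1_trivial_int_subgroup H)
    (isCohTrivial_of_H1_H2_int (split C φ)) H n

end Fermat.Agent.CFT.A5.TateInt
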