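import Mathlib
import Fermat.Agent.CFT.A2.Transport
import Fermat.Agent.CFT.A5.TateInt
import Fermat.Agent.CFT.A5.Reciprocity

/-!
# PROJECT C, slice A5: the reciprocity isomorphism of a class module, unconditionally

* `isZero_tateCohomology_of_isCohTrivial` : a cohomologically trivial module has vanishing Tate
  cohomology for the whole group (the case `H = G` of `IsCohTrivial`, via transport along
  `id : G →* G`);
* `nakHom_bijective_of_isClassModule`, `nakEquivOfIsClassModule` : for a class module `(C, φ)`
  over a finite group `G` (`A5.Tate.IsClassModule`), the Nakayama map induces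
  `G^ab ≃* C^G / N_G C`.
-/

set_option autoImplicit false

open CategoryTheory Limits groupCohomology

universe u

namespace Fermat.Agent.CFT.A5.RecipInt

open Fermat.Agent.CFT.A2 Fermat.Agent.CFT.A5 Fermat.Agent.CFT.A5.Tate
  Fermat.Agent.CFT.A5.Split Fermat.Agent.CFT.A5.Reciprocity Fermat.Agent.CFT.A5.TateInt

/-- A cohomologically trivial module has vanishing Tate cohomology for the whole group. -/
theorem isZero_tateCohomology_of_isCohTrivial {R G : Type u} [CommRing R] [Group G] [Fintype G]
    {M : Rep R G} (h : IsCohTrivial M) (n : ℤ) : IsZero (tateCohomology M n) :=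
  h.isCohTrivialInj G (MonoidHom.id G) Function.injective_id n

variable {G : Type} [Group G] [Fintype G] {C : Rep ℤ G} {φ : cocycles₂ C}

/-- **Reciprocity isomorphism** of a class module: the Nakayama map is bijective. -/
theorem nakHom_bijective_of_isClassModule (hC : IsClassModule C φ) :
    Function.Bijective (nakHom C φ) :=
  nakHom_bijective C φ
    (isZero_tateCohomology_of_isCohTrivial (isCohTrivial_split_int hC) 0)
    (isZero_tateCohomology_of_isCohTrivial (isCohTrivial_split_int hC) (-1))

/-- **Reciprocity isomorphism** `G^ab ≃* C^G / N_G C` of a class module. -/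
noncomputable def nakEquivOfIsClassModule (hC : IsClassModule C φ) :
    Abelianization G ≃* Multiplicative (H0hat C) :=
  nakEquiv C φ
    (isZero_tateCohomology_of_isCohTrivial (isCohTrivial_split_int hC) 0)
    (isZero_tateCohomology_of_isCohTrivial (isCohTrivial_split_int hC) (-1))

@[simp]
theorem nakEquivOfIsClassModule_of (hC : IsClassModule C φ) (σ : G) :
    nakEquivOfIsClassModule hC (Abelianization.of σ) =
      Multiplicative.ofAdd (nakClass C φ σ) :=
  nakEquiv_of C φ _ _ σ

end Fermat.Agent.CFT.A5.RecipInt
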