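import Mathlib
import Fermat.Agent.CFT.A5.Reciprocity

/-!
# PROJECT C, slice A5: the reciprocity isomorphism over a general coefficient ring

`G` a finite group, `k` any commutative ring (e.g. `ℤ` or `ℤ_(p)`), `C : Rep k G`, `φ` a
`2`-cocycle.  The Nakayama map induces a `k`-linear map
`nakLin : k ⊗[ℤ] G^ab → C^G / N_G C`, `r ⊗ σ ↦ r • [Σ_τ φ (τ, σ)]`, which is an **isomorphism** if
the splitting module `C(φ)` has `Ĥ⁰ = Ĥ⁻¹ = 0` (`nakLinEquiv`).  For `k = ℤ` this is
`Reciprocity.nakEquiv`; for `k = ℤ_(p)` it is the `p`-part of the reciprocity isomorphism.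
-/

set_option autoImplicit false

universe u

noncomputable section

open CategoryTheory CategoryTheory.Limits groupCohomology TensorProduct

namespace Fermat.Agent.CFT.A5.ReciprocityK

open Fermat.Agent.CFT.A5.Aug Fermat.Agent.CFT.A5.Split Fermat.Agent.CFT.A5.Reciprocity

section Gab

variable (k G : Type u) [CommRing k] [Group G]

/-- `k ⊗ G^ab`. -/
abbrev Gabk : Type u := k ⊗[ℤ] Additive (Abelianization G)

/-- The class of `σ` in `k ⊗ G^ab`. -/
def gab (σ : G) : Gabk k G := (1 : k) ⊗ₜ[ℤ] Additive.ofMul (Abelianization.of σ)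

theorem gab_mul (σ τ : G) : gab k G (σ * τ) = gab k G σ + gab k G τ := by
  unfold gab
  rw [map_mul, ofMul_mul, tmul_add]

theorem gab_one : gab k G 1 = 0 := by
  unfold gab
  rw [map_one, ofMul_one, tmul_zero]

theorem smul_gab (r : k) (σ : G) :
    r • gab k G σ = r ⊗ₜ[ℤ] Additive.ofMul (Abelianization.of σ) := by
  unfold gab
  rw [smul_tmul', smul_eq_mul, mul_one]

/-- The `k`-linear map `k[G] → k ⊗ G^ab`, `Σ r_σ σ ↦ Σ r_σ ⊗ σ`. -/
def thetaK : (Rep.leftRegular k G).V →ₗ[k] Gabk k G :=
  Finsupp.lift (Gabk k G) k G (fun σ => gab k G σ) ∘ₗ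
    (MonoidAlgebra.coeffLinearEquiv _).toLinearMap

theorem thetaK_single (σ : G) (r : k) :
    thetaK k G (MonoidAlgebra.single σ r) = r • gab k G σ := by
  simp [thetaK]

theorem thetaK_ρ (g : G) (x : (Rep.leftRegular k G).V) :
    thetaK k G ((Rep.leftRegular k G).ρ g x) = (eps k G).hom x • gab k G g + thetaK k G x := by
  induction x using MonoidAlgebra.induction_linear with
  | zero => simp
  | add a b ha hb =>
    rw [map_add, map_add, map_add, map_add, ha, hb, add_smul]
    abel
  | single σ r =>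
    simp only [Rep.leftRegular, Rep.ofMulAction]
    erw [Representation.ofMulAction_single]
    rw [thetaK_single, eps_single, thetaK_single, smul_eq_mul, gab_mul, smul_add]

/-- `thetaK` is invariant under `G` on the augmentation ideal. -/
theorem thetaK_ρ_aug (g : G) (a : aug k G) :
    thetaK k G ((augι k G).hom ((aug k G).ρ g a)) = thetaK k G ((augι k G).hom a) := by
  rw [aug_ρ_apply, thetaK_ρ, eps_augι, zero_smul, zero_add]

theorem thetaK_augCochain (σ : G) :
    thetaK k G ((augι k G).hom (augCochain k G σ)) = gab k G σ := by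
  rw [augι_augCochain, map_sub, thetaK_single, thetaK_single, one_smul, one_smul, gab_one,
    sub_zero]

/-- Every element of `k ⊗ G^ab` comes from the augmentation ideal. -/
theorem exists_thetaK_eq (t : Gabk k G) :
    ∃ a : aug k G, thetaK k G ((augι k G).hom a) = t := by
  induction t using TensorProduct.induction_on with
  | zero => exact ⟨0, by rw [map_zero, map_zero]⟩
  | tmul r g =>
    obtain ⟨σ, rfl⟩ := QuotientGroup.mk_surjective (Additive.toMul g)
    refine ⟨r • augCochain k G σ, ?_⟩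
    rw [map_smul, map_smul, thetaK_augCochain, smul_gab]
    rfl
  | add x y hx hy =>
    obtain ⟨a, rfl⟩ := hx
    obtain ⟨b, rfl⟩ := hy
    exact ⟨a + b, by rw [map_add, map_add]⟩

end Gab

variable {k G : Type u} [CommRing k] [Group G] [Fintype G] (C : Rep.{u} k G) (φ : cocycles₂ C)

/-- The Nakayama map as an additive map `G^ab → C^G / N_G C`. -/
def nakAdd : Additive (Abelianization G) →+ H0hat C :=
  MonoidHom.toAdditiveLeft (nakHom C φ)

theorem nakAdd_of (σ : G) :
    nakAdd C φ (Additive.ofMul (Abelianization.of σ)) = nakClass C φ σ := by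
  show Multiplicative.toAdd (nakHom C φ (Abelianization.of σ)) = _
  rw [nakHom_of']
  rfl

/-- **The `k`-linear Nakayama map** `k ⊗ G^ab → C^G / N_G C`. -/
def nakLin : Gabk k G →ₗ[k] H0hat C :=
  AlgebraTensorModule.lift
    (LinearMap.mk₂' k ℤ (fun (r : k) (g : Additive (Abelianization G)) => r • nakAdd C φ g)
      (fun r r' g => add_smul r r' _) (fun c r g => by rw [smul_eq_mul, mul_smul])
      (fun r g g' => by rw [map_add, smul_add])
      (fun n r g => by rw [map_zsmul, smul_comm]))

theorem nakLin_tmul (r : k) (g : Additive (Abelianization G)) :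
    nakLin C φ (r ⊗ₜ[ℤ] g) = r • nakAdd C φ g := rfl

theorem nakLin_gab (σ : G) : nakLin C φ (gab k G σ) = nakClass C φ σ := by
  unfold gab
  rw [nakLin_tmul, one_smul, nakAdd_of]

/-- `nakLin ∘ thetaK` is the class of `sumPsi`. -/
theorem nakLin_thetaK (x : (Rep.leftRegular k G).V) :
    nakLin C φ (thetaK k G x) = (normSub C).mkQ (sumPsiInv C φ x) := by
  induction x using MonoidAlgebra.induction_linear with
  | zero => simp
  | add a b ha hb => rw [map_add, map_add, ha, hb, map_add, map_add]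
  | single σ r =>
    rw [thetaK_single, map_smul, nakLin_gab]
    unfold nakClass
    rw [← map_smul]
    congr 1
    apply Subtype.ext
    show r • nak C φ σ = sumPsi C φ (MonoidAlgebra.single σ r)
    rw [sumPsi_single]

/-- **Surjectivity of the `k`-linear Nakayama map**, if `Ĥ⁰(G, C(φ)) = 0`. -/
theorem nakLin_surjective
    (h0 : ∀ m : split C φ, (∀ g : G, (split C φ).ρ g m = m) →
      ∃ m' : split C φ, (split C φ).ρ.norm m' = m) :
    Function.Surjective (nakLin C φ) := by
  intro y
  obtain ⟨c, rfl⟩ := Submodule.mkQ_surjective (normSub C) y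
  obtain ⟨m', hm'⟩ := h0 ((c.1, 0) : C × aug k G) (fun g => by
    show ((C.ρ g c.1 + Psi C φ g ((augι k G).hom 0), (aug k G).ρ g 0) : C × aug k G) = (c.1, 0)
    rw [map_zero, map_zero, map_zero, add_zero, c.2 g])
  have h1 := norm_split C φ m'
  rw [hm'] at h1
  have h2 : c.1 = C.ρ.norm (m' : C × aug k G).1
      + sumPsi C φ ((augι k G).hom (m' : C × aug k G).2) := congrArg Prod.fst h1
  refine ⟨thetaK k G ((augι k G).hom (m' : C × aug k G).2), ?_⟩
  rw [nakLin_thetaK, Submodule.mkQ_apply, Submodule.mkQ_apply, Submodule.Quotient.eq, mem_normSub]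
  refine ⟨-(m' : C × aug k G).1, ?_⟩
  show C.ρ.norm (-(m' : C × aug k G).1)
    = sumPsi C φ ((augι k G).hom (m' : C × aug k G).2) - c.1
  rw [h2, map_neg]
  abel

/-- **Injectivity of the `k`-linear Nakayama map**, if `Ĥ⁻¹(G, C(φ)) = 0`. -/
theorem nakLin_injective
    (hm1 : ∀ m : split C φ, (split C φ).ρ.norm m = 0 →
      m ∈ Representation.Coinvariants.ker (split C φ).ρ) :
    Function.Injective (nakLin C φ) := by
  rw [injective_iff_map_eq_zero]
  intro t ht
  obtain ⟨a, rfl⟩ := exists_thetaK_eq k G t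
  rw [nakLin_thetaK, Submodule.mkQ_apply, Submodule.Quotient.mk_eq_zero, mem_normSub] at ht
  obtain ⟨c, hc⟩ := ht
  have hc' : C.ρ.norm c = sumPsi C φ ((augι k G).hom a) := hc
  have hx : (split C φ).ρ.norm ((-c, a) : C × aug k G) = 0 := by
    rw [norm_split]
    refine Prod.ext ?_ rfl
    show C.ρ.norm (-c) + sumPsi C φ ((augι k G).hom a) = 0
    rw [map_neg, hc']
    abel
  have h := snd_eq_zero_of_mem_ker C φ (thetaK k G).toAddMonoidHom
    (fun g b => thetaK_ρ_aug k G g b) ((-c, a) : C × aug k G) (hm1 _ hx)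
  exact h

/-- **The reciprocity isomorphism over a general coefficient ring**: if the splitting module
`C(φ)` has `Ĥ⁰ = Ĥ⁻¹ = 0`, then `k ⊗ G^ab ≃ₗ[k] C^G / N_G C` via `r ⊗ σ ↦ r • [Σ_τ φ (τ, σ)]`. -/
def nakLinEquiv (h0 : IsZero (tateCohomology (split C φ) 0))
    (hm1 : IsZero (tateCohomology (split C φ) (-1))) : Gabk k G ≃ₗ[k] H0hat C :=
  LinearEquiv.ofBijective (nakLin C φ)
    ⟨nakLin_injective C φ
        ((Fermat.Agent.CFT.A2.isZero_tateCohomology_neg_one_iff (split C φ)).1 hm1),
      nakLin_surjective C φ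
        ((Fermat.Agent.CFT.A2.isZero_tateCohomology_zero_iff (split C φ)).1 h0)⟩

@[simp]
theorem nakLinEquiv_gab (h0 : IsZero (tateCohomology (split C φ) 0))
    (hm1 : IsZero (tateCohomology (split C φ) (-1))) (σ : G) :
    nakLinEquiv C φ h0 hm1 (gab k G σ) = nakClass C φ σ :=
  nakLin_gab C φ σ

theorem nakLinEquiv_tmul (h0 : IsZero (tateCohomology (split C φ) 0))
    (hm1 : IsZero (tateCohomology (split C φ) (-1))) (r : k) (σ : G) :
    nakLinEquiv C φ h0 hm1 (r ⊗ₜ[ℤ] Additive.ofMul (Abelianization.of σ))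
      = r • nakClass C φ σ := by
  rw [← smul_gab, map_smul, nakLinEquiv_gab]

end Fermat.Agent.CFT.A5.ReciprocityK
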