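import Mathlib
import Fermat.Agent.CFT.A5.TwinSylow
import Fermat.Agent.CFT.A5.Tate
import Fermat.Agent.CFT.A5.RecipInt
import Fermat.Agent.CFT.A5.ReciprocityK

/-!
# PROJECT C, slice A5: Tate's theorem and reciprocity for class modules over a general ring

`k` a commutative ring in which every additive map of `k`-modules is `k`-linear and every prime
number is a non-zero-divisor (e.g. `k = ℤ` or `k = ℤ_(p)`), `G` a finite group, `(C, φ)` a class
module over `k` (`A5.Tate.IsClassModule`).  Then, unconditionally: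

* `isCohTrivial_split_of_isClassModule` : the splitting module `C(φ)` is cohomologically trivial;
* `tate_theorem_of_isClassModule` : `Ĥⁿ(H, k) ≅ Ĥⁿ⁺²(H, C)` for all subgroups `H`, all `n : ℤ`;
* `nakLinEquivOfIsClassModule` : `k ⊗ G^ab ≃ₗ[k] C^G / N_G C` via the Nakayama map.
-/

set_option autoImplicit false

universe u

noncomputable section

open CategoryTheory CategoryTheory.Limits groupCohomology TensorProduct

namespace Fermat.Agent.CFT.A5.ClassK

open Fermat.Agent.CFT.A2 Fermat.Agent.CFT.A5 Fermat.Agent.CFT.A5.Tate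
  Fermat.Agent.CFT.A5.TateIso Fermat.Agent.CFT.A5.Split Fermat.Agent.CFT.A5.Reciprocity
  Fermat.Agent.CFT.A5.ReciprocityK Fermat.Agent.CFT.A5.RecipInt

variable {k G : Type u} [CommRing k] [Group G] [Fintype G] {C : Rep.{u} k G} {φ : cocycles₂ C}

/-- If every prime is a non-zero-divisor of `k`, so is every positive integer. -/
theorem natCast_mul_cancel (hpR : ∀ p : ℕ, p.Prime → ∀ r : k, (p : k) * r = 0 → r = 0)
    (n : ℕ) (hn : n ≠ 0) (r : k) (h : (n : k) * r = 0) : r = 0 := by
  induction n using Nat.recOnMul generalizing r with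
  | zero => exact absurd rfl hn
  | one => rwa [Nat.cast_one, one_mul] at h
  | prime p hp => exact hpR p hp r h
  | mul a b ha hb =>
    have ha0 : a ≠ 0 := fun h0 => hn (by rw [h0, zero_mul])
    have hb0 : b ≠ 0 := fun h0 => hn (by rw [h0, mul_zero])
    rw [Nat.cast_mul, mul_assoc] at h
    exact hb hb0 r (ha ha0 _ h)

/-- `H¹(H, k) = 0` for all subgroups. -/
theorem isZero_H1_trivial_subgroup
    (hpR : ∀ p : ℕ, p.Prime → ∀ r : k, (p : k) * r = 0 → r = 0) (H : Subgroup G) :
    IsZero (groupCohomology (Rep.res H.subtype (Rep.trivial k G k)) 1) := by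
  classical
  let _ : Fintype H := Fintype.ofFinite H
  exact isZero_H1_trivial H.subtype
    (natCast_mul_cancel hpR (Fintype.card H) Fintype.card_ne_zero)

/-- The splitting module of a class module is cohomologically trivial. -/
theorem isCohTrivial_split_of_isClassModule (hR : AddHomsLinear k)
    (hpR : ∀ p : ℕ, p.Prime → ∀ r : k, (p : k) * r = 0 → r = 0) (hC : IsClassModule C φ) :
    IsCohTrivial (split C φ) :=
  isCohTrivial_split hC (isZero_H1_trivial_subgroup hpR)
    (isCohTrivial_of_H1_H2 hR hpR (split C φ))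

/-- **Tate's theorem** for a class module over `k`. -/
theorem tate_theorem_of_isClassModule (hR : AddHomsLinear k)
    (hpR : ∀ p : ℕ, p.Prime → ∀ r : k, (p : k) * r = 0 → r = 0) (hC : IsClassModule C φ)
    (H : Subgroup G) [Fintype H] (n : ℤ) : IsIso (tateMapZ C φ H.subtype n) :=
  tate_theorem hC (isZero_H1_trivial_subgroup hpR)
    (isCohTrivial_of_H1_H2 hR hpR (split C φ)) H n

/-- **Reciprocity isomorphism** `k ⊗ G^ab ≃ₗ[k] C^G / N_G C` of a class module over `k`. -/
def nakLinEquivOfIsClassModule (hR : AddHomsLinear k)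
    (hpR : ∀ p : ℕ, p.Prime → ∀ r : k, (p : k) * r = 0 → r = 0) (hC : IsClassModule C φ) :
    Gabk k G ≃ₗ[k] H0hat C :=
  nakLinEquiv C φ
    (isZero_tateCohomology_of_isCohTrivial (isCohTrivial_split_of_isClassModule hR hpR hC) 0)
    (isZero_tateCohomology_of_isCohTrivial (isCohTrivial_split_of_isClassModule hR hpR hC) (-1))

@[simp]
theorem nakLinEquivOfIsClassModule_gab (hR : AddHomsLinear k)
    (hpR : ∀ p : ℕ, p.Prime → ∀ r : k, (p : k) * r = 0 → r = 0) (hC : IsClassModule C φ)
    (σ : G) : nakLinEquivOfIsClassModule hR hpR hC (gab k G σ) = nakClass C φ σ :=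
  nakLinEquiv_gab C φ _ _ σ

/-- `H²(G, Hom(P, C(φ)))`-type vanishing for the group itself: ordinary cohomology of a
cohomologically trivial module vanishes in positive degrees. -/
theorem isZero_groupCohomology_of_isCohTrivial_top {M : Rep.{u} k G} (hM : IsCohTrivial M)
    (n : ℕ) [NeZero n] : IsZero (groupCohomology M n) :=
  IsZero.of_iso (isZero_tateCohomology_of_isCohTrivial hM (n : ℤ))
    ((TateCohomology.isoGroupCohomology n).app M).symm

end Fermat.Agent.CFT.A5.ClassK
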