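/-
PROJECT C, Layer A5 / B3c / C6 glue (helper21): TRANSPORT OF CLASS MODULES along an isomorphism of
pairs (group, module).

Data, in the shape of Mathlib's `groupCohomology.mapIso`: a group isomorphism `e : G ≃* H`,
`A : Rep k H`, `B : Rep k G`, a linear equivalence `e' : B.V ≃ₗ[k] A.V` with
`e' ∘ B.ρ g = A.ρ (e g) ∘ e'`.  Then a `2`-cocycle `ψ` of `B` transports to the `2`-cocycle
`transCocycle e e' he ψ = (h₁, h₂) ↦ e' (ψ (e⁻¹ h₁, e⁻¹ h₂))` of `A`, and

  `IsClassModule B ψ → IsClassModule A (transCocycle e e' he ψ)`.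

This is how the field-level class modules `(Gal(E/K), Eˣ)` (layer B) resp. `(Gal(L/K), C_L)`
(layer C) become the layers `(G ⧸ U, C^U)` of a class formation in the level-constant model.
-/
import Mathlib
import Fermat.Agent.CFT.A5.Tate

set_option autoImplicit false

noncomputable section

namespace Fermat.Agent.CFT.A5.Transport

open groupCohomology CategoryTheory Rep Fermat.Agent.CFT.A5.Tate Fermat.Agent.CFT.A5.SplitRes

universe u

variable {k G H : Type u} [CommRing k] [Group G] [Group H]
  {A : Rep.{u} k H} {B : Rep.{u} k G} (e : G ≃* H) (e' : B.V ≃ₗ[k] A.V)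
  (he : ∀ g, e'.toLinearMap ∘ₗ B.ρ g = A.ρ (e g) ∘ₗ e'.toLinearMap)

/-- The morphism of representations underlying `(groupCohomology.mapIso e e' he n).hom`. -/
def transHom : Rep.res (e.symm : H →* G) B ⟶ A :=
  ofHom ⟨e', fun h => by simp [he]⟩

/-- The transported `2`-cocycle `(h₁, h₂) ↦ e' (ψ (e⁻¹ h₁, e⁻¹ h₂))`. -/
def transCocycle (ψ : cocycles₂ B) : cocycles₂ A :=
  (mapCocycles₂ (e.symm : H →* G) (transHom e e' he)).hom ψ

theorem transCocycle_apply (ψ : cocycles₂ B) (h₁ h₂ : H) :
    transCocycle e e' he ψ (h₁, h₂) = e' (ψ (e.symm h₁, e.symm h₂)) := rfl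

/-- The class of the transported cocycle is the image of the class under `mapIso`. -/
theorem mapIso_hom_H2π (ψ : cocycles₂ B) :
    (mapIso e e' he 2).hom (H2π B ψ) = H2π A (transCocycle e e' he ψ) := by
  have h := congr($(H2π_comp_map (e.symm : H →* G) (transHom e e' he)) ψ)
  rw [ModuleCat.comp_apply, ModuleCat.comp_apply] at h
  exact h

/-- The restriction of a group isomorphism to the preimage of a subgroup. -/
def comapEquiv (S : Subgroup H) : S.comap (e : G →* H) ≃* S where
  toFun g := ⟨e (g : G), g.2⟩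
  invFun s := ⟨e.symm s, by
    rw [Subgroup.mem_comap]
    change e (e.symm s) ∈ S
    rw [MulEquiv.apply_symm_apply]
    exact s.2⟩
  left_inv g := Subtype.ext (e.symm_apply_apply g)
  right_inv s := Subtype.ext (e.apply_symm_apply s)
  map_mul' g g' := Subtype.ext (map_mul e (g : G) (g' : G))

include he in
theorem comapEquiv_compat (S : Subgroup H) (g : S.comap (e : G →* H)) :
    e'.toLinearMap ∘ₗ (Rep.res (S.comap (e : G →* H)).subtype B).ρ g =
      (Rep.res S.subtype A).ρ (comapEquiv e S g) ∘ₗ e'.toLinearMap :=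
  he (g : G)

/-- Restriction commutes with transport, on cocycles. -/
theorem transCocycle_resPhi (S : Subgroup H) (ψ : cocycles₂ B) :
    transCocycle (A := Rep.res S.subtype A) (B := Rep.res (S.comap (e : G →* H)).subtype B)
        (comapEquiv e S) e' (comapEquiv_compat e e' he S)
        (resPhi B ψ (S.comap (e : G →* H)).subtype) =
      resPhi A (transCocycle e e' he ψ) S.subtype := by
  apply Subtype.ext
  funext p
  rfl

/-- **Transport of class modules** along an isomorphism of pairs. -/
theorem isClassModule_transport {ψ : cocycles₂ B} (hB : IsClassModule B ψ) :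
    IsClassModule A (transCocycle e e' he ψ) := by
  have key : ∀ S : Subgroup H,
      (mapIso (A := Rep.res S.subtype A) (B := Rep.res (S.comap (e : G →* H)).subtype B)
        (comapEquiv e S) e' (comapEquiv_compat e e' he S) 2).hom
        (H2π _ (resPhi B ψ (S.comap (e : G →* H)).subtype)) =
      H2π _ (resPhi A (transCocycle e e' he ψ) S.subtype) := by
    intro S
    rw [mapIso_hom_H2π, transCocycle_resPhi]
  refine ⟨fun S => ?_, fun S y => ?_, fun S r hr => ?_⟩
  · exact Limits.IsZero.of_iso (hB.h1 (S.comap (e : G →* H)))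
      (mapIso (A := Rep.res S.subtype A) (B := Rep.res (S.comap (e : G →* H)).subtype B)
        (comapEquiv e S) e' (comapEquiv_compat e e' he S) 1).symm
  · set I := mapIso (A := Rep.res S.subtype A) (B := Rep.res (S.comap (e : G →* H)).subtype B)
        (comapEquiv e S) e' (comapEquiv_compat e e' he S) 2 with hI
    obtain ⟨r, hr⟩ := hB.hgen (S.comap (e : G →* H)) (I.inv y)
    refine ⟨r, ?_⟩
    have h1 : y = I.hom (I.inv y) := by
      rw [← ModuleCat.comp_apply, Iso.inv_hom_id, ModuleCat.id_apply]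
    rw [h1, hr, map_smul, key S]
  · set I := mapIso (A := Rep.res S.subtype A) (B := Rep.res (S.comap (e : G →* H)).subtype B)
        (comapEquiv e S) e' (comapEquiv_compat e e' he S) 2 with hI
    have hcard : Nat.card (S.comap (e : G →* H)) = Nat.card S :=
      Nat.card_congr (comapEquiv e S).toEquiv
    rw [← hcard]
    apply hB.hord (S.comap (e : G →* H)) r
    have h2 : I.hom (r • H2π _ (resPhi B ψ (S.comap (e : G →* H)).subtype)) = 0 := by
      rw [map_smul, key S, hr]
    have h3 := congrArg I.inv h2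
    rwa [← ModuleCat.comp_apply, Iso.hom_inv_id, ModuleCat.id_apply, map_zero] at h3

/-! ### The axioms for the whole group -/

section Top

variable {C : Rep.{u} k H} {φ : cocycles₂ C}

theorem top_compat (g : (⊤ : Subgroup H)) :
    (LinearEquiv.refl k C.V).toLinearMap ∘ₗ (Rep.res (⊤ : Subgroup H).subtype C).ρ g =
      C.ρ ((Subgroup.topEquiv : (⊤ : Subgroup H) ≃* H) g) ∘ₗ
        (LinearEquiv.refl k C.V).toLinearMap := rfl

/-- The comparison `Hⁿ(⊤, C) ≅ Hⁿ(H, C)`. -/
def topIso (C : Rep.{u} k H) (n : ℕ) :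
    groupCohomology (Rep.res (⊤ : Subgroup H).subtype C) n ≅ groupCohomology C n :=
  mapIso (A := C) (B := Rep.res (⊤ : Subgroup H).subtype C)
    (Subgroup.topEquiv : (⊤ : Subgroup H) ≃* H) (LinearEquiv.refl k C.V) top_compat n

theorem topIso_hom_H2π_resPhi (φ : cocycles₂ C) :
    (topIso C 2).hom (H2π _ (resPhi C φ (⊤ : Subgroup H).subtype)) = H2π C φ := by
  unfold topIso
  rw [mapIso_hom_H2π]
  congr 1

/-- The class-module axioms for the whole group. -/
theorem isClassModule_top (hC : IsClassModule C φ) :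
    Limits.IsZero (groupCohomology C 1) ∧
      (∀ y : groupCohomology C 2, ∃ r : k, y = r • H2π C φ) ∧
      (∀ r : k, r • H2π C φ = 0 → ((Nat.card H : ℕ) : k) ∣ r) := by
  refine ⟨Limits.IsZero.of_iso (hC.h1 ⊤) (topIso C 1).symm, fun y => ?_, fun r hr => ?_⟩
  · obtain ⟨r, hr⟩ := hC.hgen ⊤ ((topIso C 2).inv y)
    refine ⟨r, ?_⟩
    have h1 : y = (topIso C 2).hom ((topIso C 2).inv y) := by
      rw [← ModuleCat.comp_apply, Iso.inv_hom_id, ModuleCat.id_apply]
    rw [h1, hr, map_smul, topIso_hom_H2π_resPhi]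
  · have hcard : Nat.card (⊤ : Subgroup H) = Nat.card H :=
      Nat.card_congr (Subgroup.topEquiv : (⊤ : Subgroup H) ≃* H).toEquiv
    rw [← hcard]
    apply hC.hord ⊤ r
    have h2 : (topIso C 2).hom (r • H2π _ (resPhi C φ (⊤ : Subgroup H).subtype)) = 0 := by
      rw [map_smul, topIso_hom_H2π_resPhi, hr]
    have h3 := congrArg (topIso C 2).inv h2
    rwa [← ModuleCat.comp_apply, Iso.hom_inv_id, ModuleCat.id_apply, map_zero] at h3

end Top

end Fermat.Agent.CFT.A5.Transport
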