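import Mathlib
import Fermat.Agent.CFT.A5.ClassModuleTransport
import Fermat.Agent.CFT.A5.ClassK

/-!
# PROJECT C, slice A5: class modules restrict to subgroups

If `(C, φ)` is a class module for the finite group `G` (`A5.Tate.IsClassModule`), then
`(Rep.res H.subtype C, φ|_H)` is a class module for every subgroup `H ≤ G`
(`isClassModule_res`).  Consequently the reciprocity isomorphism
`k ⊗ H^ab ≃ₗ[k] C^H / N_H C` (`nakLinEquivRes`) is available for every subgroup.
-/

set_option autoImplicit false

noncomputable section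

universe u

namespace Fermat.Agent.CFT.A5.ClassRes

open groupCohomology CategoryTheory Rep Fermat.Agent.CFT.A5 Fermat.Agent.CFT.A5.Tate
  Fermat.Agent.CFT.A5.SplitRes Fermat.Agent.CFT.A5.Transport Fermat.Agent.CFT.A5.Split
  Fermat.Agent.CFT.A5.Reciprocity Fermat.Agent.CFT.A5.ReciprocityK Fermat.Agent.CFT.A5.ClassK
  Fermat.Agent.CFT.A2

variable {k G : Type u} [CommRing k] [Group G]

section Iso

variable (H : Subgroup G) (S' : Subgroup H) (C : Rep.{u} k G)

/-- A subgroup of `H ≤ G` is isomorphic to its image in `G`. -/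
def mapEquiv : S' ≃* S'.map H.subtype :=
  S'.equivMapOfInjective H.subtype H.subtype_injective

@[simp]
theorem coe_mapEquiv (s : S') : ((mapEquiv H S' s : S'.map H.subtype) : G) = ((s : H) : G) := rfl

theorem coe_mapEquiv_symm (s : S'.map H.subtype) :
    ((((mapEquiv H S').symm s : S') : H) : G) = (s : G) := by
  conv_rhs => rw [← (mapEquiv H S').apply_symm_apply s]
  rfl

theorem res_compat (g : S') :
    (LinearEquiv.refl k C.V).toLinearMap ∘ₗ (Rep.res S'.subtype (Rep.res H.subtype C)).ρ g =
      (Rep.res (S'.map H.subtype).subtype C).ρ (mapEquiv H S' g) ∘ₗ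
        (LinearEquiv.refl k C.V).toLinearMap := rfl

/-- `Hⁿ(S', res_H C) ≅ Hⁿ(S, C)` for `S' ≤ H` with image `S ≤ G`. -/
def resIso (n : ℕ) :
    groupCohomology (Rep.res S'.subtype (Rep.res H.subtype C)) n ≅
      groupCohomology (Rep.res (S'.map H.subtype).subtype C) n :=
  mapIso (A := Rep.res (S'.map H.subtype).subtype C)
    (B := Rep.res S'.subtype (Rep.res H.subtype C))
    (mapEquiv H S') (LinearEquiv.refl k C.V) (res_compat H S' C) n

theorem resIso_hom_H2π (φ : cocycles₂ C) :
    (resIso H S' C 2).hom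
        (H2π _ (resPhi (Rep.res H.subtype C) (resPhi C φ H.subtype) S'.subtype)) =
      H2π _ (resPhi C φ (S'.map H.subtype).subtype) := by
  unfold resIso
  rw [mapIso_hom_H2π]
  congr 1
  apply Subtype.ext
  funext p
  change φ (((((mapEquiv H S').symm p.1 : S') : H) : G), ((((mapEquiv H S').symm p.2 : S') : H) : G))
    = φ ((p.1 : G), (p.2 : G))
  rw [coe_mapEquiv_symm, coe_mapEquiv_symm]

end Iso

variable {C : Rep.{u} k G} {φ : cocycles₂ C}

/-- **Class modules restrict to subgroups.** -/
theorem isClassModule_res (hC : IsClassModule C φ) (H : Subgroup G) [Fintype H] :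
    IsClassModule (Rep.res H.subtype C) (resPhi C φ H.subtype) := by
  refine ⟨fun S' => ?_, fun S' y => ?_, fun S' r hr => ?_⟩
  · exact Limits.IsZero.of_iso (hC.h1 (S'.map H.subtype)) (resIso H S' C 1)
  · obtain ⟨r, hr⟩ := hC.hgen (S'.map H.subtype) ((resIso H S' C 2).hom y)
    refine ⟨r, ?_⟩
    have h1 : y = (resIso H S' C 2).inv ((resIso H S' C 2).hom y) := by
      rw [← ModuleCat.comp_apply, Iso.hom_inv_id, ModuleCat.id_apply]
    rw [h1, hr, map_smul, ← resIso_hom_H2π H S' C φ, ← ModuleCat.comp_apply, Iso.hom_inv_id,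
      ModuleCat.id_apply]
  · have hcard : Nat.card S' = Nat.card (S'.map H.subtype) :=
      Nat.card_congr (mapEquiv H S').toEquiv
    rw [hcard]
    apply hC.hord (S'.map H.subtype) r
    rw [← resIso_hom_H2π H S' C φ, ← map_smul, hr, map_zero]

/-- The reciprocity isomorphism `k ⊗ H^ab ≃ₗ[k] C^H / N_H C` for a subgroup `H` of the group of a
class module. -/
def nakLinEquivRes (hR : AddHomsLinear k)
    (hpR : ∀ p : ℕ, p.Prime → ∀ r : k, (p : k) * r = 0 → r = 0) (hC : IsClassModule C φ)
    (H : Subgroup G) [Fintype H] :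
    Gabk k H ≃ₗ[k] H0hat (Rep.res H.subtype C) :=
  nakLinEquivOfIsClassModule hR hpR (isClassModule_res hC H)

@[simp]
theorem nakLinEquivRes_gab (hR : AddHomsLinear k)
    (hpR : ∀ p : ℕ, p.Prime → ∀ r : k, (p : k) * r = 0 → r = 0) (hC : IsClassModule C φ)
    (H : Subgroup G) [Fintype H] (h : H) :
    nakLinEquivRes hR hpR hC H (gab k H h)
      = nakClass (Rep.res H.subtype C) (resPhi C φ H.subtype) h :=
  nakLinEquivOfIsClassModule_gab hR hpR (isClassModule_res hC H) h

theorem nakLin_res_bijective (hR : AddHomsLinear k)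
    (hpR : ∀ p : ℕ, p.Prime → ∀ r : k, (p : k) * r = 0 → r = 0) (hC : IsClassModule C φ)
    (H : Subgroup G) [Fintype H] :
    Function.Bijective (nakLin (Rep.res H.subtype C) (resPhi C φ H.subtype)) :=
  (nakLinEquivRes hR hpR hC H).bijective

end Fermat.Agent.CFT.A5.ClassRes
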