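import Mathlib
import Fermat.Agent.CFT.A5.Tate

/-!
# PROJECT C, slice A5: the class module axioms for the whole group

`A5.Tate.IsClassModule C φ` is stated for the restrictions `Rep.res H.subtype C` to subgroups.
Here we derive the statements for `G` itself (`H = ⊤`), in terms of `groupCohomology C n`:

* `res_top_injective` : `H²(G, C) → H²(⊤, C)` is injective;
* `IsClassModule.hord_top` : `r • [φ] = 0 → |G| ∣ r`;
* `IsClassModule.hgen_top` : every class of `H²(G, C)` is a multiple of `[φ]`.
-/

set_option autoImplicit false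

universe u

noncomputable section

open CategoryTheory CategoryTheory.Limits groupCohomology

namespace Fermat.Agent.CFT.A5.ClassTop

open Fermat.Agent.CFT.A5.Tate Fermat.Agent.CFT.A5.SplitRes

variable {k G : Type u} [CommRing k] [Group G] (C : Rep.{u} k G) (φ : cocycles₂ C)

/-- Restriction to the top subgroup is injective on `H²`. -/
theorem res_top_injective :
    Function.Injective (groupCohomology.map (⊤ : Subgroup G).subtype
      (𝟙 (Rep.res (⊤ : Subgroup G).subtype C)) 2).hom := by
  rw [injective_iff_map_eq_zero]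
  intro y hy
  induction y using H2_induction_on with
  | h f =>
  have h1 := congr($(H2π_comp_map (⊤ : Subgroup G).subtype
    (𝟙 (Rep.res (⊤ : Subgroup G).subtype C))) f)
  rw [ModuleCat.comp_apply, ModuleCat.comp_apply] at h1
  rw [h1, H2π_eq_zero_iff] at hy
  obtain ⟨b, hb⟩ := hy
  rw [H2π_eq_zero_iff]
  refine ⟨fun g => b ⟨g, Subgroup.mem_top g⟩, ?_⟩
  funext p
  obtain ⟨g, h⟩ := p
  have h2 := congrFun hb (⟨g, Subgroup.mem_top g⟩, ⟨h, Subgroup.mem_top h⟩)
  exact h2

variable {C φ}

variable [Fintype G]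

/-- `r • [φ] = 0 → |G| ∣ r`, for the group itself. -/
theorem _root_.Fermat.Agent.CFT.A5.Tate.IsClassModule.hord_top (hC : IsClassModule C φ) (r : k)
    (hr : r • H2π C φ = 0) : ((Fintype.card G : ℕ) : k) ∣ r := by
  have h1 := hC.hord ⊤ r (by
    rw [← map_H2π_phi, ← map_smul, hr, map_zero])
  rwa [Subgroup.card_top, Nat.card_eq_fintype_card] at h1

omit [Fintype G] in
/-- Every class of `H²(G, C)` is a multiple of `[φ]`, for the group itself. -/
theorem _root_.Fermat.Agent.CFT.A5.Tate.IsClassModule.hgen_top (hC : IsClassModule C φ)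
    (y : groupCohomology C 2) : ∃ r : k, y = r • H2π C φ := by
  obtain ⟨r, hr⟩ := hC.hgen ⊤ ((groupCohomology.map (⊤ : Subgroup G).subtype
    (𝟙 (Rep.res (⊤ : Subgroup G).subtype C)) 2).hom y)
  refine ⟨r, res_top_injective C ?_⟩
  rw [hr, map_smul, map_H2π_phi]

end Fermat.Agent.CFT.A5.ClassTop
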