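import Mathlib
import Fermat.Agent.CFT.A5.ReciprocityK
import Fermat.Agent.CFT.A5.SplitRes

/-!
# PROJECT C, slice (N3-A): norm groups of sub-layers through the Nakayama map

`Γ` a finite group, `C : Rep k Γ`, `φ` a `2`-cocycle, `H ⊴ Γ` a normal subgroup.  The relative
norm `N_{Γ/H} : C^H → C^Γ` (the norm of `Γ ⧸ H` acting on `C.quotientToInvariants H`) satisfies

  `N_{Γ/H} (nak_H h) = nak_Γ h`   for `h ∈ H`      (`relNorm_nakRes`),

where `nak_H` is the Nakayama map of the restricted pair `(Rep.res H C, φ|_H)`.  Hence the induced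
map `Ĥ⁰(H, C) → Ĥ⁰(Γ, C)` is compatible with the Nakayama maps and with `k ⊗ H^ab → k ⊗ Γ^ab`
(`relNormH0_nakLin`), and if the Nakayama map of `H` is onto, the image of the relative norm in
`Ĥ⁰(Γ, C)` is the image under the Nakayama map of `Γ` of the classes of the elements of `H`
(`range_relNormH0`).

Consequently (`exists_subgroup_range_relNormH0_eq`): if the Nakayama maps of `Γ` and of its normal
subgroups are onto and every element of `k ⊗ Γ^ab` is the class of an element of `Γ`, then EVERY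
`k`-submodule `A` of `Ĥ⁰(Γ, C)` is the image of the relative norm from a normal subgroup `H`
("every subgroup containing the norm group of `L/K` is the norm group of a subextension").  No
functoriality of the reciprocity map with respect to quotients, and no counting, is needed.
-/

set_option autoImplicit false
set_option linter.unusedSectionVars false

universe u

noncomputable section

open CategoryTheory groupCohomology TensorProduct

namespace Fermat.Agent.CFT.A5.NormSubgroup

open Fermat.Agent.CFT.A5.Reciprocity Fermat.Agent.CFT.A5.ReciprocityK Fermat.Agent.CFT.A5.Split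
  Fermat.Agent.CFT.A5.SplitRes

/-! ### Coset decomposition of sums -/

section Coset

variable {Γ : Type u} [Group Γ] (H : Subgroup Γ)

/-- `(Γ ⧸ H) × H ≃ Γ`, `(q, τ) ↦ q.out * τ`. -/
def outMul : (Γ ⧸ H) × H ≃ Γ where
  toFun x := x.1.out * (x.2 : Γ)
  invFun g := ((g : Γ ⧸ H), ⟨((g : Γ ⧸ H).out)⁻¹ * g, by
    rw [← QuotientGroup.eq]
    exact QuotientGroup.out_eq' _⟩)
  left_inv := by
    rintro ⟨q, τ⟩
    have h1 : ((q.out * (τ : Γ) : Γ) : Γ ⧸ H) = q := by
      rw [QuotientGroup.mk_mul_of_mem _ τ.2]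
      exact QuotientGroup.out_eq' q
    refine Prod.ext h1 ?_
    apply Subtype.ext
    show (((q.out * (τ : Γ) : Γ) : Γ ⧸ H).out)⁻¹ * (q.out * (τ : Γ)) = τ
    rw [h1, inv_mul_cancel_left]
  right_inv g := by
    show ((g : Γ ⧸ H).out) * (((g : Γ ⧸ H).out)⁻¹ * g) = g
    rw [mul_inv_cancel_left]

@[simp] theorem outMul_apply (q : Γ ⧸ H) (τ : H) : outMul H (q, τ) = q.out * (τ : Γ) := rfl

theorem sum_eq_sum_quotient_sum {M : Type*} [AddCommMonoid M] [Fintype Γ] [Fintype H]
    [Fintype (Γ ⧸ H)] (f : Γ → M) :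
    ∑ g : Γ, f g = ∑ q : Γ ⧸ H, ∑ τ : H, f (q.out * (τ : Γ)) := by
  rw [← Fintype.sum_prod_type']
  exact (Fintype.sum_equiv (outMul H) _ _ fun x => rfl).symm

end Coset

variable {k Γ : Type u} [CommRing k] [Group Γ] (C : Rep.{u} k Γ) (φ : cocycles₂ C)
variable (H : Subgroup Γ) [H.Normal]

/-! ### The relative norm -/

section RelNorm

theorem coe_quotient_ρ (g : Γ) (x : (C.quotientToInvariants H).V) :
    (((C.quotientToInvariants H).ρ (g : Γ ⧸ H) x : (C.quotientToInvariants H).V) : C.V) =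
      C.ρ g (x : C.V) := rfl

theorem coe_quotient_ρ_out (q : Γ ⧸ H) (x : (C.quotientToInvariants H).V) :
    (((C.quotientToInvariants H).ρ q x : (C.quotientToInvariants H).V) : C.V) =
      C.ρ q.out (x : C.V) := by
  conv_lhs => rw [← QuotientGroup.out_eq' q]
  rfl

variable [Fintype (Γ ⧸ H)]

theorem coe_quotient_norm (x : (C.quotientToInvariants H).V) :
    (((C.quotientToInvariants H).ρ.norm x : (C.quotientToInvariants H).V) : C.V) =
      ∑ q : Γ ⧸ H, C.ρ q.out (x : C.V) := by
  unfold Representation.norm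
  rw [LinearMap.sum_apply, Submodule.coe_sum]
  exact Finset.sum_congr rfl fun q _ => coe_quotient_ρ_out C H q x

/-- The relative norm `N_{Γ/H} : C^H → C^Γ`. -/
def relNorm : (C.quotientToInvariants H).V →ₗ[k] C.ρ.invariants :=
  LinearMap.codRestrict C.ρ.invariants
    ((Submodule.subtype _).comp (C.quotientToInvariants H).ρ.norm) (fun x g => by
      show C.ρ g (((C.quotientToInvariants H).ρ.norm x : (C.quotientToInvariants H).V) : C.V) = _
      rw [← coe_quotient_ρ, Representation.self_norm_apply]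
      rfl)

theorem coe_relNorm (x : (C.quotientToInvariants H).V) :
    ((relNorm C H x : C.ρ.invariants) : C.V) = ∑ q : Γ ⧸ H, C.ρ q.out (x : C.V) :=
  coe_quotient_norm C H x

variable [Fintype Γ] [Fintype H]

theorem norm_res_apply (c : C.V) :
    (Rep.res H.subtype C).ρ.norm c = ∑ τ : H, C.ρ (τ : Γ) c := by
  unfold Representation.norm
  rw [LinearMap.sum_apply]
  rfl

/-- The `H`-norm of an element, as an `H`-invariant. -/
def normResInv (c : C.V) : (C.quotientToInvariants H).V :=
  ⟨(Rep.res H.subtype C).ρ.norm c, fun τ =>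
    Representation.self_norm_apply (Rep.res H.subtype C).ρ τ c⟩

/-- Transitivity of the norm: `N_{Γ/H} (N_H c) = N_Γ c`. -/
theorem relNorm_normResInv (c : C.V) :
    ((relNorm C H (normResInv C H c) : C.ρ.invariants) : C.V) = C.ρ.norm c := by
  rw [coe_relNorm]
  show ∑ q : Γ ⧸ H, C.ρ q.out ((Rep.res H.subtype C).ρ.norm c) = _
  have h2 : ∀ q : Γ ⧸ H, C.ρ q.out ((Rep.res H.subtype C).ρ.norm c) =
      ∑ τ : H, C.ρ (q.out * (τ : Γ)) c := by
    intro q
    rw [norm_res_apply, map_sum]
    exact Finset.sum_congr rfl fun τ _ => by rw [map_mul]; rfl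
  have h1 : C.ρ.norm c = ∑ g : Γ, C.ρ g c := by
    unfold Representation.norm
    rw [LinearMap.sum_apply]
  rw [h1, sum_eq_sum_quotient_sum H, Finset.sum_congr rfl fun q _ => h2 q]

theorem nak_res_apply (h : H) :
    nak (Rep.res H.subtype C) (resPhi C φ H.subtype) h = ∑ τ : H, φ ((τ : Γ), (h : Γ)) := rfl

/-- The Nakayama element of the restricted pair, as an `H`-invariant. -/
def nakResInv (h : H) : (C.quotientToInvariants H).V :=
  ⟨nak (Rep.res H.subtype C) (resPhi C φ H.subtype) h, fun τ =>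
    ρ_nak (Rep.res H.subtype C) (resPhi C φ H.subtype) τ h⟩

/-- **Compatibility of the Nakayama maps with the relative norm**:
`N_{Γ/H} (nak_H h) = nak_Γ h` for `h ∈ H`. -/
theorem relNorm_nakResInv (h : H) :
    ((relNorm C H (nakResInv C φ H h) : C.ρ.invariants) : C.V) = nak C φ (h : Γ) := by
  rw [coe_relNorm]
  show ∑ q : Γ ⧸ H, C.ρ q.out (nak (Rep.res H.subtype C) (resPhi C φ H.subtype) h) = _
  have c0 : ∀ q : Γ ⧸ H, C.ρ q.out (nak (Rep.res H.subtype C) (resPhi C φ H.subtype) h) =
      ∑ τ : H, C.ρ q.out (φ ((τ : Γ), (h : Γ))) := by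
    intro q
    rw [nak_res_apply, map_sum]
  rw [Finset.sum_congr rfl fun q _ => c0 q]
  -- `g φ(τ, h) = φ(g τ, h) + φ(g, τ) - φ(g, τ h)`
  have c1 : ∀ (g : Γ) (τ : H), C.ρ g (φ ((τ : Γ), (h : Γ)))
      = φ (g * τ, (h : Γ)) + φ (g, (τ : Γ)) - φ (g, ((τ * h : H) : Γ)) := by
    intro g τ
    have := (mem_cocycles₂_iff φ).1 φ.2 g τ h
    rw [this, Subgroup.coe_mul]
    abel
  have c2 : ∀ q : Γ ⧸ H, ∑ τ : H, C.ρ q.out (φ ((τ : Γ), (h : Γ)))
      = ∑ τ : H, φ (q.out * τ, (h : Γ)) := by
    intro q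
    rw [Finset.sum_congr rfl fun τ _ => c1 q.out τ, Finset.sum_sub_distrib,
      Finset.sum_add_distrib]
    have e1 : ∑ τ : H, φ (q.out, ((τ * h : H) : Γ)) = ∑ τ : H, φ (q.out, (τ : Γ)) :=
      Fintype.sum_equiv (Equiv.mulRight h) _ _ fun τ => rfl
    rw [e1, add_sub_cancel_right]
  rw [Finset.sum_congr rfl fun q _ => c2 q]
  unfold nak
  rw [sum_eq_sum_quotient_sum H]

end RelNorm

/-! ### The induced map on `Ĥ⁰` -/

section H0

variable [Fintype Γ] [Fintype H] [Fintype (Γ ⧸ H)]

/-- The relative norm sends `H`-norms to `Γ`-norms. -/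
theorem relNorm_mem_normSub {x : (Rep.res H.subtype C).ρ.invariants}
    (hx : x ∈ normSub (Rep.res H.subtype C)) : relNorm C H x ∈ normSub C := by
  obtain ⟨c, hc⟩ := (mem_normSub _ x).1 hx
  refine (mem_normSub C _).2 ⟨c, ?_⟩
  have h1 : x = normResInv C H c := Subtype.ext hc.symm
  rw [h1, relNorm_normResInv]

/-- The map `Ĥ⁰(H, C) → Ĥ⁰(Γ, C)` induced by the relative norm (= corestriction in degree `0`). -/
def relNormH0 : H0hat (Rep.res H.subtype C) →ₗ[k] H0hat C :=
  Submodule.mapQ (normSub (Rep.res H.subtype C)) (normSub C) (relNorm C H)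
    fun _ hx => relNorm_mem_normSub C H hx

theorem relNormH0_mkQ (x : (Rep.res H.subtype C).ρ.invariants) :
    relNormH0 C H ((normSub (Rep.res H.subtype C)).mkQ x) = (normSub C).mkQ (relNorm C H x) := rfl

/-- `cores [nak_H h] = [nak_Γ h]`. -/
theorem relNormH0_nakClass (h : H) :
    relNormH0 C H (nakClass (Rep.res H.subtype C) (resPhi C φ H.subtype) h) =
      nakClass C φ (h : Γ) := by
  unfold nakClass
  rw [relNormH0_mkQ]
  congr 1
  apply Subtype.ext
  exact relNorm_nakResInv C φ H h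

/-- `k ⊗ H^ab → k ⊗ Γ^ab`. -/
def gabMap : Gabk k H →ₗ[k] Gabk k Γ :=
  AlgebraTensorModule.map (LinearMap.id : k →ₗ[k] k)
    ((MonoidHom.toAdditive (Abelianization.map H.subtype)).toIntLinearMap)

theorem gabMap_gab (h : H) : gabMap (k := k) H (gab k H h) = gab k Γ (h : Γ) := by
  unfold gabMap gab
  rw [AlgebraTensorModule.map_tmul]
  rfl

/-- every element of `k ⊗ H^ab` is a `k`-combination of classes of elements of `H` -/
theorem gabk_induction {G : Type u} [Group G] {P : Gabk k G → Prop} (h0 : P 0)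
    (hadd : ∀ x y, P x → P y → P (x + y)) (hsmul : ∀ (r : k) (σ : G), P (r • gab k G σ))
    (t : Gabk k G) : P t := by
  induction t using TensorProduct.induction_on with
  | zero => exact h0
  | add x y hx hy => exact hadd x y hx hy
  | tmul r g =>
    obtain ⟨σ, hσ⟩ := QuotientGroup.mk_surjective (Additive.toMul g)
    have : r ⊗ₜ[ℤ] g = r • gab k G σ := by
      rw [smul_gab]
      congr 1
      exact congrArg Additive.ofMul hσ.symm
    rw [this]
    exact hsmul r σ

/-- **Compatibility of the Nakayama maps with corestriction**. -/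
theorem relNormH0_nakLin (t : Gabk k H) :
    relNormH0 C H (nakLin (Rep.res H.subtype C) (resPhi C φ H.subtype) t) =
      nakLin C φ (gabMap H t) := by
  induction t using gabk_induction with
  | h0 => simp
  | hadd x y hx hy => rw [map_add, map_add, hx, hy, map_add, map_add]
  | hsmul r σ =>
    rw [map_smul, map_smul, nakLin_gab, relNormH0_nakClass, map_smul, gabMap_gab, map_smul,
      nakLin_gab]

/-- **Image of the relative norm in `Ĥ⁰(Γ, C)`**: if the Nakayama map of `H` is onto, it is the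
image under the Nakayama map of `Γ` of the image of `k ⊗ H^ab`. -/
theorem range_relNormH0
    (hsurj : Function.Surjective (nakLin (Rep.res H.subtype C) (resPhi C φ H.subtype))) :
    LinearMap.range (relNormH0 C H) =
      (LinearMap.range (gabMap (k := k) H)).map (nakLin C φ) := by
  ext y
  constructor
  · rintro ⟨x, rfl⟩
    obtain ⟨t, rfl⟩ := hsurj x
    exact ⟨gabMap H t, ⟨t, rfl⟩, (relNormH0_nakLin C φ H t).symm⟩
  · rintro ⟨_, ⟨t, rfl⟩, rfl⟩
    exact ⟨_, relNormH0_nakLin C φ H t⟩

/-- Every class `[nak_Γ h]`, `h ∈ H`, is a relative norm from `C^H` (no hypothesis). -/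
theorem nakClass_mem_range_relNormH0 (h : H) :
    nakClass C φ (h : Γ) ∈ LinearMap.range (relNormH0 C H) :=
  ⟨_, relNormH0_nakClass C φ H h⟩

end H0

/-! ### Every submodule of `Ĥ⁰(Γ, C)` is a norm group -/

section Exists

variable [Fintype Γ]

theorem nakClass_one : nakClass C φ 1 = 0 := by
  have h := nakClass_mul C φ 1 1
  rw [mul_one] at h
  exact left_eq_add.mp h

theorem nakClass_inv (σ : Γ) : nakClass C φ σ⁻¹ = -nakClass C φ σ := by
  have h := nakClass_mul C φ σ σ⁻¹
  rw [mul_inv_cancel, nakClass_one] at h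
  exact (neg_eq_of_add_eq_zero_right h.symm).symm

/-- The elements of `Γ` whose Nakayama class lies in the submodule `A` of `Ĥ⁰(Γ, C)`. -/
def nakSubgroup (A : Submodule k (H0hat C)) : Subgroup Γ where
  carrier := {σ | nakClass C φ σ ∈ A}
  one_mem' := by
    show nakClass C φ 1 ∈ A
    rw [nakClass_one]
    exact A.zero_mem
  mul_mem' := by
    intro σ τ hσ hτ
    show nakClass C φ (σ * τ) ∈ A
    rw [nakClass_mul]
    exact A.add_mem hσ hτ
  inv_mem' := by
    intro σ hσ
    show nakClass C φ σ⁻¹ ∈ A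
    rw [nakClass_inv]
    exact A.neg_mem hσ

theorem mem_nakSubgroup {A : Submodule k (H0hat C)} {σ : Γ} :
    σ ∈ nakSubgroup C φ A ↔ nakClass C φ σ ∈ A := Iff.rfl

instance normal_nakSubgroup (A : Submodule k (H0hat C)) : (nakSubgroup C φ A).Normal where
  conj_mem σ hσ g := by
    show nakClass C φ (g * σ * g⁻¹) ∈ A
    rw [nakClass_mul, nakClass_mul, nakClass_inv]
    have : nakClass C φ g + nakClass C φ σ + -nakClass C φ g = nakClass C φ σ := by abel
    rw [this]
    exact hσ

/-- **Every submodule of `Ĥ⁰(Γ, C)` is a norm group.**  If the Nakayama maps of `Γ` and of the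
normal subgroup `H = {σ | [nak σ] ∈ A}` are onto and every element of `k ⊗ Γ^ab` is the class of
an element of `Γ`, then the image of the relative norm `C^H → Ĥ⁰(Γ, C)` is exactly `A`. -/
theorem range_relNormH0_nakSubgroup (A : Submodule k (H0hat C))
    [Fintype (nakSubgroup C φ A)] [Fintype (Γ ⧸ nakSubgroup C φ A)]
    (hsurjH : Function.Surjective (nakLin (Rep.res (nakSubgroup C φ A).subtype C)
      (resPhi C φ (nakSubgroup C φ A).subtype)))
    (hsurjΓ : Function.Surjective (nakLin C φ))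
    (hgab : ∀ t : Gabk k Γ, ∃ σ : Γ, t = gab k Γ σ) :
    LinearMap.range (relNormH0 C (nakSubgroup C φ A)) = A := by
  rw [range_relNormH0 C φ _ hsurjH]
  ext y
  constructor
  · rintro ⟨_, ⟨t, rfl⟩, rfl⟩
    induction t using gabk_induction with
    | h0 =>
      rw [map_zero, map_zero]
      exact A.zero_mem
    | hadd x y hx hy =>
      rw [map_add, map_add]
      exact A.add_mem hx hy
    | hsmul r σ =>
      rw [map_smul, map_smul, gabMap_gab, nakLin_gab]
      exact A.smul_mem r σ.2
  · intro hy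
    obtain ⟨t, rfl⟩ := hsurjΓ y
    obtain ⟨σ, rfl⟩ := hgab t
    rw [nakLin_gab] at hy
    refine ⟨gab k Γ σ, ⟨gab k _ (⟨σ, hy⟩ : nakSubgroup C φ A), ?_⟩, rfl⟩
    rw [gabMap_gab]

/-- The relative norms from `C^H`, `H = {σ | [nak σ] ∈ A}`, have classes in `A` (needs only the
surjectivity of the Nakayama map of `H`). -/
theorem relNormH0_mem_of_nakSubgroup (A : Submodule k (H0hat C))
    [Fintype (nakSubgroup C φ A)] [Fintype (Γ ⧸ nakSubgroup C φ A)]
    (hsurjH : Function.Surjective (nakLin (Rep.res (nakSubgroup C φ A).subtype C)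
      (resPhi C φ (nakSubgroup C φ A).subtype)))
    (x : H0hat (Rep.res (nakSubgroup C φ A).subtype C)) :
    relNormH0 C (nakSubgroup C φ A) x ∈ A := by
  obtain ⟨t, rfl⟩ := hsurjH x
  rw [relNormH0_nakLin]
  induction t using gabk_induction with
  | h0 =>
    rw [map_zero, map_zero]
    exact A.zero_mem
  | hadd x y hx hy =>
    rw [map_add, map_add]
    exact A.add_mem hx hy
  | hsmul r σ =>
    rw [map_smul, map_smul, gabMap_gab, nakLin_gab]
    exact A.smul_mem r σ.2

omit [Fintype Γ] in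
/-- If `Γ` has exponent dividing `m` and `k / m` is a quotient of `ℤ` (e.g. `k = ℤ`, or
`k = ℤ_(p)` and `m` a power of `p`), every element of `k ⊗ Γ^ab` is the class of an element of
`Γ`. -/
theorem exists_eq_gab (m : ℕ) (hΓ : ∀ σ : Γ, σ ^ m = 1)
    (hk : ∀ r : k, ∃ (n : ℤ) (s : k), r = (n : k) + (m : k) * s) (t : Gabk k Γ) :
    ∃ σ : Γ, t = gab k Γ σ := by
  induction t using gabk_induction with
  | h0 => exact ⟨1, (gab_one k Γ).symm⟩
  | hadd x y hx hy =>
    obtain ⟨σ, rfl⟩ := hx
    obtain ⟨τ, rfl⟩ := hy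
    exact ⟨σ * τ, (gab_mul k Γ σ τ).symm⟩
  | hsmul r σ =>
    obtain ⟨n, s, rfl⟩ := hk r
    have hz : ∀ n : ℤ, (n : k) • gab k Γ σ = gab k Γ (σ ^ n) := by
      intro n
      unfold gab
      rw [smul_tmul', smul_eq_mul, mul_one, map_zpow, ofMul_zpow, tmul_smul]
      rw [smul_tmul', zsmul_eq_mul, mul_one]
    have hm : (m : k) • gab k Γ σ = 0 := by
      have := hz (m : ℤ)
      rw [Int.cast_natCast, zpow_natCast, hΓ, gab_one] at this
      exact this
    refine ⟨σ ^ n, ?_⟩
    rw [add_smul, hz, mul_comm, mul_smul, hm, smul_zero, add_zero]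

end Exists

end Fermat.Agent.CFT.A5.NormSubgroup
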