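import Mathlib
import Fermat.Agent.CFT.A5.NormSubgroup

/-!
# (N3-1), part (3'): uniqueness in the correspondence "subgroups ↔ norm groups"

On top of `A5/NormSubgroup` (`relNormH0 C H : Ĥ⁰(H, C) → Ĥ⁰(Γ, C)` induced by the relative norm,
`range_relNormH0 : range = nakLin (image of k ⊗ H^ab)` when the Nakayama map of `H` is onto).

* `range_gabMap_le_of_range_relNormH0_le` / `range_gabMap_eq_of_range_relNormH0_eq`: if the
  Nakayama map of `Γ` is injective, the norm group of `H` determines the image of `k ⊗ H^ab` in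
  `k ⊗ Γ^ab`;
* `detect`: for `Γ` commutative of exponent dividing `m` and a ring homomorphism `π : k → ℤ/m`, the
  map `k ⊗ Γ^ab → Γ`, `r ⊗ σ ↦ σ ^ π r`; hence `gab σ ∈ image of k ⊗ H^ab → σ ∈ H`
  (`mem_of_gab_mem_range_gabMap`);
* **uniqueness** `le_of_range_relNormH0_le`, `eq_of_range_relNormH0_eq`: for such `Γ`, `k`, the
  norm group `N_{Γ/H} (C^H) / N_Γ C` determines `H` (and the correspondence is monotone);
* **intersection** `eq_zero_of_forall_mem_range_relNormH0`: for `Γ` an elementary abelian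
  `p`-group, a class of `Ĥ⁰(Γ, C)` which is a relative norm from `C^H` for every subgroup `H` of
  index `p` is zero ("`N_L` is the intersection of the `N_M`, `M/K` cyclic of degree `p` in `L`").
-/

set_option autoImplicit false
set_option linter.unusedSectionVars false

universe u

noncomputable section

open CategoryTheory groupCohomology TensorProduct

namespace Fermat.Agent.CFT.A5.NakCores

open Fermat.Agent.CFT.A5.Reciprocity Fermat.Agent.CFT.A5.ReciprocityK Fermat.Agent.CFT.A5.Split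
  Fermat.Agent.CFT.A5.SplitRes Fermat.Agent.CFT.A5.NormSubgroup

/-! ### Element form of `range (relNormH0 C H)` -/

section Elements

variable {k Γ : Type u} [CommRing k] [Group Γ] (C : Rep.{u} k Γ) (φ : cocycles₂ C)
variable (H : Subgroup Γ) [H.Normal] [Fintype Γ] [Fintype H] [Fintype (Γ ⧸ H)]

/-- the class of `x ∈ C^Γ` is a relative norm from `C^H` iff `x = N_{Γ/H} y + N_Γ c` -/
theorem mkQ_mem_range_relNormH0_iff (x : C.ρ.invariants) :
    (normSub C).mkQ x ∈ LinearMap.range (relNormH0 C H) ↔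
      ∃ (y : (Rep.res H.subtype C).ρ.invariants) (c : C.V),
        (x : C.V) = ((relNorm C H y : C.ρ.invariants) : C.V) + C.ρ.norm c := by
  constructor
  · rintro ⟨z, hz⟩
    obtain ⟨y, rfl⟩ := Submodule.mkQ_surjective _ z
    rw [relNormH0_mkQ, Submodule.mkQ_apply, Submodule.mkQ_apply, Submodule.Quotient.eq,
      mem_normSub] at hz
    obtain ⟨c, hc⟩ := hz
    refine ⟨y, -c, ?_⟩
    have hc' : C.ρ.norm c = ((relNorm C H y : C.ρ.invariants) : C.V) - (x : C.V) := hc
    rw [map_neg, hc']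
    abel
  · rintro ⟨y, c, hyc⟩
    refine ⟨(normSub (Rep.res H.subtype C)).mkQ y, ?_⟩
    rw [relNormH0_mkQ, Submodule.mkQ_apply, Submodule.mkQ_apply, Submodule.Quotient.eq,
      mem_normSub]
    refine ⟨-c, ?_⟩
    show C.ρ.norm (-c) = ((relNorm C H y : C.ρ.invariants) : C.V) - (x : C.V)
    rw [hyc, map_neg]
    abel

/-- the image of `k ⊗ H^ab` always consists of relative norms (no hypothesis) -/
theorem map_range_gabMap_le_range_relNormH0 :
    (LinearMap.range (gabMap (k := k) H)).map (nakLin C φ) ≤ LinearMap.range (relNormH0 C H) := by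
  rintro _ ⟨_, ⟨t, rfl⟩, rfl⟩
  exact ⟨_, relNormH0_nakLin C φ H t⟩

end Elements

/-! ### The norm group determines the image of `k ⊗ H^ab` -/

section Images

variable {k Γ : Type u} [CommRing k] [Group Γ] (C : Rep.{u} k Γ) (φ : cocycles₂ C) [Fintype Γ]
variable (H₁ H₂ : Subgroup Γ) [H₁.Normal] [H₂.Normal] [Fintype H₁] [Fintype H₂]
  [Fintype (Γ ⧸ H₁)] [Fintype (Γ ⧸ H₂)]

/-- monotonicity: if the Nakayama map of `Γ` is injective and that of `H₂` is onto, an inclusion
of norm groups gives an inclusion of the images of `k ⊗ H_i^ab` in `k ⊗ Γ^ab` -/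
theorem range_gabMap_le_of_range_relNormH0_le (hinj : Function.Injective (nakLin C φ))
    (hs₂ : Function.Surjective (nakLin (Rep.res H₂.subtype C) (resPhi C φ H₂.subtype)))
    (h : LinearMap.range (relNormH0 C H₁) ≤ LinearMap.range (relNormH0 C H₂)) :
    LinearMap.range (gabMap (k := k) H₁) ≤ LinearMap.range (gabMap (k := k) H₂) := by
  rw [← Submodule.map_le_map_iff_of_injective hinj]
  calc (LinearMap.range (gabMap (k := k) H₁)).map (nakLin C φ)
      ≤ LinearMap.range (relNormH0 C H₁) := map_range_gabMap_le_range_relNormH0 C φ H₁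
    _ ≤ LinearMap.range (relNormH0 C H₂) := h
    _ = (LinearMap.range (gabMap (k := k) H₂)).map (nakLin C φ) := range_relNormH0 C φ H₂ hs₂

/-- the norm group of `H` determines the image of `k ⊗ H^ab` in `k ⊗ Γ^ab` -/
theorem range_gabMap_eq_of_range_relNormH0_eq (hinj : Function.Injective (nakLin C φ))
    (hs₁ : Function.Surjective (nakLin (Rep.res H₁.subtype C) (resPhi C φ H₁.subtype)))
    (hs₂ : Function.Surjective (nakLin (Rep.res H₂.subtype C) (resPhi C φ H₂.subtype)))
    (h : LinearMap.range (relNormH0 C H₁) = LinearMap.range (relNormH0 C H₂)) :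
    LinearMap.range (gabMap (k := k) H₁) = LinearMap.range (gabMap (k := k) H₂) :=
  le_antisymm (range_gabMap_le_of_range_relNormH0_le C φ H₁ H₂ hinj hs₂ h.le)
    (range_gabMap_le_of_range_relNormH0_le C φ H₂ H₁ hinj hs₁ h.ge)

end Images

/-! ### Detection of elements of `Γ` in `k ⊗ Γ^ab` -/

section Detect

variable {k : Type u} [CommRing k] {Γ : Type u} [CommGroup Γ]

/-- the inverse of `Γ ≃ Γ^ab`, additively -/
def abInv : Additive (Abelianization Γ) →+ Additive Γ :=
  MonoidHom.toAdditive (Abelianization.equivOfComm (H := Γ)).symm.toMonoidHom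

theorem abInv_of (σ : Γ) : abInv (Additive.ofMul (Abelianization.of σ)) = Additive.ofMul σ := by
  show Additive.ofMul ((Abelianization.equivOfComm (H := Γ)).symm (Abelianization.of σ)) = _
  congr 1

theorem nsmul_additive_eq_zero (m : ℕ) (hΓ : ∀ σ : Γ, σ ^ m = 1) (x : Additive Γ) :
    m • x = 0 := by
  show Additive.ofMul (Additive.toMul x ^ m) = 0
  rw [hΓ]
  rfl

/-- **Detection map** `k ⊗ Γ^ab → Γ` (`Γ` commutative of exponent dividing `m`, `π : k → ℤ/m`),
`r ⊗ σ ↦ σ ^ π r`. -/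
def detect (m : ℕ) (π : k →+* ZMod m) (hΓ : ∀ σ : Γ, σ ^ m = 1) : Gabk k Γ →+ Additive Γ :=
  letI : Module (ZMod m) (Additive Γ) := AddCommGroup.zmodModule (nsmul_additive_eq_zero m hΓ)
  TensorProduct.liftAddHom
    { toFun := fun r =>
        { toFun := fun a => π r • abInv a
          map_zero' := by rw [map_zero, smul_zero]
          map_add' := fun a b => by rw [map_add, smul_add] }
      map_zero' := AddMonoidHom.ext fun a => by
        show π 0 • abInv a = 0
        rw [map_zero, zero_smul]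
      map_add' := fun r s => AddMonoidHom.ext fun a => by
        show π (r + s) • abInv a = π r • abInv a + π s • abInv a
        rw [map_add, add_smul] }
    (fun n r a => by
      show π (n • r) • abInv a = π r • abInv (n • a)
      rw [map_zsmul, map_zsmul, smul_assoc, smul_comm])

omit [CommGroup Γ] in
/-- `gabMap_gab` without instance arguments -/
theorem gabMap_gab' {Γ : Type u} [Group Γ] (H : Subgroup Γ) (h : H) :
    gabMap (k := k) H (gab k H h) = gab k Γ (h : Γ) := rfl

theorem detect_gab (m : ℕ) (π : k →+* ZMod m) (hΓ : ∀ σ : Γ, σ ^ m = 1) (σ : Γ) :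
    detect m π hΓ (gab k Γ σ) = Additive.ofMul σ := by
  let _ : Module (ZMod m) (Additive Γ) := AddCommGroup.zmodModule (nsmul_additive_eq_zero m hΓ)
  show π 1 • abInv (Additive.ofMul (Abelianization.of σ)) = _
  rw [map_one, one_smul, abInv_of]

/-- `detect (r • gab σ) = σ ^ n` for an integer `n` -/
theorem exists_detect_smul_gab (m : ℕ) (π : k →+* ZMod m) (hΓ : ∀ σ : Γ, σ ^ m = 1) (r : k)
    (σ : Γ) : ∃ n : ℤ, detect m π hΓ (r • gab k Γ σ) = Additive.ofMul (σ ^ n) := by
  let _ : Module (ZMod m) (Additive Γ) := AddCommGroup.zmodModule (nsmul_additive_eq_zero m hΓ)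
  refine ⟨((π r).cast : ℤ), ?_⟩
  rw [smul_gab]
  show π r • abInv (Additive.ofMul (Abelianization.of σ)) = _
  rw [abInv_of, ofMul_zpow, ← Int.cast_smul_eq_zsmul (ZMod m), ZMod.intCast_zmod_cast]

/-- `detect` maps the image of `k ⊗ H^ab` into `H` -/
theorem detect_mem_of_mem_range_gabMap (m : ℕ) (π : k →+* ZMod m) (hΓ : ∀ σ : Γ, σ ^ m = 1)
    (H : Subgroup Γ) {t : Gabk k Γ}
    (ht : t ∈ LinearMap.range (gabMap (k := k) H)) :
    Additive.toMul (detect m π hΓ t) ∈ H := by
  obtain ⟨s, rfl⟩ := ht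
  induction s using gabk_induction with
  | h0 =>
    rw [map_zero, map_zero]
    exact H.one_mem
  | hadd x y hx hy =>
    rw [map_add, map_add]
    exact H.mul_mem hx hy
  | hsmul r h =>
    rw [map_smul, gabMap_gab']
    obtain ⟨n, hn⟩ := exists_detect_smul_gab m π hΓ r (h : Γ)
    rw [hn]
    exact H.zpow_mem h.2 n

/-- **Detection**: if the class of `σ` in `k ⊗ Γ^ab` comes from `k ⊗ H^ab`, then `σ ∈ H`. -/
theorem mem_of_gab_mem_range_gabMap (m : ℕ) (π : k →+* ZMod m) (hΓ : ∀ σ : Γ, σ ^ m = 1)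
    (H : Subgroup Γ) (σ : Γ)
    (h : gab k Γ σ ∈ LinearMap.range (gabMap (k := k) H)) : σ ∈ H := by
  have := detect_mem_of_mem_range_gabMap m π hΓ H h
  rwa [detect_gab] at this

/-- `σ ↦ gab σ` is injective -/
theorem eq_one_of_gab_eq_zero (m : ℕ) (π : k →+* ZMod m) (hΓ : ∀ σ : Γ, σ ^ m = 1) (σ : Γ)
    (h : gab k Γ σ = 0) : σ = 1 := by
  have := detect_gab m π hΓ σ
  rw [h, map_zero] at this
  exact (congrArg Additive.toMul this).symm

/-- the images of `k ⊗ H_i^ab` in `k ⊗ Γ^ab` are ordered like the subgroups -/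
theorem le_of_range_gabMap_le (m : ℕ) (π : k →+* ZMod m) (hΓ : ∀ σ : Γ, σ ^ m = 1)
    (H₁ H₂ : Subgroup Γ)
    (h : LinearMap.range (gabMap (k := k) H₁) ≤ LinearMap.range (gabMap (k := k) H₂)) :
    H₁ ≤ H₂ := by
  intro σ hσ
  exact mem_of_gab_mem_range_gabMap m π hΓ H₂ σ (h ⟨gab k H₁ ⟨σ, hσ⟩, gabMap_gab' H₁ ⟨σ, hσ⟩⟩)

end Detect

/-! ### Uniqueness and intersection -/

section Unique

variable {k Γ : Type u} [CommRing k] [CommGroup Γ] (C : Rep.{u} k Γ) (φ : cocycles₂ C) [Fintype Γ]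

/-- **Monotone uniqueness.**  `Γ` commutative of exponent dividing `m`, `π : k →+* ℤ/m`, the
Nakayama map of `Γ` injective and that of `H₂` onto: `N_{Γ/H₁} C^{H₁} ⊆ N_{Γ/H₂} C^{H₂}` modulo
`N_Γ C` implies `H₁ ≤ H₂`. -/
theorem le_of_range_relNormH0_le (m : ℕ) (π : k →+* ZMod m) (hΓ : ∀ σ : Γ, σ ^ m = 1)
    (H₁ H₂ : Subgroup Γ) [H₁.Normal] [H₂.Normal] [Fintype H₁]
    [Fintype H₂] [Fintype (Γ ⧸ H₁)] [Fintype (Γ ⧸ H₂)]
    (hinj : Function.Injective (nakLin C φ))
    (hs₂ : Function.Surjective (nakLin (Rep.res H₂.subtype C) (resPhi C φ H₂.subtype)))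
    (h : LinearMap.range (relNormH0 C H₁) ≤ LinearMap.range (relNormH0 C H₂)) : H₁ ≤ H₂ :=
  le_of_range_gabMap_le m π hΓ H₁ H₂
    (range_gabMap_le_of_range_relNormH0_le C φ H₁ H₂ hinj hs₂ h)

/-- **Uniqueness**: the norm group determines the subgroup. -/
theorem eq_of_range_relNormH0_eq (m : ℕ) (π : k →+* ZMod m) (hΓ : ∀ σ : Γ, σ ^ m = 1)
    (H₁ H₂ : Subgroup Γ) [H₁.Normal] [H₂.Normal] [Fintype H₁]
    [Fintype H₂] [Fintype (Γ ⧸ H₁)] [Fintype (Γ ⧸ H₂)]
    (hinj : Function.Injective (nakLin C φ))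
    (hs₁ : Function.Surjective (nakLin (Rep.res H₁.subtype C) (resPhi C φ H₁.subtype)))
    (hs₂ : Function.Surjective (nakLin (Rep.res H₂.subtype C) (resPhi C φ H₂.subtype)))
    (h : LinearMap.range (relNormH0 C H₁) = LinearMap.range (relNormH0 C H₂)) : H₁ = H₂ :=
  le_antisymm (le_of_range_relNormH0_le C φ m π hΓ H₁ H₂ hinj hs₂ h.le)
    (le_of_range_relNormH0_le C φ m π hΓ H₂ H₁ hinj hs₁ h.ge)

/-- if the Nakayama class of `σ` is a relative norm from `C^H`, then `σ ∈ H` -/
theorem mem_of_nakClass_mem_range_relNormH0 (m : ℕ) (π : k →+* ZMod m)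
    (hΓ : ∀ σ : Γ, σ ^ m = 1) (H : Subgroup Γ) [H.Normal] [Fintype H]
    [Fintype (Γ ⧸ H)] (hinj : Function.Injective (nakLin C φ))
    (hs : Function.Surjective (nakLin (Rep.res H.subtype C) (resPhi C φ H.subtype))) (σ : Γ)
    (h : nakClass C φ σ ∈ LinearMap.range (relNormH0 C H)) : σ ∈ H := by
  rw [range_relNormH0 C φ H hs, ← nakLin_gab] at h
  obtain ⟨t, ht, hts⟩ := h
  rw [hinj hts] at ht
  exact mem_of_gab_mem_range_gabMap m π hΓ H σ ht

end Unique

section Intersection

/-- in an elementary abelian `p`-group every nontrivial element is avoided by a subgroup of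
index `p` -/
theorem exists_index_eq_and_notMem {Γ : Type*} [CommGroup Γ] (p : ℕ) [hp : Fact p.Prime]
    (hΓ : ∀ σ : Γ, σ ^ p = 1) (σ : Γ) (hσ : σ ≠ 1) :
    ∃ H : Subgroup Γ, H.index = p ∧ σ ∉ H := by
  have inst : Module (ZMod p) (Additive Γ) :=
    AddCommGroup.zmodModule (nsmul_additive_eq_zero p hΓ)
  have hv : Additive.ofMul σ ≠ (0 : Additive Γ) := fun h => hσ (congrArg Additive.toMul h)
  obtain ⟨f, hf⟩ : ∃ f : Additive Γ →ₗ[ZMod p] ZMod p, f (Additive.ofMul σ) ≠ 0 := by
    by_contra hcon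
    push Not at hcon
    exact hv ((Module.forall_dual_apply_eq_zero_iff (ZMod p) _).mp hcon)
  let F : Γ →* Multiplicative (ZMod p) := AddMonoidHom.toMultiplicativeRight f.toAddMonoidHom
  have hF : ∀ g : Γ, F g = Multiplicative.ofAdd (f (Additive.ofMul g)) := fun g => rfl
  have hsurj : Function.Surjective F := by
    intro c
    refine ⟨Additive.toMul ((Multiplicative.toAdd c / f (Additive.ofMul σ)) • Additive.ofMul σ), ?_⟩
    rw [hF, ofMul_toMul, map_smul, smul_eq_mul, div_mul_cancel₀ _ hf]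
    rfl
  refine ⟨F.ker, ?_, ?_⟩
  · rw [Subgroup.index_ker, MonoidHom.range_eq_top.mpr hsurj, Subgroup.card_top]
    show Nat.card (ZMod p) = p
    rw [Nat.card_eq_fintype_card, ZMod.card]
  · intro hmem
    rw [MonoidHom.mem_ker, hF] at hmem
    exact hf (Multiplicative.ofAdd.injective hmem)

variable {k Γ : Type u} [CommRing k] [CommGroup Γ] (C : Rep.{u} k Γ) (φ : cocycles₂ C) [Fintype Γ]
variable (p : ℕ) [Fact p.Prime]

/-- **Intersection of the norm groups of the sub-layers of degree `p`.**  `Γ` an elementary abelian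
`p`-group, `π : k →+* ℤ/p`, the Nakayama map of `Γ` bijective with every element of `k ⊗ Γ^ab` the
class of an element of `Γ`, the Nakayama maps of the subgroups onto: a class of `Ĥ⁰(Γ, C)` which is
a relative norm from `C^H` for every subgroup `H` of index `p` is zero. -/
theorem eq_zero_of_forall_mem_range_relNormH0 (π : k →+* ZMod p) (hΓ : ∀ σ : Γ, σ ^ p = 1)
    (hinj : Function.Injective (nakLin C φ)) (hsurj : Function.Surjective (nakLin C φ))
    (hgab : ∀ t : Gabk k Γ, ∃ σ : Γ, t = gab k Γ σ)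
    (hsH : ∀ (H : Subgroup Γ) [Fintype H],
      Function.Surjective (nakLin (Rep.res H.subtype C) (resPhi C φ H.subtype)))
    (y : H0hat C)
    (hy : ∀ (H : Subgroup Γ) [H.Normal] [Fintype H] [Fintype (Γ ⧸ H)], H.index = p →
      y ∈ LinearMap.range (relNormH0 C H)) : y = 0 := by
  classical
  obtain ⟨t, rfl⟩ := hsurj y
  obtain ⟨σ, rfl⟩ := hgab t
  by_cases hσ : σ = 1
  · rw [hσ, gab_one, map_zero]
  · exfalso
    obtain ⟨H, hHp, hσH⟩ := exists_index_eq_and_notMem p hΓ σ hσ
    have : H.Normal := inferInstance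
    let _ : Fintype H := Fintype.ofFinite H
    let _ : Fintype (Γ ⧸ H) := Fintype.ofFinite _
    have h := hy H hHp
    rw [nakLin_gab] at h
    exact hσH (mem_of_nakClass_mem_range_relNormH0 C φ p π hΓ H hinj (hsH H) σ h)

/-- element form of `eq_zero_of_forall_mem_range_relNormH0`: an element of `C^Γ` which is, modulo
`N_Γ C`, a relative norm from `C^H` for every subgroup `H` of index `p`, is a norm from `C`. -/
theorem exists_norm_eq_of_forall_relNorm (π : k →+* ZMod p) (hΓ : ∀ σ : Γ, σ ^ p = 1)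
    (hinj : Function.Injective (nakLin C φ)) (hsurj : Function.Surjective (nakLin C φ))
    (hgab : ∀ t : Gabk k Γ, ∃ σ : Γ, t = gab k Γ σ)
    (hsH : ∀ (H : Subgroup Γ) [Fintype H],
      Function.Surjective (nakLin (Rep.res H.subtype C) (resPhi C φ H.subtype)))
    (x : C.ρ.invariants)
    (hx : ∀ (H : Subgroup Γ) [H.Normal] [Fintype H] [Fintype (Γ ⧸ H)], H.index = p →
      ∃ (y : (Rep.res H.subtype C).ρ.invariants) (c : C.V),
        (x : C.V) = ((relNorm C H y : C.ρ.invariants) : C.V) + C.ρ.norm c) :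
    ∃ c : C.V, C.ρ.norm c = (x : C.V) := by
  have h0 := eq_zero_of_forall_mem_range_relNormH0 C φ p π hΓ hinj hsurj hgab hsH
    ((normSub C).mkQ x) (fun H _ _ _ hH => (mkQ_mem_range_relNormH0_iff C H x).mpr (hx H hH))
  rw [Submodule.mkQ_apply, Submodule.Quotient.mk_eq_zero, mem_normSub] at h0
  exact h0

end Intersection

/-! ### Versions for a `Group` with a commutativity hypothesis

(for Galois groups: the `Group` instance is given, commutativity is a theorem) -/

section GroupForms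

variable {k Γ : Type u} [CommRing k] [inst : Group Γ] (C : Rep.{u} k Γ) (φ : cocycles₂ C) [Fintype Γ]
  (hcomm : ∀ a b : Γ, a * b = b * a)

/-- `le_of_range_relNormH0_le` for a group with a commutativity hypothesis -/
theorem le_of_range_relNormH0_le' (hcomm : ∀ a b : Γ, a * b = b * a) (m : ℕ) (π : k →+* ZMod m)
    (hΓ : ∀ σ : Γ, σ ^ m = 1) (H₁ H₂ : Subgroup Γ) [H₁.Normal] [H₂.Normal] [Fintype H₁]
    [Fintype H₂] [Fintype (Γ ⧸ H₁)] [Fintype (Γ ⧸ H₂)]
    (hinj : Function.Injective (nakLin C φ))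
    (hs₂ : Function.Surjective (nakLin (Rep.res H₂.subtype C) (resPhi C φ H₂.subtype)))
    (h : LinearMap.range (relNormH0 C H₁) ≤ LinearMap.range (relNormH0 C H₂)) : H₁ ≤ H₂ := by
  letI : CommGroup Γ := { inst with mul_comm := hcomm }
  exact le_of_range_relNormH0_le (Γ := Γ) C φ m π hΓ H₁ H₂ hinj hs₂ h

/-- `eq_of_range_relNormH0_eq` for a group with a commutativity hypothesis -/
theorem eq_of_range_relNormH0_eq' (hcomm : ∀ a b : Γ, a * b = b * a) (m : ℕ) (π : k →+* ZMod m)
    (hΓ : ∀ σ : Γ, σ ^ m = 1) (H₁ H₂ : Subgroup Γ) [H₁.Normal] [H₂.Normal] [Fintype H₁]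
    [Fintype H₂] [Fintype (Γ ⧸ H₁)] [Fintype (Γ ⧸ H₂)]
    (hinj : Function.Injective (nakLin C φ))
    (hs₁ : Function.Surjective (nakLin (Rep.res H₁.subtype C) (resPhi C φ H₁.subtype)))
    (hs₂ : Function.Surjective (nakLin (Rep.res H₂.subtype C) (resPhi C φ H₂.subtype)))
    (h : LinearMap.range (relNormH0 C H₁) = LinearMap.range (relNormH0 C H₂)) : H₁ = H₂ :=
  le_antisymm (le_of_range_relNormH0_le' C φ hcomm m π hΓ H₁ H₂ hinj hs₂ h.le)
    (le_of_range_relNormH0_le' C φ hcomm m π hΓ H₂ H₁ hinj hs₁ h.ge)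

/-- `eq_zero_of_forall_mem_range_relNormH0` for a group with a commutativity hypothesis -/
theorem eq_zero_of_forall_mem_range_relNormH0' (hcomm : ∀ a b : Γ, a * b = b * a) (p : ℕ)
    [Fact p.Prime] (π : k →+* ZMod p) (hΓ : ∀ σ : Γ, σ ^ p = 1)
    (hinj : Function.Injective (nakLin C φ)) (hsurj : Function.Surjective (nakLin C φ))
    (hgab : ∀ t : Gabk k Γ, ∃ σ : Γ, t = gab k Γ σ)
    (hsH : ∀ (H : Subgroup Γ) [Fintype H],
      Function.Surjective (nakLin (Rep.res H.subtype C) (resPhi C φ H.subtype)))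
    (y : H0hat C)
    (hy : ∀ (H : Subgroup Γ) [H.Normal] [Fintype H] [Fintype (Γ ⧸ H)], H.index = p →
      y ∈ LinearMap.range (relNormH0 C H)) : y = 0 := by
  letI : CommGroup Γ := { inst with mul_comm := hcomm }
  exact eq_zero_of_forall_mem_range_relNormH0 (Γ := Γ) C φ p π hΓ hinj hsurj hgab hsH y hy

/-- `exists_norm_eq_of_forall_relNorm` for a group with a commutativity hypothesis -/
theorem exists_norm_eq_of_forall_relNorm' (hcomm : ∀ a b : Γ, a * b = b * a) (p : ℕ)
    [Fact p.Prime] (π : k →+* ZMod p) (hΓ : ∀ σ : Γ, σ ^ p = 1)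
    (hinj : Function.Injective (nakLin C φ)) (hsurj : Function.Surjective (nakLin C φ))
    (hgab : ∀ t : Gabk k Γ, ∃ σ : Γ, t = gab k Γ σ)
    (hsH : ∀ (H : Subgroup Γ) [Fintype H],
      Function.Surjective (nakLin (Rep.res H.subtype C) (resPhi C φ H.subtype)))
    (x : C.ρ.invariants)
    (hx : ∀ (H : Subgroup Γ) [H.Normal] [Fintype H] [Fintype (Γ ⧸ H)], H.index = p →
      ∃ (y : (Rep.res H.subtype C).ρ.invariants) (c : C.V),
        (x : C.V) = ((relNorm C H y : C.ρ.invariants) : C.V) + C.ρ.norm c) :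
    ∃ c : C.V, C.ρ.norm c = (x : C.V) := by
  letI : CommGroup Γ := { inst with mul_comm := hcomm }
  exact exists_norm_eq_of_forall_relNorm (Γ := Γ) C φ p π hΓ hinj hsurj hgab hsH x hx

end GroupForms

end Fermat.Agent.CFT.A5.NakCores
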