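import Mathlib
import Fermat.Agent.CFT.A5.TwinSylow
import Fermat.Agent.CFT.A5.Tate
import Fermat.Agent.CFT.A5.RecipInt

/-!
# PROJECT C, slice A5: twin criterion and Tate's theorem over `ℤ_(p)`-like coefficient rings

The twin criterion and Tate's theorem were proved over a generic commutative ring `k` such that
additive maps between `k`-modules are `k`-linear (`AddHomsLinear k`) and primes are
non-zero-divisors.  Both hold for every localisation of `ℤ` (`addHomsLinear_of_isLocalization`),
in particular for `k = ℤ_(p)`, and for every characteristic zero domain respectively.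

* `isCohTrivial_of_H1_H2_of_domain`, `isCohTrivial_split_of_domain`, `tate_theorem_of_domain`.
-/

set_option autoImplicit false

open CategoryTheory groupCohomology Limits

universe u

namespace Fermat.Agent.CFT.A5.TateLocal

open Fermat.Agent.CFT.A2 Fermat.Agent.CFT.A5 Fermat.Agent.CFT.A5.Tate
  Fermat.Agent.CFT.A5.TateIso Fermat.Agent.CFT.A5.Split

/-- Additive maps between modules over a localisation of `ℤ` are linear. -/
theorem addHomsLinear_of_isLocalization (M : Submonoid ℤ) (k : Type) [CommRing k] [Algebra ℤ k]
    [IsLocalization M k] : AddHomsLinear k := by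
  intro A B _ _ _ _ f r a
  obtain ⟨⟨n, s⟩, hs⟩ := IsLocalization.surj M r
  -- `r * s = n` in `k`
  obtain ⟨v, hv⟩ := IsLocalization.map_units k s
  have hs' : r * (v : k) = algebraMap ℤ k n := by rw [hv]; exact hs
  have key : ∀ {C : Type} [AddCommGroup C] [Module k C] (m : ℤ) (c : C),
      algebraMap ℤ k m • c = m • c := by
    intro C _ _ m c
    rw [eq_intCast, Int.cast_smul_eq_zsmul]
  have h1 : (v : k) • f (r • a) = (v : k) • (r • f a) := by
    calc (v : k) • f (r • a) = algebraMap ℤ k s.1 • f (r • a) := by rw [hv]
      _ = f (algebraMap ℤ k s.1 • (r • a)) := by rw [key, key, map_zsmul]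
      _ = f (algebraMap ℤ k n • a) := by rw [smul_smul, ← hv, mul_comm, hs']
      _ = algebraMap ℤ k n • f a := by rw [key, key, map_zsmul]
      _ = (v : k) • (r • f a) := by rw [smul_smul, mul_comm, hs']
  have h2 := congrArg (fun c => (↑v⁻¹ : k) • c) h1
  simpa [smul_smul] using h2

/-- In a characteristic zero domain every prime is a non-zero-divisor. -/
theorem prime_mul_eq_zero_of_domain (k : Type u) [CommRing k] [IsDomain k] [CharZero k]
    (p : ℕ) (hp : p.Prime) (r : k) (h : (p : k) * r = 0) : r = 0 := by
  rcases mul_eq_zero.mp h with h0 | h0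
  · exact absurd (by exact_mod_cast h0) hp.ne_zero
  · exact h0

variable {k G : Type u} [CommRing k] [IsDomain k] [CharZero k] [Group G] [Fintype G]

/-- The twin criterion over a characteristic zero domain with `AddHomsLinear`. -/
theorem isCohTrivial_of_H1_H2_of_domain (hk : AddHomsLinear k) (A : Rep k G)
    (h : ∀ H : Subgroup G, IsZero (groupCohomology (Rep.res H.subtype A) 1) ∧
      IsZero (groupCohomology (Rep.res H.subtype A) 2)) :
    IsCohTrivial A :=
  isCohTrivial_of_H1_H2 hk (prime_mul_eq_zero_of_domain k) A h

theorem isZero_H1_trivial_of_domain (H : Subgroup G) :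
    IsZero (groupCohomology (Rep.res H.subtype (Rep.trivial k G k)) 1) := by
  classical
  letI : Fintype H := Fintype.ofFinite H
  refine isZero_H1_trivial H.subtype (fun r hr => ?_)
  rcases mul_eq_zero.mp hr with h0 | h0
  · exact absurd (by exact_mod_cast h0) Fintype.card_ne_zero
  · exact h0

variable {C : Rep k G} {φ : cocycles₂ C}

/-- The splitting module of a class module is cohomologically trivial. -/
theorem isCohTrivial_split_of_domain (hk : AddHomsLinear k) (hC : IsClassModule C φ) :
    IsCohTrivial (split C φ) :=
  isCohTrivial_split hC isZero_H1_trivial_of_domain (isCohTrivial_of_H1_H2_of_domain hk _)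

/-- **Tate's theorem** over `k` (e.g. `k = ℤ_(p)`). -/
theorem tate_theorem_of_domain (hk : AddHomsLinear k) (hC : IsClassModule C φ)
    (H : Subgroup G) [Fintype H] (n : ℤ) : IsIso (tateMapZ C φ H.subtype n) :=
  tate_theorem hC isZero_H1_trivial_of_domain (isCohTrivial_of_H1_H2_of_domain hk _) H n

end Fermat.Agent.CFT.A5.TateLocal
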